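import Fermat.Agent.S27.Char0.Lift.Defs
import Fermat.Agent.RED.H51_Final

/-!
# S27 LIFT, leaf COORD (helper45): the chart of a good reduction

For `G : GoodRed K F k Ft`, `x = G.x`, `xt = G.S.rd G.x`:

* `zerosStmt_u`: the zeros theorem, universe polymorphic;
* `exists_poleDiv`: the exact divisor of poles, of degree `[F : K(x)]`;
* `push_poleDiv`: `r_* (x)_∞ = (xt)_∞` (no cancellation, because the degrees agree);
* `pole_of_pole`: a pole of `x` reduces to a pole of `xt`;
* `exists_pole_over`: over a pole of `xt` there is a pole of `x`;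
* `isCoord_sub`: on a disc over a simple `α`-point of `xt`, `x - a` is a coordinate;
* `exists_value_x`: the value of `x` at a place over a non-pole is integral and reduces to the
  value of `xt`.
-/

set_option autoImplicit false

noncomputable section

open AlgebraicCurve IntermediateField

namespace Fermat.Agent.S27.Char0.Lift.H45

open Fermat.Agent.RED.H17 Fermat.Agent.S27.Char0 Fermat.Agent.S24

attribute [local instance] Classical.propDecidable

local notation "L" => riemannRochSpace

universe u v u' v'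

section FF

variable {K : Type u} {F : Type v} [Field K] [Field F] [Algebra K F]

/-- The zeros theorem, universe polymorphic. -/
theorem zerosStmt_u [IsAlgClosed K] {x₀ : F} (hx₀ : Transcendental K x₀)
    [FiniteDimensional K⟮x₀⟯ F] : H59.ZerosStmt K F :=
  Fermat.Agent.RED.H42.zerosStmt_of_exists_zero_of_le hx₀
    (fun x hx => Fermat.Agent.RED.H12.exists_place_ord_pos
      (fun y hy => ff_finite_of_transcendental x₀ hx₀ y hy) x hx)
    (Fermat.Agent.RED.H51.zerosLe K F)

/-- The exact divisor of poles of `x`, of degree `[F : K(x)]`. -/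
theorem exists_poleDiv [IsAlgClosed K] {x : F} (hx : Transcendental K x)
    [FiniteDimensional K⟮x⟯ F] :
    ∃ B : Divisor K F, (∀ v, B v = max (-(v.ord x)) 0) ∧
      Divisor.degree B = (Module.finrank K⟮x⟯ F : ℤ) := by
  classical
  have hz : H59.ZerosStmt K F := zerosStmt_u hx
  have htr' : Transcendental K x⁻¹ := fun h => hx (IsAlgebraic.inv_iff.mp h)
  have := ff_finite_of_transcendental x hx x⁻¹ htr'
  obtain ⟨hPfin, hPsum⟩ := hz x⁻¹ htr'
  rw [H59.finrank_adjoin_inv] at hPsum
  have hsupp : (Function.support fun v : Place K F => max (v.ord x⁻¹) 0).Finite := by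
    refine hPfin.subset fun v hv => ?_
    simp only [Function.mem_support, ne_eq] at hv
    simp only [Set.mem_ofPred_eq]
    omega
  have h1 : ∀ v, (Finsupp.ofSupportFinite _ hsupp : Divisor K F) v = max (v.ord x⁻¹) 0 :=
    fun _ => rfl
  refine ⟨Finsupp.ofSupportFinite _ hsupp, fun v => ?_, ?_⟩
  · rw [h1, Place.ord_inv]
  · rw [H59.degree_eq_sum_of_deg_eq_one (fun v => ff_deg_eq_one x hx v), ← hPsum,
      finsum_mem_eq_finite_toFinset_sum _ hPfin]
    have hs : (Finsupp.ofSupportFinite _ hsupp : Divisor K F).support = hPfin.toFinset := by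
      ext v
      simp only [Finsupp.mem_support_iff, Set.Finite.mem_toFinset, Set.mem_ofPred_eq]
      rw [h1]
      omega
    rw [hs]
    refine Finset.sum_congr rfl fun v hv => ?_
    rw [h1]
    simp only [Set.Finite.mem_toFinset, Set.mem_ofPred_eq] at hv
    omega

/-- A divisor `≥ 0` of degree `0` is zero. -/
theorem eq_zero_of_nonneg_of_degree (hdeg : ∀ v : Place K F, v.deg = 1) {D : Divisor K F}
    (hD : ∀ v, 0 ≤ D v) (h0 : Divisor.degree D = 0) : D = 0 := by
  rw [degree_eq_sum hdeg] at h0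
  ext v
  by_cases hv : v ∈ D.support
  · exact (Finset.sum_eq_zero_iff_of_nonneg fun w _ => hD w).mp h0 v hv
  · rw [Finsupp.notMem_support_iff] at hv
    rw [hv]
    rfl

end FF

section GoodRed

variable {K : Type u} {F : Type v} {k : Type u'} {Ft : Type v'} [Field K] [Field F]
  [Algebra K F] [Field k] [Field Ft] [Algebra k Ft] (G : GoodRed K F k Ft)

theorem xt_ne_zero : G.S.rd G.x ≠ 0 := fun h => G.transc (by rw [h]; exact isAlgebraic_zero)

theorem x_isGU : G.S.IsGU G.x := ⟨G.hx, xt_ne_zero G⟩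

theorem x_transc [IsAlgClosed K] : Transcendental K G.x := by
  by_contra halg
  have hmem : G.x ∈ Set.range (algebraMap K F) := by
    by_contra hne
    exact halg (Fermat.Agent.RED.H42.transcendental_of_not_mem_range hne)
  obtain ⟨a, ha⟩ := hmem
  have hV : algebraMap K F a ∈ G.S.V := by rw [ha]; exact G.hx
  obtain ⟨c', hc'⟩ := G.S.rd_const_eq a hV
  rw [ha] at hc'
  exact G.transc (by rw [hc']; exact isAlgebraic_algebraMap c')

/-- `r_* (x)_∞ = (xt)_∞`. -/
theorem push_poleDiv [IsAlgClosed K] [IsAlgClosed k] (H : FFHyp K F) (H' : FFHyp k Ft)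
    {B : Divisor K F} (hB : ∀ v, B v = max (-(v.ord G.x)) 0)
    {B' : Divisor k Ft} (hB' : ∀ v, B' v = max (-(v.ord (G.S.rd G.x))) 0)
    (hdB : Divisor.degree B = (Module.finrank K⟮G.x⟯ F : ℤ))
    (hdB' : Divisor.degree B' = (Module.finrank k⟮G.S.rd G.x⟯ Ft : ℤ)) :
    Finsupp.mapDomain G.S.r B = B' := by
  have hP := H.principal
  have hge : ∀ Q, B' Q ≤ Finsupp.mapDomain G.S.r B Q := by
    intro Q
    have h1 := G.S.mapDomain_dv hP (x_isGU G) Q
    have h2 := mapDomain_nonneg' G.S.r (D := dv hP G.x + B) (fun P => by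
      rw [Finsupp.add_apply, dv_apply, hB]
      omega) Q
    have h3 := mapDomain_nonneg' G.S.r (D := B) (fun P => by
      rw [hB]
      omega) Q
    rw [Finsupp.mapDomain_add, Finsupp.add_apply, h1] at h2
    rw [hB']
    omega
  have hdeg : Divisor.degree (Finsupp.mapDomain G.S.r B - B') = 0 := by
    rw [map_sub, degree_mapDomain H.deg_one H'.deg_one, hdB, hdB', G.deg]
    ring
  have h0 := eq_zero_of_nonneg_of_degree H'.deg_one (D := Finsupp.mapDomain G.S.r B - B')
    (fun Q => by rw [Finsupp.sub_apply]; have := hge Q; omega) hdeg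
  exact sub_eq_zero.mp h0

/-- A pole of `x` reduces to a pole of `xt`. -/
theorem pole_of_pole [IsAlgClosed K] [IsAlgClosed k] (H : FFHyp K F) (H' : FFHyp k Ft)
    {P : Place K F} (hP : P.ord G.x < 0) : (G.S.r P).ord (G.S.rd G.x) < 0 := by
  have := G.fin
  have := G.fin'
  obtain ⟨B, hB, hdB⟩ := exists_poleDiv (x_transc G)
  obtain ⟨B', hB', hdB'⟩ := exists_poleDiv G.transc
  have hpush := push_poleDiv G H H' hB hB' hdB hdB'
  have h1 : B P ≤ Finsupp.mapDomain G.S.r B (G.S.r P) := by
    rw [mapDomain_apply_eq_sum]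
    have hmem : P ∈ B.support := by
      rw [Finsupp.mem_support_iff, hB]
      omega
    have := Finset.single_le_sum (f := fun P' => if G.S.r P' = G.S.r P then B P' else 0)
      (fun P' _ => by
        show 0 ≤ (if G.S.r P' = G.S.r P then B P' else 0)
        split_ifs
        · rw [hB]; omega
        · exact le_rfl) hmem
    simpa using this
  rw [hpush, hB, hB'] at h1
  omega

/-- A place over a non-pole of `xt` is not a pole of `x`. -/
theorem ord_nonneg_of_ord_nonneg [IsAlgClosed K] [IsAlgClosed k] (H : FFHyp K F)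
    (H' : FFHyp k Ft) {P : Place K F} (hP : 0 ≤ (G.S.r P).ord (G.S.rd G.x)) :
    0 ≤ P.ord G.x := by
  by_contra h
  have := pole_of_pole G H H' (not_le.mp h)
  omega

/-- Over a pole of `xt` there is a pole of `x`. -/
theorem exists_pole_over [IsAlgClosed K] [IsAlgClosed k] (H : FFHyp K F) (H' : FFHyp k Ft)
    {Q : Place k Ft} (hQ : Q.ord (G.S.rd G.x) < 0) : ∃ P, G.S.r P = Q ∧ P.ord G.x < 0 := by
  have := G.fin
  have := G.fin'
  obtain ⟨B, hB, hdB⟩ := exists_poleDiv (x_transc G)
  obtain ⟨B', hB', hdB'⟩ := exists_poleDiv G.transc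
  have hpush := push_poleDiv G H H' hB hB' hdB hdB'
  have h1 : 0 < Finsupp.mapDomain G.S.r B Q := by
    rw [hpush, hB']
    omega
  rw [mapDomain_apply_eq_sum] at h1
  obtain ⟨P, hPs, hPpos⟩ := Finset.exists_lt_of_sum_lt (by simpa using h1 :
    ∑ P ∈ B.support, (0 : ℤ) < ∑ P ∈ B.support, if G.S.r P = Q then B P else 0)
  by_cases hPQ : G.S.r P = Q
  · rw [if_pos hPQ, hB] at hPpos
    exact ⟨P, hPQ, by omega⟩
  · rw [if_neg hPQ] at hPpos
    exact absurd hPpos (lt_irrefl _)

/-- `xt` is regular at `Q` if `xt - α` vanishes at `Q`. -/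
theorem xt_ord_nonneg {Q : Place k Ft} {α : k}
    (hQ : 0 < Q.ord (G.S.rd G.x - algebraMap k Ft α)) : 0 ≤ Q.ord (G.S.rd G.x) := by
  have h1 : RegAt Q (G.S.rd G.x - algebraMap k Ft α) := regAt_of_ord_nonneg hQ.le
  have h2 := h1.add (regAt_algebraMap Q α)
  rw [sub_add_cancel] at h2
  exact h2.ord_nonneg

/-- On the disc over a simple `α`-point of `xt`, `x - a` is a coordinate for every lift `a` of
`α`. -/
theorem isCoord_sub [IsAlgClosed K] [IsAlgClosed k] (H : FFHyp K F) (H' : FFHyp k Ft)
    {Q : Place k Ft} {α : k} (hQ : Q.ord (G.S.rd G.x - algebraMap k Ft α) = 1)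
    {a : K} (ha : algebraMap K F a ∈ G.S.V)
    (haα : G.S.rd (algebraMap K F a) = algebraMap k Ft α) :
    G.S.IsCoord (G.x - algebraMap K F a) Q := by
  have hrd : G.S.rd (G.x - algebraMap K F a) = G.S.rd G.x - algebraMap k Ft α := by
    rw [G.S.rd_sub G.hx ha, haα]
  refine ⟨⟨G.S.V.sub_mem G.hx ha, ?_⟩, fun P hPQ => ?_, by rw [hrd]; exact hQ⟩
  · rw [hrd]
    intro h0
    rw [h0, Place.ord_zero] at hQ
    exact zero_ne_one hQ
  · have h1 : 0 ≤ (G.S.r P).ord (G.S.rd G.x) := by
      rw [hPQ]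
      exact xt_ord_nonneg G (by rw [hQ]; exact one_pos)
    have h2 := ord_nonneg_of_ord_nonneg G H H' h1
    exact ((regAt_of_ord_nonneg h2).sub (regAt_algebraMap P a)).ord_nonneg

/-- The value of `x` at a place over a non-pole of `xt`: it is integral and its reduction is
the value of `xt`. -/
theorem exists_value_x [IsAlgClosed K] [IsAlgClosed k] (H : FFHyp K F) (H' : FFHyp k Ft)
    {P : Place K F} (hP : 0 ≤ (G.S.r P).ord (G.S.rd G.x)) :
    ∃ b : K, VanAt P (G.x - algebraMap K F b) ∧ algebraMap K F b ∈ G.S.V ∧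
      VanAt (G.S.r P) (G.S.rd G.x - G.S.rd (algebraMap K F b)) := by
  have h2 := ord_nonneg_of_ord_nonneg G H H' hP
  obtain ⟨b, hb⟩ := exists_value P (H.deg_one P) (regAt_of_ord_nonneg h2)
  have hreg : ∀ P', G.S.r P' = G.S.r P → 0 ≤ P'.ord G.x := fun P' hP' =>
    ord_nonneg_of_ord_nonneg G H H' (by rw [hP']; exact hP)
  obtain ⟨h3, h4⟩ := G.S.const_of_vanAt H.principal G.hx hreg rfl hb
  exact ⟨b, hb, h3, h4⟩

end GoodRed

end Fermat.Agent.S27.Char0.Lift.H45
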