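import Fermat.Agent.S27.Char0.Lift.H68_SolveDefs
import Fermat.Agent.S27.Char0.H20_EisExA

/-!
# S27 LIFT / SOLVE, leaf ORD-ROOT (helper20)
-/

set_option autoImplicit false

noncomputable section

open AlgebraicCurve IntermediateField Polynomial

namespace Fermat.Agent.S27.Char0.Lift.H20

open Fermat.Agent.RED.H51 Fermat.Agent.S27.Char0.H20

universe u v

variable {K : Type u} {F : Type v} [Field K] [Field F] [Algebra K F]

/-- `p(x) = (p ∘ (X + α))(x - α)`. -/
theorem aeval_comp_shift (x : F) (α : K) (p : K[X]) :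
    aeval (x - algebraMap K F α) (p.comp (X + C α)) = aeval x p := by
  rw [aeval_comp]
  simp

/-- The order of a polynomial in `x` at a zero of `x - α`. -/
theorem ord_aeval_center (P : Place K F) {x : F} {α : K}
    (hw : 0 < P.ord (x - algebraMap K F α)) {p : K[X]} (hp : p ≠ 0) :
    aeval x p ≠ 0 ∧
      P.ord (aeval x p) = P.ord (x - algebraMap K F α) * p.rootMultiplicity α := by
  have hq : p.comp (X + C α) ≠ 0 := by
    intro h
    have h1 : (p.comp (X + C α)).comp (X - C α) = 0 := by rw [h, zero_comp]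
    rw [comp_assoc] at h1
    simp at h1
    exact hp h1
  have h1 := ord_aeval_eq P hw hq
  rw [aeval_comp_shift] at h1
  refine ⟨h1.1, ?_⟩
  rw [h1.2, ← rootMultiplicity_eq_rootMultiplicity]

/-- **ORD-ROOT**. -/
theorem stmt_OrdRoot : Solve.Stmt_OrdRoot.{u, v} := by
  intro k Ft _ _ _ xt _ Q α hQ p m hp hm
  have hw : 0 < Q.ord (xt - algebraMap k Ft α) := by rw [hQ]; norm_num
  have h1 := (ord_aeval_center Q hw hp).2
  rw [hQ, one_mul] at h1
  rw [h1] at hm
  exact (le_rootMultiplicity_iff hp).mp (by exact_mod_cast hm)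

end Fermat.Agent.S27.Char0.Lift.H20
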