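import Fermat.Agent.S27.Char0.Lift.H68_SolveDefs2
import Fermat.Agent.S27.Char0.Lift.H20_OrdRoot

/-!
# S27 LIFT / SOLVE, leaf JAC-ORD (helper20)
-/

set_option autoImplicit false

noncomputable section

open AlgebraicCurve IntermediateField Polynomial

namespace Fermat.Agent.S27.Char0.Lift.H20

open Fermat.Agent.RED.H51 Fermat.Agent.S27.Char0.H20 Fermat.Agent.S27.Lift.H68

universe u v

variable {k : Type u} {Ft : Type v} [Field k] [Field Ft] [Algebra k Ft]

/-- `(X - α_i)^(n-1)` divides `rootProd n α`. -/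
theorem pow_pred_dvd_rootProd {g : ℕ} (n : ℕ) (α : Fin g → k) (i : Fin g) :
    (X - C (α i)) ^ (n - 1) ∣ rootProd n α := by
  unfold rootProd
  exact (pow_dvd_pow _ (Nat.sub_le n 1)).trans
    (Finset.dvd_prod_of_mem (fun i' => (X - C (α i')) ^ n) (Finset.mem_univ i))

/-- `(X - α_i)^(n-1)` divides `rootProdErase n α i'`. -/
theorem pow_pred_dvd_rootProdErase {g : ℕ} (n : ℕ) (α : Fin g → k) (i i' : Fin g) :
    (X - C (α i)) ^ (n - 1) ∣ rootProdErase n α i' := by
  unfold rootProdErase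
  rcases eq_or_ne i i' with rfl | hne
  · exact dvd_mul_right _ _
  · refine Dvd.dvd.mul_left ?_ _
    exact (pow_dvd_pow _ (Nat.sub_le n 1)).trans
      (Finset.dvd_prod_of_mem (fun j => (X - C (α j)) ^ n)
        (Finset.mem_erase.mpr ⟨hne, Finset.mem_univ i⟩))

/-- **JAC-ORD**. -/
theorem stmt_JacOrd : Solve.Stmt_JacOrd.{u, v} := by
  classical
  intro k Ft _ _ _ xt hxt g n α Qs hα hQ ct dc da T hct hT i
  set Q := Qs i with hQdef
  have hQi : Q.ord (xt - algebraMap k Ft (α i)) = 1 := hQ i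
  have hwpos : 0 < Q.ord (xt - algebraMap k Ft (α i)) := by rw [hQi]; norm_num
  have hw0 : xt - algebraMap k Ft (α i) ≠ 0 := ne_zero_of_ord_ne_zero Q (by rw [hQi]; norm_num)
  -- `xt` is regular at `Q`
  have hxreg : OrdGe Q 0 xt := by
    have h1 : OrdGe Q 0 (xt - algebraMap k Ft (α i)) := ordGe_of_le Q hwpos.le
    have h2 := h1.add (ordGe_algebraMap Q (α i))
    simpa using h2
  -- the order of the left factor is `n`
  have hfac : ∀ i' : Fin g, (xt - algebraMap k Ft (α i')) ^ n ≠ 0 ∧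
      Q.ord ((xt - algebraMap k Ft (α i')) ^ n) = if i' = i then (n : ℤ) else 0 := by
    intro i'
    rcases eq_or_ne i' i with rfl | hne
    · refine ⟨pow_ne_zero _ hw0, ?_⟩
      rw [ord_pow, hQi, mul_one, if_pos rfl]
    · have hc : α i - α i' ≠ 0 := sub_ne_zero.mpr fun h => hne (hα h).symm
      have hc' : algebraMap k Ft (α i - α i') ≠ 0 :=
        (map_ne_zero (algebraMap k Ft)).mpr hc
      have h1 : OrdGe Q (Q.ord (algebraMap k Ft (α i - α i')) + 1)
          (xt - algebraMap k Ft (α i)) := by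
        rw [ord_algebraMap]
        exact ordGe_of_le Q (by omega)
      have h2 := ord_add_eq Q hc' h1
      have h3 : algebraMap k Ft (α i - α i') + (xt - algebraMap k Ft (α i))
          = xt - algebraMap k Ft (α i') := by
        rw [map_sub]; ring
      rw [h3, ord_algebraMap] at h2
      refine ⟨pow_ne_zero _ h2.1, ?_⟩
      rw [ord_pow, h2.2, mul_zero, if_neg hne]
  have hA : aeval xt (rootProd n α) = ∏ i', (xt - algebraMap k Ft (α i')) ^ n := by
    unfold rootProd
    simp [map_prod]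
  have hA0 : aeval xt (rootProd n α) ≠ 0 := by
    rw [hA]
    exact Finset.prod_ne_zero_iff.mpr fun i' _ => (hfac i').1
  have hAord : Q.ord (aeval xt (rootProd n α)) = n := by
    rw [hA, ord_prod Q _ _ (fun i' _ => (hfac i').1)]
    rw [Finset.sum_congr rfl fun i' _ => (hfac i').2]
    simp
  have hct' : algebraMap k Ft ct ≠ 0 := by simpa using hct
  have hP0 : aeval xt (C ct * rootProd n α) ≠ 0 := by
    rw [map_mul, aeval_C]
    exact mul_ne_zero hct' hA0
  have hPord : Q.ord (aeval xt (C ct * rootProd n α)) = n := by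
    rw [map_mul, aeval_C, Q.ord_mul hct' hA0, ord_algebraMap, hAord, zero_add]
  -- the right-hand side is divisible by `(X - α_i)^(n-1)`
  set R : k[X] := C dc * rootProd n α -
    C (ct * n) * ∑ i', C (da i') * rootProdErase n α i' with hR
  have hdvd : (X - C (α i)) ^ (n - 1) ∣ R := by
    rw [hR]
    refine dvd_sub (Dvd.dvd.mul_left (pow_pred_dvd_rootProd n α i) _) ?_
    refine Dvd.dvd.mul_left (Finset.dvd_sum fun i' _ => ?_) _
    exact Dvd.dvd.mul_left (pow_pred_dvd_rootProdErase n α i i') _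
  obtain ⟨R', hR'⟩ := hdvd
  have hRord : OrdGe Q ((n : ℤ) - 1) (aeval xt R) := by
    rw [hR', map_mul, map_pow, map_sub, aeval_X, aeval_C]
    have h1 : OrdGe Q (((n - 1 : ℕ) : ℤ)) ((xt - algebraMap k Ft (α i)) ^ (n - 1)) := by
      refine ordGe_of_le Q ?_
      rw [ord_pow, hQi, mul_one]
    have h2 := h1.mul (Fermat.Agent.RED.H51.ordGe_aeval Q hxreg R')
    exact h2.mono (by omega)
  -- conclusion
  rcases eq_or_ne T 0 with rfl | hT0
  · rw [Place.ord_zero]; norm_num
  have hRne : aeval xt R ≠ 0 := by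
    rw [← hT]
    exact mul_ne_zero hP0 hT0
  have h1 := hRord.le hRne
  have h2 : Q.ord (aeval xt R) = Q.ord (aeval xt (C ct * rootProd n α)) + Q.ord T := by
    rw [← hT, Q.ord_mul hP0 hT0]
  rw [hPord] at h2
  omega

end Fermat.Agent.S27.Char0.Lift.H20
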