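import Fermat.Agent.S27.Char0.Lift.H45_Fibre

/-!
# S27 LIFT, leaf CONCL (helper45)

`stmt_Concl : Stmt_Concl`: for a solution `h` of the norm system, `n ∣ ord_P h` at every place.

Put `D₁ := div h + n E' ≥ 0`.  By the divisor identity `r_* D₁ = n · ptsDiv A`.
* Over `Q ∉ A` the fibre of `D₁` is zero.
* Over `Q ∈ A`: `x - a_Q` has a unique zero `X` in the fibre, and it is simple.  By the norm
  formula on the fibre `T = {x = a_Q}` and the norm equation, `∑_{P ∈ T} D₁ P = n`; the places of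
  `T` other than `X` lie over points outside `A`, so `D₁ X = n`, and `D₁` vanishes at the other
  places of the fibre of `Q`.
-/

set_option autoImplicit false

noncomputable section

open AlgebraicCurve IntermediateField

namespace Fermat.Agent.S27.Char0.Lift.H45

open Fermat.Agent.RED.H17 Fermat.Agent.S27.Char0 Fermat.Agent.S24

attribute [local instance] Classical.propDecidable

local notation "L" => riemannRochSpace

universe u v u' v'

section Fibre

variable {α β : Type*} (r : α → β)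

/-- If one point carries the whole mass of the fibre, the others carry none. -/
theorem fibre_single {E : α →₀ ℤ} (hE : ∀ a, 0 ≤ E a) {b : β} {x : α} (hx : r x = b)
    (hb : Finsupp.mapDomain r E b = E x) {a : α} (ha : r a = b) (hax : a ≠ x) : E a = 0 := by
  have hnn : ∀ y, 0 ≤ (E - Finsupp.single x (E x)) y := by
    intro y
    rw [Finsupp.sub_apply, Finsupp.single_apply]
    split_ifs with hxy
    · rw [hxy, sub_self]
    · rw [sub_zero]; exact hE y
  have h0 : Finsupp.mapDomain r (E - Finsupp.single x (E x)) b = 0 := by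
    rw [Finsupp.mapDomain_sub, Finsupp.sub_apply, Finsupp.mapDomain_single,
      Finsupp.single_apply, if_pos hx, hb, sub_self]
  have := fibre_zero r hnn h0 ha
  rw [Finsupp.sub_apply, Finsupp.single_apply, if_neg (Ne.symm hax), sub_zero] at this
  exact this

end Fibre

section Main

variable {K : Type u} {F : Type v} {k : Type u'} {Ft : Type v'} [Field K] [Field F]
  [Algebra K F] [Field k] [Field Ft] [Algebra k Ft]

/-- The order of `x - a'` at a simple zero of `x - a`. -/
theorem ord_sub_const_at {x : F} (_hx : ∀ a : K, x - algebraMap K F a ≠ 0) {X : Place K F}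
    {a : K} (hX : X.ord (x - algebraMap K F a) = 1) (a' : K) :
    X.ord (x - algebraMap K F a') = if a' = a then 1 else 0 := by
  split_ifs with h
  · rw [h]; exact hX
  · have h1 : x - algebraMap K F a' = algebraMap K F (a - a') + (x - algebraMap K F a) := by
      rw [map_sub]; ring
    have h2 : a - a' ≠ 0 := sub_ne_zero.mpr (Ne.symm h)
    rw [h1, ord_add_of_lt X ((map_ne_zero (algebraMap K F)).mpr h2)
      (Or.inr (by rw [ord_algebraMap, hX]; exact one_pos)), ord_algebraMap]

theorem stmt_Concl : Stmt_Concl.{u, v, u', v'} := by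
  intro K F k Ft _ _ _ _ _ _ _ _ _ G H H' g c c' hg hg' n hn E Gd N Ld h hsol P₀
  have hP := H.principal
  have hGU : G.S.IsGU h := ⟨hsol.mem_V, by rw [hsol.rd_eq]; exact Gd.ht_ne⟩
  have hh0 : h ≠ 0 := hGU.ne_zero
  set D₁ : Divisor K F := dv hP h + (n : ℤ) • Ld.E' with hD₁
  have hD₁a : ∀ P, D₁ P = P.ord h + n * Ld.E' P := by
    intro P
    rw [hD₁, Finsupp.add_apply, dv_apply, Finsupp.smul_apply, smul_eq_mul]
  have hD₁nn : ∀ P, 0 ≤ D₁ P := by
    intro P
    have := ord_ge_of_mem_L hsol.mem_L hh0 P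
    rw [Finsupp.smul_apply, smul_eq_mul] at this
    rw [hD₁a]
    omega
  have hpush : ∀ Q, Finsupp.mapDomain G.S.r D₁ Q = n * ptsDiv Gd.A Q := by
    intro Q
    rw [hD₁, Finsupp.mapDomain_add, Finsupp.add_apply, G.S.mapDomain_dv hP hGU Q, hsol.rd_eq,
      Gd.div_ht Q, Finsupp.mapDomain_smul, Finsupp.smul_apply, Ld.push, smul_eq_mul]
    ring
  -- the fibres over points outside `A`
  have hout : ∀ P, G.S.r P ∉ Gd.A → D₁ P = 0 := by
    intro P hPA
    exact fibre_zero G.S.r hD₁nn (by rw [hpush, ptsDiv_apply, if_neg hPA, mul_zero]) rfl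
  suffices hmain : (n : ℤ) ∣ D₁ P₀ by
    have h1 := hD₁a P₀
    have h2 : P₀.ord h = D₁ P₀ - n * Ld.E' P₀ := by omega
    rw [h2]
    exact dvd_sub hmain (dvd_mul_right _ _)
  by_cases hQA : G.S.r P₀ ∈ Gd.A
  swap
  · rw [hout P₀ hQA]
    exact dvd_zero _
  -- the fibre over `Q ∈ A`
  set Q := G.S.r P₀ with hQ
  obtain ⟨c₀, a, hc₀, ha, hnorm⟩ := hsol.norm_eq
  have haQ := ha Q hQA
  have hcoord := isCoord_sub G H H' (Gd.simple Q hQA) haQ.1 haQ.2
  obtain ⟨X, hXQ, hX1, hXother⟩ := hcoord.exists_zero hP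
  have hxtr := x_transc G
  have hxne : ∀ a' : K, G.x - algebraMap K F a' ≠ 0 := by
    intro a' h0
    apply hxtr
    rw [sub_eq_zero.mp h0]
    exact isAlgebraic_algebraMap a'
  have hfin := G.fin
  obtain ⟨T, hT, hTsum⟩ := norm_at_simple hP G.x hxtr (a Q) X hX1
  have hsumh := hTsum h hh0
  have hordX := fun a' => ord_sub_const_at hxne hX1 a'
  -- injectivity of the lifts
  have hainj : ∀ Q' ∈ Gd.A, a Q' = a Q → Q' = Q := by
    intro Q' hQ' haa
    have h1 := (ha Q' hQ').2
    rw [haa, haQ.2] at h1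
    exact Gd.inj Q' hQ' Q hQA ((algebraMap k Ft).injective h1).symm
  -- the order of the right-hand side
  have hR : X.ord (algebraMap K F c₀ * ∏ Q' ∈ Gd.A, (G.x - algebraMap K F (a Q')) ^ n) = n := by
    rw [ord_algebraMap_mul X hc₀, ord_prod X _ _ fun Q' _ => pow_ne_zero _ (hxne _)]
    have h1 : ∀ Q' ∈ Gd.A, X.ord ((G.x - algebraMap K F (a Q')) ^ n)
        = if Q' = Q then (n : ℤ) else 0 := by
      intro Q' hQ'
      rw [ord_pow, hordX]
      by_cases hQQ : Q' = Q
      · rw [if_pos hQQ, if_pos (by rw [hQQ]), mul_one]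
      · rw [if_neg hQQ, if_neg (fun haa => hQQ (hainj Q' hQ' haa)), mul_zero]
    rw [Finset.sum_congr rfl h1, Finset.sum_ite_eq' Gd.A Q, if_pos hQA]
  -- the order of `dfin`
  set Sfin := Ld.E'.support.filter (fun P => 0 ≤ P.ord G.x) with hSfin
  have hDf : X.ord (dfin G n Ld.E' Ld.b)
      = ∑ P ∈ Sfin, if Ld.b P = a Q then (n : ℤ) * Ld.E' P else 0 := by
    unfold dfin
    rw [ord_prod X _ _ fun P _ => pow_ne_zero _ (hxne _)]
    refine Finset.sum_congr rfl fun P _ => ?_
    rw [ord_pow, hordX]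
    split_ifs
    · rw [mul_one]
      push_cast
      rw [Int.toNat_of_nonneg (Ld.eff P)]
    · rw [mul_zero]
  have hdfin0 : dfin G n Ld.E' Ld.b ≠ 0 := by
    unfold dfin
    exact Finset.prod_ne_zero_iff.mpr fun P _ => pow_ne_zero _ (hxne _)
  have hN0 : algebraMap ↥K⟮G.x⟯ F (Algebra.norm ↥K⟮G.x⟯ h) ≠ 0 :=
    (map_ne_zero _).mpr (Algebra.norm_ne_zero_iff.mpr hh0)
  have hordN : X.ord (algebraMap ↥K⟮G.x⟯ F (Algebra.norm ↥K⟮G.x⟯ h))
      = n - ∑ P ∈ Sfin, if Ld.b P = a Q then (n : ℤ) * Ld.E' P else 0 := by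
    have h1 := congrArg X.ord hnorm
    rw [X.ord_mul hdfin0 hN0, hR, hDf] at h1
    omega
  -- the places of `E'` in `T`
  have hreg_of_T : ∀ P ∈ T, 0 ≤ P.ord G.x := by
    intro P hPT
    have h1 : VanAt P (G.x - algebraMap K F (a Q)) := vanAt_of_ord_pos ((hT P).mp hPT)
    exact (RegAt.of_vanAt_sub h1).ord_nonneg
  have hval : ∀ P ∈ Ld.E'.support, 0 ≤ P.ord G.x →
      0 < P.ord (G.x - algebraMap K F (Ld.b P)) := by
    intro P hPs hPx
    refine Ld.value P hPs ?_
    by_contra hneg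
    have := Ld.pole P hPs (not_le.mp hneg)
    omega
  have hTE : ∑ P ∈ T, (n : ℤ) * Ld.E' P
      = ∑ P ∈ Sfin, if Ld.b P = a Q then (n : ℤ) * Ld.E' P else 0 := by
    rw [← Finset.sum_filter]
    have hset : Sfin.filter (fun P => Ld.b P = a Q) = T.filter (fun P => P ∈ Ld.E'.support) := by
      ext P
      simp only [hSfin, Finset.mem_filter]
      constructor
      · rintro ⟨⟨hPs, hPx⟩, hb⟩
        refine ⟨(hT P).mpr ?_, hPs⟩
        rw [← hb]
        exact hval P hPs hPx
      · rintro ⟨hPT, hPs⟩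
        have hPx := hreg_of_T P hPT
        refine ⟨⟨hPs, hPx⟩, ?_⟩
        exact value_unique P (vanAt_of_ord_pos (hval P hPs hPx))
          (vanAt_of_ord_pos ((hT P).mp hPT))
    rw [hset, Finset.sum_filter]
    refine Finset.sum_congr rfl fun P _ => ?_
    split_ifs with hPs
    · rfl
    · rw [Finsupp.notMem_support_iff.mp hPs, mul_zero]
  have htot : ∑ P ∈ T, D₁ P = n := by
    have h1 : ∑ P ∈ T, D₁ P = ∑ P ∈ T, P.ord h + ∑ P ∈ T, (n : ℤ) * Ld.E' P := by
      rw [← Finset.sum_add_distrib]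
      exact Finset.sum_congr rfl fun P _ => hD₁a P
    rw [h1, hsumh, hordN, hTE]
    ring
  -- the places of `T` other than `X`
  have hXT : X ∈ T := (hT X).mpr (by rw [hX1]; exact one_pos)
  have hoth : ∀ P ∈ T, P ≠ X → D₁ P = 0 := by
    intro P hPT hPX
    apply hout
    intro hPA
    have hPvan : VanAt P (G.x - algebraMap K F (a Q)) := vanAt_of_ord_pos ((hT P).mp hPT)
    by_cases hPQ : G.S.r P = Q
    · have := hXother P hPQ hPX
      have := (hT P).mp hPT
      omega
    · -- `r P ∈ A` has another `x`-value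
      have hQ'1 := Gd.simple (G.S.r P) hPA
      have hQ'reg : 0 ≤ (G.S.r P).ord (G.S.rd G.x) :=
        xt_ord_nonneg G (by rw [hQ'1]; exact one_pos)
      have hreg : ∀ P', G.S.r P' = G.S.r P → 0 ≤ P'.ord G.x := fun P' hP' =>
        ord_nonneg_of_ord_nonneg G H H' (by rw [hP']; exact hQ'reg)
      obtain ⟨-, h4⟩ := G.S.const_of_vanAt hP G.hx hreg rfl hPvan
      rw [haQ.2] at h4
      have h5 : VanAt (G.S.r P) (G.S.rd G.x - algebraMap k Ft (Gd.α (G.S.r P))) :=
        vanAt_of_ord_pos (by rw [hQ'1]; exact one_pos)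
      have h6 := value_unique (G.S.r P) h5 h4
      exact hPQ (Gd.inj (G.S.r P) hPA Q hQA h6)
  have hD₁X : D₁ X = n := by
    rw [← htot]
    exact (Finset.sum_eq_single_of_mem X hXT fun P hPT hPX => hoth P hPT hPX).symm
  by_cases hP₀X : P₀ = X
  · rw [hP₀X, hD₁X]
  · have h1 : Finsupp.mapDomain G.S.r D₁ Q = D₁ X := by
      rw [hpush, ptsDiv_apply, if_pos hQA, mul_one, hD₁X]
    rw [fibre_single G.S.r hD₁nn hXQ h1 rfl hP₀X]
    exact dvd_zero _

end Main

end Fermat.Agent.S27.Char0.Lift.H45
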