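import Fermat.Agent.S27.Char0.Lift.Defs2
import Fermat.Agent.S27.RR.H52_Canon

/-!
# S27 LIFT, leaf GENERIC from RAMFIN (helper45)

* `exists_nonspecial_avoid` (G2): helper17's non-special divisor with a step-wise avoidance;
* `stmt_Generic_of : Stmt_RamFin → Stmt_Generic` (G3): `Et' := Et - E + div f` for
  `0 ≠ f ∈ L(Et - E)`, `ht := u / f^n` where `n E = div u`; `l(n Et') = l(n Et) = n g + 1 - g`
  by Riemann-Roch (helper52), as `l(W - Et) = 0`.
-/

set_option autoImplicit false

noncomputable section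

open AlgebraicCurve IntermediateField

namespace Fermat.Agent.S27.Char0.Lift.H45

open Fermat.Agent.RED.H17 Fermat.Agent.S27.Char0 Fermat.Agent.S27.RR.H52

attribute [local instance] Classical.propDecidable

local notation "L" => riemannRochSpace

universe u v u' v'

section Nonspecial

variable {K : Type u} {F : Type v} [Field K] [Field F] [Algebra K F]

theorem one_le_finrank_L (H : FFHyp K F) {D : Divisor K F} (hD : ∀ v, 0 ≤ D v) :
    1 ≤ Module.finrank K (L D) := by
  have := H.finite D
  rw [Nat.one_le_iff_ne_zero, Ne, Submodule.finrank_eq_zero]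
  intro hbot
  have := one_mem_L_of_nonneg hD
  rw [hbot, Submodule.mem_bot] at this
  exact one_ne_zero this

/-- **A non-special divisor with avoidance**: `g` distinct places `A` with `l(∑ A) = 1`,
satisfying a property `Pr` which can be kept when adding a point outside a finite set. -/
theorem exists_nonspecial_avoid [Infinite K] (H : FFHyp K F) {g : ℕ} {c : ℤ}
    (hR : IsGenus K F g c) (Pr : Finset (Place K F) → Prop) (h0 : Pr ∅)
    (hstep : ∀ A, Pr A → ∃ T : Finset (Place K F), ∀ v, v ∉ T → v ∉ A → Pr (insert v A)) :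
    ∃ A : Finset (Place K F), A.card = g ∧ Pr A ∧ Module.finrank K (L (ptsDiv A)) = 1 := by
  have key : ∀ j : ℕ, j ≤ g → ∃ A : Finset (Place K F), A.card = j ∧ Pr A ∧
      Module.finrank K (L (ptsDiv A)) ≤ 1 := by
    intro j
    induction j with
    | zero =>
      intro _
      exact ⟨∅, rfl, h0, by rw [ptsDiv_empty]; exact H.finrank_L_zero_le⟩
    | succ j ih =>
      intro hj
      obtain ⟨A, hA, hPA, hl⟩ := ih (by omega)
      obtain ⟨T, hT⟩ := hstep A hPA
      -- search for a good point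
      have search : ∀ N : ℕ, (∃ v, v ∉ A ∧ v ∉ T ∧
            Module.finrank K (L (ptsDiv A + Finsupp.single v 1)) ≤ 1) ∨
          ∃ B : Finset (Place K F), B.card = N ∧
            ∀ v ∈ B, ¬ (L (ptsDiv A + Finsupp.single v 1) ≤ L (ptsDiv A)) := by
        intro N
        induction N with
        | zero => exact Or.inr ⟨∅, rfl, fun v hv => absurd hv (Finset.notMem_empty v)⟩
        | succ N ihN =>
          rcases ihN with h | ⟨B, hB, hbad⟩
          · exact Or.inl h
          obtain ⟨v, hv⟩ := H.exists_notMem (A ∪ B ∪ T)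
          rw [Finset.mem_union, Finset.mem_union, not_or, not_or] at hv
          by_cases hgood : L (ptsDiv A + Finsupp.single v 1) ≤ L (ptsDiv A)
          · left
            refine ⟨v, hv.1.1, hv.2, ?_⟩
            have := H.finite (ptsDiv A)
            exact (Submodule.finrank_mono hgood).trans hl
          · right
            refine ⟨insert v B, by rw [Finset.card_insert_of_notMem hv.1.2, hB], ?_⟩
            intro w hw
            rcases Finset.mem_insert.mp hw with rfl | hw
            · exact hgood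
            · exact hbad w hw
      rcases search (c - j).toNat with ⟨v, hv, hvT, hl'⟩ | ⟨B, hB, hbad⟩
      · exact ⟨insert v A, by rw [Finset.card_insert_of_notMem hv, hA], hT v hvT hv,
          by rw [ptsDiv_insert hv]; exact hl'⟩
      · exfalso
        have h1 := H.finrank_add_ptsDiv_ge (ptsDiv A) B hbad
        have hdeg : Divisor.degree (ptsDiv A + ptsDiv B) = j + (c - j).toNat := by
          rw [map_add, degree_ptsDiv H.deg_one, degree_ptsDiv H.deg_one, hA, hB]
        have h2 := (hR (ptsDiv A + ptsDiv B)).2 (by rw [hdeg]; omega)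
        rw [hdeg] at h2
        have h3 := one_le_finrank_L H (ptsDiv_nonneg A)
        rw [hB] at h1
        omega
  obtain ⟨A, hA, hPA, hl⟩ := key g le_rfl
  exact ⟨A, hA, hPA, le_antisymm hl (one_le_finrank_L H (ptsDiv_nonneg A))⟩

end Nonspecial

theorem stmt_Generic_of (hRF : Stmt_RamFin.{u', v'}) : Stmt_Generic.{u', v'} := by
  intro k Ft _ _ _ _ H' g c' hg' xt hxt hfin hsep n hn E hE hnE
  have hP := H'.principal
  have hinf : Infinite k := IsAlgClosed.instInfinite
  obtain ⟨T, hT⟩ := hRF k Ft H' xt hxt hfin hsep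
  have hxne : ∀ α : k, xt - algebraMap k Ft α ≠ 0 := by
    intro α h0
    apply hxt
    rw [sub_eq_zero.mp h0]
    exact isAlgebraic_algebraMap α
  -- the invariant
  let Pr : Finset (Place k Ft) → Prop := fun A =>
    (∀ Q ∈ A, ∃ α : k, Q.ord (xt - algebraMap k Ft α) = 1) ∧
    (∀ Q ∈ A, ∀ Q' ∈ A, ∀ α : k, 0 < Q.ord (xt - algebraMap k Ft α) →
      0 < Q'.ord (xt - algebraMap k Ft α) → Q = Q')
  have hPr0 : Pr ∅ :=
    ⟨fun Q hQ => absurd hQ (Finset.notMem_empty Q), fun Q hQ => absurd hQ (Finset.notMem_empty Q)⟩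
  have hstep : ∀ A, Pr A → ∃ T' : Finset (Place k Ft), ∀ v, v ∉ T' → v ∉ A →
      Pr (insert v A) := by
    rintro A ⟨hA1, hA2⟩
    choose! α hα using hA1
    set Z : Finset (Place k Ft) :=
      A.biUnion (fun Q => (finite_ord_ne_zero hP (xt - algebraMap k Ft (α Q))).toFinset) with hZ
    have hZmem : ∀ Q ∈ A, ∀ v : Place k Ft, 0 < v.ord (xt - algebraMap k Ft (α Q)) → v ∈ Z := by
      intro Q hQ v hv
      rw [hZ, Finset.mem_biUnion]
      refine ⟨Q, hQ, ?_⟩
      rw [Set.Finite.mem_toFinset, Set.mem_ofPred_eq]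
      omega
    -- a zero of `xt - β` in `A` forces `β`
    have hβ : ∀ Q ∈ A, ∀ β : k, 0 < Q.ord (xt - algebraMap k Ft β) → β = α Q := by
      intro Q hQ β hβ
      exact value_unique Q (vanAt_of_ord_pos hβ)
        (vanAt_of_ord_pos (by rw [hα Q hQ]; exact one_pos))
    refine ⟨T ∪ Z, fun v hv hvA => ⟨?_, ?_⟩⟩
    · intro Q hQ
      rcases Finset.mem_insert.mp hQ with rfl | hQ
      · exact hT Q fun h => hv (Finset.mem_union_left _ h)
      · exact ⟨α Q, hα Q hQ⟩
    · intro Q hQ Q' hQ' β hQβ hQ'β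
      rcases Finset.mem_insert.mp hQ with hQv | hQA
      · rcases Finset.mem_insert.mp hQ' with hQ'v | hQ'A
        · rw [hQv, hQ'v]
        · exfalso
          apply hv
          refine Finset.mem_union_right _ (hZmem Q' hQ'A v ?_)
          rw [← hβ Q' hQ'A β hQ'β, ← hQv]
          exact hQβ
      · rcases Finset.mem_insert.mp hQ' with hQ'v | hQ'A
        · exfalso
          apply hv
          refine Finset.mem_union_right _ (hZmem Q hQA v ?_)
          rw [← hβ Q hQA β hQβ, ← hQ'v]
          exact hQ'β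
        · exact hA2 Q hQA Q' hQ'A β hQβ hQ'β
  obtain ⟨A, hcard, ⟨hA1, hA2⟩, hl⟩ := exists_nonspecial_avoid H' hg' Pr hPr0 hstep
  choose! α hα using hA1
  -- the divisor `Et'`
  have hdegAE : Divisor.degree (ptsDiv A - E) = g := by
    rw [map_sub, degree_ptsDiv H'.deg_one, hcard, hE, sub_zero]
  have hfinAE := H'.finite (ptsDiv A - E)
  have h1 : 1 ≤ Module.finrank k (L (ptsDiv A - E)) := by
    have := (hg' (ptsDiv A - E)).1
    rw [hdegAE] at this
    omega
  have hne : L (ptsDiv A - E) ≠ ⊥ := by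
    intro hbot
    rw [hbot, finrank_bot] at h1
    omega
  obtain ⟨f, hf, hf0⟩ := (Submodule.ne_bot_iff _).mp hne
  obtain ⟨Et', hEt'⟩ : ∃ D : Divisor k Ft, D = dv hP f + (ptsDiv A - E) := ⟨_, rfl⟩
  have hEt'a : ∀ Q, Et' Q = Q.ord f + (ptsDiv A Q - E Q) := by
    intro Q
    rw [hEt', Finsupp.add_apply, dv_apply, Finsupp.sub_apply]
  obtain ⟨u, hu0, hu⟩ := hnE
  have hfn0 : f ^ n ≠ 0 := pow_ne_zero _ hf0
  have hht0 : u / f ^ n ≠ 0 := div_ne_zero hu0 hfn0
  have hordht : ∀ Q : Place k Ft, Q.ord (u / f ^ n) = n * (ptsDiv A Q - Et' Q) := by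
    intro Q
    rw [ord_div Q hu0 hfn0, ord_pow, ← hu Q, Finsupp.smul_apply, smul_eq_mul, hEt'a]
    ring
  -- the rank
  obtain ⟨W, hWdeg, -, hkey⟩ := riemann_roch H' hg'
  have hWA : Module.finrank k (L (W - ptsDiv A)) = 0 := by
    have := hkey (ptsDiv A)
    rw [hl, degree_ptsDiv H'.deg_one, hcard] at this
    push_cast at this
    have h2 : (Module.finrank k (L (W - ptsDiv A)) : ℤ) = 0 := by omega
    exact_mod_cast h2
  have hn1 : (1 : ℤ) ≤ n := by exact_mod_cast hn
  have hWnA : Module.finrank k (L (W - (n : ℤ) • ptsDiv A)) = 0 := by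
    have hle : L (W - (n : ℤ) • ptsDiv A) ≤ L (W - ptsDiv A) := by
      apply L_mono'
      intro Q
      rw [Finsupp.sub_apply, Finsupp.sub_apply, Finsupp.smul_apply, smul_eq_mul]
      have := ptsDiv_nonneg A Q
      nlinarith
    have := H'.finite (W - ptsDiv A)
    have := Submodule.finrank_mono hle
    omega
  have hrankA : (Module.finrank k (L ((n : ℤ) • ptsDiv A)) : ℤ) = n * g + 1 - g := by
    rw [hkey ((n : ℤ) • ptsDiv A), hWnA, map_zsmul, degree_ptsDiv H'.deg_one, hcard, smul_eq_mul]
    push_cast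
    ring
  have hEt'eq : (n : ℤ) • Et' = (n : ℤ) • ptsDiv A + (-dv hP (u / f ^ n)) := by
    ext Q
    have h1 : ((n : ℤ) • Et') Q = n * Et' Q := by rw [Finsupp.smul_apply, smul_eq_mul]
    have h2 : ((n : ℤ) • ptsDiv A + (-dv hP (u / f ^ n))) Q
        = n * ptsDiv A Q - Q.ord (u / f ^ n) := by
      rw [Finsupp.add_apply, Finsupp.neg_apply, dv_apply, Finsupp.smul_apply, smul_eq_mul]
      ring
    rw [h1, h2, hordht Q]
    ring
  have hrank : (Module.finrank k (L ((n : ℤ) • Et')) : ℤ) = n * g + 1 - g := by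
    rw [hEt'eq, finrank_L_add_principal H'
      ((Divisor.principal (K := k) (F := Ft)).neg_mem (dv_mem_principal hP hht0)), hrankA]
  refine ⟨{
    A := A
    α := α
    Et' := Et'
    ht := u / f ^ n
    card_A := hcard
    nonspecial := hl
    simple := hα
    inj := ?_
    eff := ?_
    deg := ?_
    ht_ne := hht0
    div_ht := hordht
    equiv := ?_
    rank := hrank }⟩
  · intro Q hQ Q' hQ' hαα
    refine hA2 Q hQ Q' hQ' (α Q) (by rw [hα Q hQ]; exact one_pos) ?_
    rw [hαα, hα Q' hQ']
    exact one_pos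
  · intro Q
    have := ord_ge_of_mem_L hf hf0 Q
    rw [Finsupp.sub_apply] at this
    rw [hEt'a]
    omega
  · rw [hEt', map_add, degree_dv, zero_add, hdegAE]
  · have h2 : ptsDiv A - Et' - E = -dv hP f := by
      rw [hEt']
      abel
    rw [h2]
    exact (Divisor.principal (K := k) (F := Ft)).neg_mem (dv_mem_principal hP hf0)

end Fermat.Agent.S27.Char0.Lift.H45
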