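import Fermat.Agent.S27.Char0.Lift.H45_Coord

/-!
# S27 LIFT, leaf LATTICE (helper45)

`stmt_Lattice : Stmt_Lattice`.  `E' := σ_* Et'` for a section `σ` of `r` which lifts the poles of
`xt` to poles of `x`; `b P` is the value of `x` at `P`; the `f_j` are lifts to `L(n E') ∩ V` of
a basis of `L(n Et')` (helper17's `exists_lift`, as `l(n Et') = n g + 1 - g ≤ l(n E')` by
Riemann's inequality on `F`).
-/

set_option autoImplicit false

noncomputable section

open AlgebraicCurve IntermediateField

namespace Fermat.Agent.S27.Char0.Lift.H45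

open Fermat.Agent.RED.H17 Fermat.Agent.S27.Char0 Fermat.Agent.S24

attribute [local instance] Classical.propDecidable

local notation "L" => riemannRochSpace

universe u v u' v'

theorem stmt_Lattice : Stmt_Lattice.{u, v, u', v'} := by
  intro K F k Ft _ _ _ _ _ _ _ _ G H H' g c c' hg hg' n Et' heff hdeg N hN hrank
  have hP := H.principal
  have hinf : Infinite k := IsAlgClosed.instInfinite
  -- the section
  have hsec : ∀ Q : Place k Ft, ∃ P : Place K F, G.S.r P = Q ∧
      ((Q.ord (G.S.rd G.x) < 0) → P.ord G.x < 0) := by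
    intro Q
    by_cases hQ : Q.ord (G.S.rd G.x) < 0
    · obtain ⟨P, hPQ, hPx⟩ := exists_pole_over G H H' hQ
      exact ⟨P, hPQ, fun _ => hPx⟩
    · obtain ⟨P, hPQ⟩ := G.S.r_surjective hP Q
      exact ⟨P, hPQ, fun h => absurd h hQ⟩
  choose σ hσ hσpole using hsec
  have hσinj : Function.Injective σ := fun a b hab => by
    rw [← hσ a, ← hσ b, hab]
  set E' : Divisor K F := Finsupp.mapDomain σ Et' with hE'
  have hsupp : ∀ P ∈ E'.support, ∃ Q, σ Q = P := by
    intro P hPs
    have := Finsupp.mapDomain_support hPs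
    obtain ⟨Q, -, hQ⟩ := Finset.mem_image.mp this
    exact ⟨Q, hQ⟩
  have hpush : Finsupp.mapDomain G.S.r E' = Et' := by
    rw [hE', ← Finsupp.mapDomain_comp]
    have : G.S.r ∘ σ = id := funext hσ
    rw [this, Finsupp.mapDomain_id]
  have hE'nn : ∀ P, 0 ≤ E' P := fun P => mapDomain_nonneg' σ heff P
  -- the values
  have hvalue : ∀ P : Place K F, ∃ b : K, 0 ≤ (G.S.r P).ord (G.S.rd G.x) →
      (0 < P.ord (G.x - algebraMap K F b) ∧ algebraMap K F b ∈ G.S.V) := by
    intro P
    by_cases hPr : 0 ≤ (G.S.r P).ord (G.S.rd G.x)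
    · obtain ⟨b, hb1, hb2, -⟩ := exists_value_x G H H' hPr
      refine ⟨b, fun _ => ⟨hb1.ord_pos ?_, hb2⟩⟩
      intro h0
      apply x_transc G
      rw [sub_eq_zero.mp h0]
      exact isAlgebraic_algebraMap b
    · exact ⟨0, fun h => absurd h hPr⟩
  choose b hb using hvalue
  -- the lattice
  have hfinL : Module.Finite k (L ((n : ℤ) • Et')) := H'.finite _
  have hdegE' : Divisor.degree ((n : ℤ) • E') = n * g := by
    rw [map_zsmul, hE', degree_mapDomain H'.deg_one H.deg_one, hdeg, smul_eq_mul]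
  have hpushn : Finsupp.mapDomain G.S.r ((n : ℤ) • E') = (n : ℤ) • Et' := by
    rw [Finsupp.mapDomain_smul, hpush]
  have hle : Module.finrank k (L (Finsupp.mapDomain G.S.r ((n : ℤ) • E')))
      ≤ Module.finrank K (L ((n : ℤ) • E')) := by
    rw [hpushn, hrank]
    have h1 := (hg ((n : ℤ) • E')).1
    rw [hdegE'] at h1
    have h2 : (N : ℤ) ≤ (Module.finrank K (L ((n : ℤ) • E')) : ℤ) := by
      rw [hN]
      exact h1
    exact_mod_cast h2
  let bas : Module.Basis (Fin N) k (L ((n : ℤ) • Et')) := Module.finBasisOfFinrankEq k _ hrank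
  have hlift : ∀ j : Fin N, ∃ u : F, u ∈ G.S.V ∧ u ∈ L ((n : ℤ) • E') ∧
      G.S.rd u = (bas j : Ft) := by
    intro j
    have hy : (bas j : Ft) ∈ L (Finsupp.mapDomain G.S.r ((n : ℤ) • E')) := by
      rw [hpushn]
      exact (bas j).2
    exact G.S.exists_lift H H' hle hy
  choose f hfV hfL hfrd using hlift
  have hfeq : (fun j => G.S.rd (f j)) = fun j => (L ((n : ℤ) • Et')).subtype (bas j) := by
    funext j
    rw [hfrd j]
    rfl
  refine ⟨{
    E' := E'
    b := b
    f := f
    eff := hE'nn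
    push := hpush
    one_per_disc := ?_
    pole := ?_
    value := fun P _ hPr => (hb P hPr).1
    b_int := fun P _ hPr => (hb P hPr).2
    f_mem_V := hfV
    f_mem_L := hfL
    f_li := ?_
    f_span := ?_ }⟩
  · intro P hPs P' hPs' hrr
    obtain ⟨Q, rfl⟩ := hsupp P hPs
    obtain ⟨Q', rfl⟩ := hsupp P' hPs'
    rw [hσ, hσ] at hrr
    rw [hrr]
  · intro P hPs hPr
    obtain ⟨Q, rfl⟩ := hsupp P hPs
    rw [hσ] at hPr
    exact hσpole Q hPr
  · rw [hfeq]
    exact bas.linearIndependent.map' _ (Submodule.ker_subtype _)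
  · intro y hy
    rw [hfeq]
    have h1 : Submodule.span k (Set.range fun j => (L ((n : ℤ) • Et')).subtype (bas j))
        = Submodule.map (L ((n : ℤ) • Et')).subtype (Submodule.span k (Set.range bas)) := by
      rw [Submodule.map_span, ← Set.range_comp]
      rfl
    rw [h1, bas.span_eq, Submodule.map_top, Submodule.range_subtype]
    exact hy

end Fermat.Agent.S27.Char0.Lift.H45
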