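import Fermat.Agent.S27.Char0.Lift.Defs

/-!
# S27 LIFT (owner helper45): sub-leaves of GENERIC

* **RAMFIN** (`Stmt_RamFin`): for `Ft / k(xt)` finite separable, all but finitely many places
  `Q` of `Ft` are simple `α`-points of `xt` for some `α ∈ k` (i.e. `xt` is regular and
  unramified at `Q`).

Route for RAMFIN (no differentials): a primitive element `y`, integral over `k[xt]`, with
minimal polynomial `f ∈ k[xt][Y]` of degree `N = [Ft : k(xt)]`; Bezout `U f + V f' = d` with
`0 ≠ d ∈ k[xt]`.  For `α` with `d(α) ≠ 0` the polynomial `f(α, Y)` has `N` distinct roots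
`β_i`; `N(y - β_i) = ± f(xt, β_i)` vanishes at `xt = α`, so by the norm formula there is a place
`Q_i` over `α` with `y(Q_i) = β_i`; these are `N` distinct zeros of `xt - α`, and the zeros
theorem (`∑ ord = N`) shows that they are all the zeros and that they are simple.  The bad set
is: poles of `xt`, zeros of `d(xt)`.
-/

set_option autoImplicit false

noncomputable section

open AlgebraicCurve IntermediateField

namespace Fermat.Agent.S27.Char0.Lift

open Fermat.Agent.RED.H17 Fermat.Agent.S27.Char0

universe u' v'

/-- **RAMFIN**: all but finitely many places are simple `α`-points of `xt`. -/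
def Stmt_RamFin : Prop :=
  ∀ (k : Type u') (Ft : Type v') [Field k] [Field Ft] [Algebra k Ft] [IsAlgClosed k],
    FFHyp k Ft → ∀ (xt : Ft), Transcendental k xt → Module.Finite k⟮xt⟯ Ft →
    Algebra.IsSeparable k⟮xt⟯ Ft →
    ∃ T : Finset (Place k Ft), ∀ Q : Place k Ft, Q ∉ T →
      ∃ α : k, Q.ord (xt - algebraMap k Ft α) = 1

end Fermat.Agent.S27.Char0.Lift
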