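import Fermat.Agent.S27.Char0.Lift.H45_Fibre
import Fermat.Agent.S27.Char0.Lift.Defs2
import Fermat.Agent.RED.H10_ConsInt

/-!
# S27 LIFT, leaf RAMFIN (helper45)

`stmt_RamFin : Stmt_RamFin`: for `Ft / k(xt)` finite separable, all but finitely many places of
`Ft` are simple `α`-points of `xt`.

Proof: `y` a primitive element with minimal polynomial `m` over `B = k(xt)`, Bezout
`a m + b m' = 1`.  Let `Q` be a place at which `xt` and (the images of) all the coefficients of
`m, a, b` are units or zero, `α = xt(Q)`, `v₀ = Q|_B`.  The reduction `m̄` of `m` at `v₀` is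
separable of degree `N = [Ft : B]`, so it has `N` distinct roots `β`.  For each of them
`N(y - β) = ± m(β)` vanishes at `v₀`, so by the norm formula some place `P_β` over `v₀` is a
zero of `y - β`.  These `N` places are distinct, and `∑_{P | v₀} e(P) = N`: all `e(P) = 1`.
-/

set_option autoImplicit false

noncomputable section

open AlgebraicCurve IntermediateField Polynomial

namespace Fermat.Agent.S27.Char0.Lift.H45

open Fermat.Agent.RED.H17 Fermat.Agent.RED.H51 Fermat.Agent.S24 Fermat.Agent.RED.H10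
  Fermat.Agent.S27.Char0

attribute [local instance] Classical.propDecidable

universe u v u' v'

/-- The norm of `y - β` for a generator `y`. -/
theorem norm_gen_sub {R : Type u} {S : Type v} [CommRing R] [Ring S] [Algebra R S]
    (pb : PowerBasis R S) (β : R) :
    Algebra.norm R (pb.gen - algebraMap R S β) = (-1) ^ pb.dim * (minpoly R pb.gen).eval β := by
  classical
  rw [Algebra.norm_eq_matrix_det pb.basis, map_sub, AlgHom.commutes]
  have h : Algebra.leftMulMatrix pb.basis pb.gen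
        - algebraMap R (Matrix (Fin pb.dim) (Fin pb.dim) R) β
      = -(Matrix.scalar (Fin pb.dim) β - Algebra.leftMulMatrix pb.basis pb.gen) := by
    rw [neg_sub]
    rfl
  rw [h, Matrix.det_neg, ← Matrix.eval_charpoly, charpoly_leftMulMatrix, Fintype.card_fin]

/-- A power basis generated by a primitive element. -/
theorem exists_powerBasis_gen {K : Type u} {L : Type v} [Field K] [Field L] [Algebra K L]
    [FiniteDimensional K L] {y : L} (hy : K⟮y⟯ = ⊤) :
    ∃ pb : PowerBasis K L, pb.gen = y := by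
  have hyint : IsIntegral K y := Algebra.IsIntegral.isIntegral y
  refine ⟨(adjoin.powerBasis hyint).map ((equivOfEq hy).trans topEquiv), ?_⟩
  rw [PowerBasis.map_gen, adjoin.powerBasis_gen]
  rfl

section Reduction

variable {R : Type u} [CommRing R] (O : Subring R) {k : Type v} [Field k] (ev : O →+* k)

/-- Reduction of a separable monic polynomial with a Bezout relation over `O`. -/
theorem separable_reduction {m a b : R[X]} (hab : a * m + b * derivative m = 1)
    (hm : (↑m.coeffs : Set R) ⊆ O) (ha : (↑a.coeffs : Set R) ⊆ O)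
    (hb : (↑b.coeffs : Set R) ⊆ O) :
    ((m.toSubring O hm).map ev).Separable := by
  have h1 : a.toSubring O ha * m.toSubring O hm
      + b.toSubring O hb * derivative (m.toSubring O hm) = 1 := by
    apply Polynomial.map_injective O.subtype Subtype.val_injective
    rw [Polynomial.map_add, Polynomial.map_mul, Polynomial.map_mul, ← derivative_map,
      map_toSubring, map_toSubring, map_toSubring, Polynomial.map_one]
    exact hab
  rw [separable_def]
  refine ⟨(a.toSubring O ha).map ev, (b.toSubring O hb).map ev, ?_⟩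
  rw [derivative_map, ← Polynomial.map_mul, ← Polynomial.map_mul, ← Polynomial.map_add, h1,
    Polynomial.map_one]

end Reduction

theorem stmt_RamFin : Stmt_RamFin.{u', v'} := by
  intro k Ft _ _ _ _ H' xt hxt hfin hsep
  classical
  have hP := H'.principal
  -- a primitive element
  obtain ⟨y, hy⟩ := Field.exists_primitive_element ↥k⟮xt⟯ Ft
  obtain ⟨pb, hpb⟩ := exists_powerBasis_gen hy
  have hyint : IsIntegral ↥k⟮xt⟯ y := Algebra.IsIntegral.isIntegral y
  obtain ⟨m, hm⟩ : ∃ m : (↥k⟮xt⟯)[X], m = minpoly ↥k⟮xt⟯ y := ⟨_, rfl⟩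
  have hmmonic : m.Monic := by rw [hm]; exact minpoly.monic hyint
  have hmsep : m.Separable := by rw [hm]; exact Algebra.IsSeparable.isSeparable ↥k⟮xt⟯ y
  have hmdeg : m.natDegree = Module.finrank ↥k⟮xt⟯ Ft := by
    rw [pb.finrank, ← pb.natDegree_minpoly, hpb, hm]
  obtain ⟨a, b, hab⟩ := (separable_def m).mp hmsep
  -- the bad set
  obtain ⟨Cf, hCf⟩ : ∃ C : Finset ↥k⟮xt⟯, C = m.coeffs ∪ a.coeffs ∪ b.coeffs := ⟨_, rfl⟩
  refine ⟨(finite_ord_ne_zero hP xt).toFinset ∪
    Cf.biUnion (fun c => (finite_ord_ne_zero hP (algebraMap ↥k⟮xt⟯ Ft c)).toFinset),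
    fun Q hQ => ?_⟩
  have hQx : Q.ord xt = 0 := by
    by_contra h
    exact hQ (Finset.mem_union_left _ ((Set.Finite.mem_toFinset _).mpr h))
  have hQc : ∀ c ∈ Cf, Q.ord (algebraMap ↥k⟮xt⟯ Ft c) = 0 := by
    intro c hc
    by_contra h
    exact hQ (Finset.mem_union_right _
      (Finset.mem_biUnion.mpr ⟨c, hc, (Set.Finite.mem_toFinset _).mpr h⟩))
  obtain ⟨α, hα⟩ := exists_value Q (H'.deg_one Q) (regAt_of_ord_nonneg hQx.ge)
  refine ⟨α, ?_⟩
  have hxne : xt - algebraMap k Ft α ≠ 0 := by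
    intro h0
    apply hxt
    rw [sub_eq_zero.mp h0]
    exact isAlgebraic_algebraMap α
  have hαpos : 0 < Q.ord (xt - algebraMap k Ft α) := hα.ord_pos hxne
  -- the rational function field
  obtain ⟨g, hg⟩ : ∃ g : ↥k⟮xt⟯, g = AdjoinSimple.gen k xt := ⟨_, rfl⟩
  have hgx : algebraMap ↥k⟮xt⟯ Ft g = xt := by rw [hg]; rfl
  have hgtr : Transcendental k g :=
    (transcendental_algebraMap_iff (algebraMap ↥k⟮xt⟯ Ft).injective).mp (by rw [hgx]; exact hxt)
  have hgtop : k⟮g⟯ = (⊤ : IntermediateField k ↥k⟮xt⟯) := by rw [hg]; exact adjoin_gen_eq_top_u xt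
  have hfinE : FiniteDimensional ↥k⟮g⟯ ↥k⟮xt⟯ := (finrank_of_eq_top_u k⟮g⟯ hgtop).1
  have hzE : H59.ZerosStmt k ↥k⟮xt⟯ := zerosStmt_u hgtr
  have hzF : H59.ZerosStmt k Ft := zerosStmt_u hxt
  obtain ⟨y', hy'⟩ : ∃ z : ↥k⟮xt⟯, z = g - algebraMap k ↥k⟮xt⟯ α := ⟨_, rfl⟩
  have hytr : Transcendental k y' := by
    intro halg
    apply hgtr
    have h1 : g = y' + algebraMap k ↥k⟮xt⟯ α := by rw [hy']; ring
    rw [h1]
    exact halg.add (isAlgebraic_algebraMap α)
  have hytop : k⟮y'⟯ = (⊤ : IntermediateField k ↥k⟮xt⟯) := by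
    rw [eq_top_iff, ← hgtop, adjoin_simple_le_iff]
    have h1 : g = y' + algebraMap k ↥k⟮xt⟯ α := by rw [hy']; ring
    rw [h1]
    exact add_mem (mem_adjoin_simple_self k y') (IntermediateField.algebraMap_mem _ α)
  obtain ⟨v₁, hv₁, huniq⟩ := exists_unique_zero_of_top_u hzE y' hytr hytop
  have hyx : algebraMap ↥k⟮xt⟯ Ft y' = xt - algebraMap k Ft α := by
    rw [hy', map_sub, hgx, ← IsScalarTower.algebraMap_apply]
  obtain ⟨v₀, hv₀⟩ : ∃ v : Place k ↥k⟮xt⟯, v = Q.restrict ↥k⟮xt⟯ := ⟨_, rfl⟩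
  have hposy : 0 < v₀.ord y' := by
    have h1 := Q.ord_restrict y'
    rw [hyx, ← hv₀] at h1
    have hepos := Q.ramificationIndex_pos (F := ↥k⟮xt⟯)
    by_contra hneg
    rw [not_lt] at hneg
    have : (Q.ramificationIndex ↥k⟮xt⟯ : ℤ) * v₀.ord y' ≤ 0 :=
      mul_nonpos_of_nonneg_of_nonpos (by omega) hneg
    omega
  have hv₀₁ : v₀ = v₁ := huniq v₀ hposy
  have hv₀ord : v₀.ord y' = 1 := by rw [hv₀₁]; exact hv₁
  have hdeg0 : v₀.deg = 1 := ff_deg_eq_one g hgtr v₀
  have hdegF : ∀ w : Place k Ft, w.deg = 1 := H'.deg_one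
  -- the coefficients are regular at `v₀`
  have hCfO : ∀ c ∈ Cf, c ∈ v₀.toValuationSubring := by
    intro c hc
    rw [hv₀, Place.mem_restrict_iff]
    exact (regAt_iff_mem Q _).mp (regAt_of_ord_nonneg (hQc c hc).ge)
  obtain ⟨O, hO⟩ : ∃ O : Subring ↥k⟮xt⟯, O = v₀.toValuationSubring.toSubring := ⟨_, rfl⟩
  have hmO : (↑m.coeffs : Set ↥k⟮xt⟯) ⊆ O := by
    intro c hc
    rw [hO]
    exact hCfO c (by rw [hCf]; exact Finset.mem_union_left _ (Finset.mem_union_left _ hc))
  have haO : (↑a.coeffs : Set ↥k⟮xt⟯) ⊆ O := by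
    intro c hc
    rw [hO]
    exact hCfO c (by rw [hCf]; exact Finset.mem_union_left _ (Finset.mem_union_right _ hc))
  have hbO : (↑b.coeffs : Set ↥k⟮xt⟯) ⊆ O := by
    intro c hc
    rw [hO]
    exact hCfO c (by rw [hCf]; exact Finset.mem_union_right _ hc)
  subst hO
  let ev : ↥(v₀.toValuationSubring.toSubring) →+* k := valHom v₀ hdeg0
  obtain ⟨mbar, hmbar⟩ : ∃ q : k[X],
      q = (m.toSubring v₀.toValuationSubring.toSubring hmO).map ev := ⟨_, rfl⟩
  have hmbar_sep : mbar.Separable := by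
    rw [hmbar]
    exact separable_reduction _ ev hab hmO haO hbO
  have hmO_monic : (m.toSubring v₀.toValuationSubring.toSubring hmO).Monic :=
    (monic_toSubring m _ hmO).mpr hmmonic
  have hmbar_deg : mbar.natDegree = m.natDegree := by
    rw [hmbar, hmO_monic.natDegree_map, natDegree_toSubring]
  have hroots : mbar.roots.toFinset.card = m.natDegree := by
    rw [Multiset.toFinset_card_of_nodup (nodup_roots hmbar_sep), ← hmbar_deg]
    exact splits_iff_card_roots.mp (IsAlgClosed.splits mbar)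
  -- the fundamental identity
  have hsum := sum_ramificationIndex_eq hzE hzF hgtr hxt v₀ (v₀.fiber Ft)
    (fun w => Place.mem_fiber)
  -- a place over every root
  have hroot : ∀ β ∈ mbar.roots.toFinset, ∃ P : Place k Ft, P ∈ v₀.fiber Ft ∧
      VanAt P (y - algebraMap k Ft β) := by
    intro β hβ
    have hβ0 : mbar.eval β = 0 := by
      rw [Multiset.mem_toFinset] at hβ
      exact (mem_roots'.mp hβ).2
    by_cases hyβ : y - algebraMap k Ft β = 0
    · exact ⟨Q, Place.mem_fiber.mpr hv₀.symm, by rw [hyβ]; exact vanAt_zero Q⟩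
    have hβ' : algebraMap ↥k⟮xt⟯ Ft (algebraMap k ↥k⟮xt⟯ β) = algebraMap k Ft β :=
      (IsScalarTower.algebraMap_apply k ↥k⟮xt⟯ Ft β).symm
    have hN := norm_gen_sub pb (algebraMap k ↥k⟮xt⟯ β)
    rw [hpb, hβ', ← hm] at hN
    have hN0 : Algebra.norm ↥k⟮xt⟯ (y - algebraMap k Ft β) ≠ 0 :=
      Algebra.norm_ne_zero_iff.mpr hyβ
    -- the value of `m(β)` at `v₀`
    obtain ⟨βO, hβO⟩ : ∃ z : ↥(v₀.toValuationSubring.toSubring),
        z = algebraMap k ↥v₀.toValuationSubring β := ⟨_, rfl⟩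
    have hβOc : (βO : ↥k⟮xt⟯) = algebraMap k ↥k⟮xt⟯ β := by rw [hβO]; rfl
    have hevβ : ev βO = β := by rw [hβO]; exact valHom_algebraMap v₀ hdeg0 β
    have h1 : (((m.toSubring v₀.toValuationSubring.toSubring hmO).eval βO :
        ↥(v₀.toValuationSubring.toSubring)) : ↥k⟮xt⟯) = m.eval (algebraMap k ↥k⟮xt⟯ β) := by
      conv_rhs => rw [← map_toSubring m v₀.toValuationSubring.toSubring hmO, ← hβOc]
      rw [eval_map]
      exact (eval₂_at_apply (Subring.subtype _) βO).symm
    have h2 : ev ((m.toSubring v₀.toValuationSubring.toSubring hmO).eval βO) = 0 := by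
      rw [← hβ0, hmbar, eval_map, ← hevβ]
      exact (eval₂_at_apply ev βO).symm
    have h3 := ordGe_sub_valHom v₀ hdeg0
      ((m.toSubring v₀.toValuationSubring.toSubring hmO).eval βO)
    have h2' : valHom v₀ hdeg0 ((m.toSubring v₀.toValuationSubring.toSubring hmO).eval βO)
        = 0 := h2
    rw [h2', map_zero, sub_zero] at h3
    have h1' : (((m.toSubring v₀.toValuationSubring.toSubring hmO).eval βO :
        ↥v₀.toValuationSubring) : ↥k⟮xt⟯) = m.eval (algebraMap k ↥k⟮xt⟯ β) := h1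
    rw [h1'] at h3
    have hme0 : m.eval (algebraMap k ↥k⟮xt⟯ β) ≠ 0 := by
      intro h0
      rw [h0, mul_zero] at hN
      exact hN0 hN
    have h4 : 1 ≤ v₀.ord (m.eval (algebraMap k ↥k⟮xt⟯ β)) := h3.resolve_left hme0
    have hsign : ((-1 : ↥k⟮xt⟯) ^ pb.dim) = algebraMap k ↥k⟮xt⟯ ((-1) ^ pb.dim) := by
      rw [map_pow, map_neg, map_one]
    have h5 : v₀.ord (Algebra.norm ↥k⟮xt⟯ (y - algebraMap k Ft β))
        = v₀.ord (m.eval (algebraMap k ↥k⟮xt⟯ β)) := by
      rw [hN, hsign, ord_algebraMap_mul v₀ (pow_ne_zero _ (neg_ne_zero.mpr one_ne_zero))]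
    have h6 := norm_ord v₀ (v₀.fiber Ft) (fun w hw => Place.mem_fiber.mp hw) hsum hdegF hyβ
    rw [h5] at h6
    by_contra hcon
    push Not at hcon
    have h7 : ∑ w ∈ v₀.fiber Ft, w.ord (y - algebraMap k Ft β) ≤ 0 := by
      refine Finset.sum_nonpos fun w hw => ?_
      by_contra hpos
      exact hcon w hw (vanAt_of_ord_pos (not_le.mp hpos))
    omega
  have : Nonempty (Place k Ft) := ⟨Q⟩
  choose! φ hφ using hroot
  have hinj : Set.InjOn φ (mbar.roots.toFinset : Set k) := by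
    intro β hβ β' hβ' hφφ
    have h1 := (hφ β hβ).2
    have h2 := (hφ β' hβ').2
    rw [← hφφ] at h2
    exact value_unique (φ β) h1 h2
  have hcard : m.natDegree ≤ (v₀.fiber Ft).card := by
    rw [← hroots]
    exact Finset.card_le_card_of_injOn φ (fun β hβ => (hφ β hβ).1) hinj
  -- all the ramification indices are `1`
  have hQf : Q ∈ v₀.fiber Ft := Place.mem_fiber.mpr hv₀.symm
  have heQ : Q.ramificationIndex ↥k⟮xt⟯ = 1 := by
    by_contra hne
    have hpos : ∀ w ∈ v₀.fiber Ft, 1 ≤ w.ramificationIndex ↥k⟮xt⟯ := fun w _ =>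
      w.ramificationIndex_pos (F := ↥k⟮xt⟯)
    have hlt : ∑ _w ∈ v₀.fiber Ft, 1 < ∑ w ∈ v₀.fiber Ft, w.ramificationIndex ↥k⟮xt⟯ :=
      Finset.sum_lt_sum hpos ⟨Q, hQf, by have := hpos Q hQf; omega⟩
    rw [Finset.sum_const, smul_eq_mul, mul_one, hsum, ← hmdeg] at hlt
    omega
  have h1 := Q.ord_restrict y'
  rw [hyx, ← hv₀, hv₀ord, heQ] at h1
  rw [h1]
  norm_num

end Fermat.Agent.S27.Char0.Lift.H45
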