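import Fermat.Agent.S27.Char0.Lift.H45_Asm
import Fermat.Agent.S27.Char0.Lift.H45_Concl
import Fermat.Agent.S27.Char0.Lift.H45_Lattice
import Fermat.Agent.S27.Char0.Lift.H45_Generic
import Fermat.Agent.S27.Char0.Lift.H45_RamFin

/-!
# S27 LIFT (helper45): package LIFT from its last leaf SOLVE

* `stmt_Generic : Stmt_Generic` (from RAMFIN);
* `stmt_LIFT_of_solve : Stmt_Solve → Char0.Stmt_LIFT`.
-/

set_option autoImplicit false

namespace Fermat.Agent.S27.Char0.Lift.H45

open Fermat.Agent.S27.Char0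

universe u v u' v'

/-- **GENERIC**, unconditional. -/
theorem stmt_Generic : Stmt_Generic.{u', v'} := stmt_Generic_of stmt_RamFin

/-- **Package LIFT** from its leaf SOLVE. -/
theorem stmt_LIFT_of_solve (hSol : Stmt_Solve.{u, v, u', v'}) : Stmt_LIFT.{u, v, u', v'} :=
  stmt_LIFT_of stmt_Generic stmt_Lattice hSol stmt_Concl

end Fermat.Agent.S27.Char0.Lift.H45
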