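import Fermat.Agent.S27.Char0.Lift.H68_SolveDefs

/-!
# S27 LIFT / SOLVE, leaf JAC-CONST (helper45)

`stmt_JacConst_of : Stmt_TracePole → Solve.Stmt_JacConst`.

`w := dh / ht ∈ L(n · ptsDiv A)`.  If `w` had a pole of order `m ≥ 2` at some `Q ∈ A`, then by
TRACEPOLE (the other zeros of `xt - α_Q` are outside `A`, where `w` is regular) the trace of `w`
would have a pole of order `m` at `Q`.  So `w ∈ L(ptsDiv A) = k`.
-/

set_option autoImplicit false

noncomputable section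

open AlgebraicCurve IntermediateField

namespace Fermat.Agent.S27.Char0.Lift.H45

open Fermat.Agent.RED.H17 Fermat.Agent.S27.Char0

attribute [local instance] Classical.propDecidable

local notation "L" => riemannRochSpace

universe u' v'

theorem stmt_JacConst_of (hTP : Stmt_TracePole.{u', v'}) : Solve.Stmt_JacConst.{u', v'} := by
  intro k Ft _ _ _ _ H' xt hxt hfin hsep g n E Gd dh hdh htr
  by_cases hdh0 : dh = 0
  · exact ⟨0, by rw [hdh0, map_zero, zero_mul]⟩
  have hht0 := Gd.ht_ne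
  have hw0 : dh * Gd.ht⁻¹ ≠ 0 := mul_ne_zero hdh0 (inv_ne_zero hht0)
  have hordw : ∀ Q : Place k Ft, Q.ord (dh * Gd.ht⁻¹) = Q.ord dh - Q.ord Gd.ht := by
    intro Q
    rw [Q.ord_mul hdh0 (inv_ne_zero hht0), Place.ord_inv]
    ring
  have hge : ∀ Q : Place k Ft, -((n : ℤ) * ptsDiv Gd.A Q) ≤ Q.ord (dh * Gd.ht⁻¹) := by
    intro Q
    have h1 := ord_ge_of_mem_L hdh hdh0 Q
    rw [Finsupp.smul_apply, smul_eq_mul] at h1
    rw [hordw, Gd.div_ht Q]
    linarith
  -- outside `A` the function `w` is regular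
  have hout : ∀ Q : Place k Ft, Q ∉ Gd.A → 0 ≤ Q.ord (dh * Gd.ht⁻¹) := by
    intro Q hQ
    have := hge Q
    rw [ptsDiv_apply, if_neg hQ, mul_zero, neg_zero] at this
    exact this
  -- at the points of `A` the poles are at most simple
  have hin : ∀ Q ∈ Gd.A, -1 ≤ Q.ord (dh * Gd.ht⁻¹) := by
    intro Q hQ
    by_contra hlt
    rw [not_le] at hlt
    obtain ⟨m, hm⟩ : ∃ m : ℕ, Q.ord (dh * Gd.ht⁻¹) = -(m : ℤ) :=
      ⟨(-Q.ord (dh * Gd.ht⁻¹)).toNat, by rw [Int.toNat_of_nonneg (by omega)]; ring⟩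
    have hmpos : 0 < m := by omega
    have hother : ∀ R : Place k Ft, R ≠ Q → 0 < R.ord (xt - algebraMap k Ft (Gd.α Q)) →
        0 ≤ R.ord (dh * Gd.ht⁻¹) := by
      intro R hRQ hR
      apply hout
      intro hRA
      apply hRQ
      have h1 : Gd.α R = Gd.α Q :=
        value_unique R (vanAt_of_ord_pos (by rw [Gd.simple R hRA]; exact one_pos))
          (vanAt_of_ord_pos hR)
      exact Gd.inj R hRA Q hQ h1
    have h2 := hTP k Ft H' xt hxt hfin hsep (dh * Gd.ht⁻¹) (Gd.α Q) Q m hmpos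
      (Gd.simple Q hQ) hm hother
    have h3 := htr Q hQ
    omega
  have hmem : dh * Gd.ht⁻¹ ∈ L (ptsDiv Gd.A) := by
    rw [mem_L_iff_ord]
    intro Q
    right
    by_cases hQ : Q ∈ Gd.A
    · rw [ptsDiv_apply, if_pos hQ]
      exact hin Q hQ
    · rw [ptsDiv_apply, if_neg hQ, neg_zero]
      exact hout Q hQ
  obtain ⟨γ, hγ⟩ := H'.const_of_mem_L (ptsDiv_nonneg Gd.A) (le_of_eq Gd.nonspecial) hmem
  refine ⟨γ, ?_⟩
  rw [← hγ, mul_assoc, inv_mul_cancel₀ hht0, mul_one]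

end Fermat.Agent.S27.Char0.Lift.H45
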