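import Fermat.Agent.S27.Char0.Lift.H45_TracePole
import Fermat.Agent.S27.Char0.Lift.H45_JacConst

/-!
# S27 LIFT / SOLVE (helper45): JAC-CONST, unconditional
-/

set_option autoImplicit false

namespace Fermat.Agent.S27.Char0.Lift.H45

universe u' v'

/-- **JAC-CONST**, unconditional. -/
theorem stmt_JacConst : Solve.Stmt_JacConst.{u', v'} := stmt_JacConst_of stmt_TracePole

end Fermat.Agent.S27.Char0.Lift.H45
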