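import Fermat.Agent.S27.Char0.Lift.H20_OrdRoot

/-!
# S27 LIFT / SOLVE, leaf POLY-CRIT (helper20): an element of `K(x)` which is regular at the
finite places and has a pole of order at most `M` at infinity is a polynomial of degree `≤ M`
in `x`.
-/

set_option autoImplicit false
set_option linter.style.haveILetI false

noncomputable section

open AlgebraicCurve IntermediateField Polynomial

namespace Fermat.Agent.S27.Char0.Lift.H20

open Fermat.Agent.RED.H51 Fermat.Agent.S27.Char0.H20 Fermat.Agent.S24

universe u v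

variable {K : Type u} {F : Type v} [Field K] [Field F] [Algebra K F]

/-- The order of a polynomial in `x` at a pole of `x`. -/
theorem ord_aeval_pole (P : Place K F) {x : F} (hx : P.ord x < 0) {p : K[X]} (hp : p ≠ 0) :
    aeval x p ≠ 0 ∧ P.ord (aeval x p) = p.natDegree * P.ord x := by
  have hx0 : x ≠ 0 := ne_zero_of_ord_ne_zero P hx.ne
  have hw : 0 < P.ord x⁻¹ := by rw [Place.ord_inv]; omega
  have hrev : (reverse p).eval 0 ≠ 0 := by
    rw [← coeff_zero_eq_eval_zero, coeff_zero_reverse]
    exact leadingCoeff_ne_zero.mpr hp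
  obtain ⟨h1, h2⟩ := ord_aeval_of_eval_ne P hw hrev
  have h3 : aeval x p = aeval x⁻¹ (reverse p) * x ^ p.natDegree := by
    haveI : Invertible x := invertibleOfNonzero hx0
    have := eval₂_reverse_mul_pow (algebraMap K F) x p
    rw [invOf_eq_inv] at this
    exact this.symm
  rw [h3]
  refine ⟨mul_ne_zero h1 (pow_ne_zero _ hx0), ?_⟩
  rw [P.ord_mul h1 (pow_ne_zero _ hx0), h2, ord_pow, zero_add]

/-- **POLY-CRIT**. -/
theorem stmt_PolyCrit : Solve.Stmt_PolyCrit.{u, v} := by
  classical
  intro K F _ _ _ _ H x hx hfin y M hy hreg hpole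
  haveI := hfin
  have hfinall : ∀ z : F, Transcendental K z → FiniteDimensional K⟮z⟯ F :=
    fun z hz => ff_finite_of_transcendental x hx z hz
  rcases eq_or_ne y 0 with rfl | hy0
  · exact ⟨0, by simp, by simp⟩
  obtain ⟨r, s, hrs⟩ := (mem_adjoin_simple_iff K y).mp hy
  have hs0 : aeval x s ≠ 0 := by
    intro h
    rw [h, div_zero] at hrs
    exact hy0 hrs
  have hr0 : aeval x r ≠ 0 := by
    intro h
    rw [h, zero_div] at hrs
    exact hy0 hrs
  have hs : s ≠ 0 := by
    rintro rfl
    simp at hs0
  have hr : r ≠ 0 := by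
    rintro rfl
    simp at hr0
  -- coprime representation
  obtain ⟨r', s', hr', hs', hu⟩ := extract_gcd r s
  set g := gcd r s with hg
  have hcop : IsCoprime r' s' := (gcd_isUnit_iff r' s').mp hu
  have hr'0 : r' ≠ 0 := by
    rintro rfl
    rw [mul_zero] at hr'
    exact hr hr'
  have hs'0 : s' ≠ 0 := by
    rintro rfl
    rw [mul_zero] at hs'
    exact hs hs'
  have hgx : aeval x g ≠ 0 := by
    intro h
    apply hs0
    rw [hs', map_mul, h, zero_mul]
  have hs'x : aeval x s' ≠ 0 := by
    intro h
    apply hs0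
    rw [hs', map_mul, h, mul_zero]
  have hr'x : aeval x r' ≠ 0 := by
    intro h
    apply hr0
    rw [hr', map_mul, h, mul_zero]
  have hy' : y = aeval x r' / aeval x s' := by
    rw [hrs]
    conv_lhs => rw [hr', hs']
    rw [map_mul, map_mul, mul_div_mul_left _ _ hgx]
  -- `s'` is constant
  have hsdeg : s'.degree = 0 := by
    by_contra hdeg
    obtain ⟨β, hβ⟩ := IsAlgClosed.exists_root s' hdeg
    have htr : Transcendental K (x - algebraMap K F β) := by
      intro h
      apply hx
      have := h.add (isAlgebraic_algebraMap (R := K) (A := F) β)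
      simpa using this
    obtain ⟨P, hP⟩ := Fermat.Agent.RED.H12.exists_place_ord_pos hfinall _ htr
    have hxP : 0 ≤ P.ord x := by
      by_contra hneg
      have hneg' : P.ord x < 0 := by omega
      have h1 := (ord_aeval_pole P hneg' (p := X - C β) (X_sub_C_ne_zero β)).2
      simp only [map_sub, aeval_X, aeval_C, natDegree_X_sub_C, Nat.cast_one, one_mul] at h1
      omega
    have h1 := (ord_aeval_center P hP hs'0).2
    have h2 := (ord_aeval_center P hP hr'0).2
    have hmult : 0 < s'.rootMultiplicity β := (rootMultiplicity_pos hs'0).mpr hβ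
    have hrβ : r'.rootMultiplicity β = 0 := by
      apply rootMultiplicity_eq_zero
      intro hroot
      obtain ⟨a, b, hab⟩ := hcop
      have := congrArg (eval β) hab
      simp only [eval_add, eval_mul, eval_one] at this
      rw [IsRoot.def.mp hroot, IsRoot.def.mp hβ, mul_zero, mul_zero, add_zero] at this
      exact zero_ne_one this
    have h3 := hreg P hxP
    rw [hy', ord_div P hr'x hs'x, h1, h2, hrβ] at h3
    have : 0 < P.ord (x - algebraMap K F β) * (s'.rootMultiplicity β : ℤ) :=
      mul_pos hP (by exact_mod_cast hmult)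
    simp at h3
    omega
  obtain ⟨c, hc⟩ : ∃ c : K, s' = C c := ⟨s'.coeff 0, eq_C_of_degree_eq_zero hsdeg⟩
  have hc0 : c ≠ 0 := by
    rintro rfl
    rw [map_zero] at hc
    exact hs'0 hc
  set p := r' * C c⁻¹ with hp
  have hp0 : p ≠ 0 := mul_ne_zero hr'0 (by simpa using hc0)
  have hyp : y = aeval x p := by
    rw [hy', hc, hp]
    simp only [map_mul, aeval_C, map_inv₀]
    rw [div_eq_mul_inv]
  refine ⟨p, ?_, hyp⟩
  -- the degree, at a pole of `x`
  have htr' : Transcendental K x⁻¹ := fun h => hx (IsAlgebraic.inv_iff.mp h)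
  obtain ⟨P, hP⟩ := Fermat.Agent.RED.H12.exists_place_ord_pos hfinall _ htr'
  rw [Place.ord_inv] at hP
  have hxP : P.ord x < 0 := by omega
  have h1 := hpole P hxP
  rw [hyp, (ord_aeval_pole P hxP hp0).2] at h1
  by_contra hcon
  have h2 : (M : ℤ) + 1 ≤ p.natDegree := by
    have : M < p.natDegree := by omega
    exact_mod_cast this
  have h3 : (p.natDegree : ℤ) * P.ord x ≤ ((M : ℤ) + 1) * P.ord x :=
    mul_le_mul_of_nonpos_right h2 hxP.le
  have h4 : ((M : ℤ) + 1) * P.ord x = M * P.ord x + P.ord x := by ring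
  omega

end Fermat.Agent.S27.Char0.Lift.H20
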