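import Fermat.Agent.S27.Char0.Lift.H45_Coord
import Fermat.Agent.RED.H51_NormStmt

/-!
# S27 LIFT (helper45): the norm formula on the fibre of a simple point

Universe polymorphic version of helper10's `RED.H10.fibre_norm`, in the form used by CONCL:
if `X` is a simple zero of `x - a`, then for every `f ≠ 0`
`∑_{P : x(P) = a} ord_P f = ord_X (N_{F/K(x)} f)`.
-/

set_option autoImplicit false

noncomputable section

open AlgebraicCurve IntermediateField

namespace Fermat.Agent.S27.Char0.Lift.H45

open Fermat.Agent.RED.H17 Fermat.Agent.RED.H51 Fermat.Agent.S24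

attribute [local instance] Classical.propDecidable

universe u v

variable {K : Type u} {F : Type v} [Field K] [Field F] [Algebra K F]

theorem adjoin_gen_eq_top_u (x : F) :
    K⟮AdjoinSimple.gen K x⟯ = (⊤ : IntermediateField K ↥K⟮x⟯) := by
  have h1 : (K⟮AdjoinSimple.gen K x⟯ : IntermediateField K ↥K⟮x⟯).map (K⟮x⟯.val) =
      (⊤ : IntermediateField K ↥K⟮x⟯).map (K⟮x⟯.val) := by
    rw [IntermediateField.adjoin_map, Set.image_singleton]
    rw [← AlgHom.fieldRange_eq_map, IntermediateField.fieldRange_val]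
    rfl
  exact IntermediateField.map_injective _ h1

theorem finrank_of_eq_top_u (S : IntermediateField K F) (hS : S = ⊤) :
    FiniteDimensional ↥S F ∧ Module.finrank ↥S F = 1 := by
  subst hS
  exact ⟨Module.finite_of_finrank_pos (by rw [IntermediateField.finrank_top]; exact one_pos),
    IntermediateField.finrank_top⟩

/-- A generator of a rational function field has exactly one zero, and it is simple. -/
theorem exists_unique_zero_of_top_u (hz : H59.ZerosStmt K F) (y : F) (hy : Transcendental K y)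
    (htop : K⟮y⟯ = ⊤) :
    ∃ v : Place K F, v.ord y = 1 ∧ ∀ v' : Place K F, 0 < v'.ord y → v' = v := by
  classical
  obtain ⟨hfd, hrank⟩ := finrank_of_eq_top_u K⟮y⟯ htop
  obtain ⟨hfin, hsum⟩ := hz y hy
  rw [hrank, finsum_mem_eq_finite_toFinset_sum _ hfin] at hsum
  have hpos : ∀ v ∈ hfin.toFinset, 0 < v.ord y := fun v hv => by
    simpa using hv
  have hne : hfin.toFinset.Nonempty := by
    by_contra hemp
    rw [Finset.not_nonempty_iff_eq_empty] at hemp
    rw [hemp, Finset.sum_empty] at hsum
    norm_num at hsum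
  obtain ⟨v, hv⟩ := hne
  have hle : ∀ v' ∈ hfin.toFinset, v' ≠ v → False := by
    intro v' hv' hne'
    have h2 : v.ord y + v'.ord y ≤ ∑ u ∈ hfin.toFinset, u.ord y := by
      have hsub : ({v, v'} : Finset (Place K F)) ⊆ hfin.toFinset := by
        intro u hu
        rcases Finset.mem_insert.mp hu with rfl | hu
        · exact hv
        · rw [Finset.mem_singleton.mp hu]; exact hv'
      calc v.ord y + v'.ord y = ∑ u ∈ ({v, v'} : Finset (Place K F)), u.ord y := by
            rw [Finset.sum_pair (Ne.symm hne')]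
        _ ≤ ∑ u ∈ hfin.toFinset, u.ord y :=
            Finset.sum_le_sum_of_subset_of_nonneg hsub
              (fun u hu _ => (hpos u hu).le)
    have := hpos v hv
    have := hpos v' hv'
    rw [hsum] at h2
    push_cast at h2
    omega
  refine ⟨v, ?_, ?_⟩
  · have h1 : v.ord y ≤ ∑ u ∈ hfin.toFinset, u.ord y :=
      Finset.single_le_sum (f := fun u : Place K F => u.ord y)
        (fun u hu => (hpos u hu).le) hv
    have := hpos v hv
    rw [hsum] at h1
    push_cast at h1
    omega
  · intro v' hv'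
    by_contra hne'
    exact hle v' (by simpa using hv') hne'

/-- **The norm formula on the fibre of a simple point.** -/
theorem norm_at_simple [IsAlgClosed K] (hP : HasPrincipalDivisors K F) (x : F)
    (hx : Transcendental K x) [FiniteDimensional ↥K⟮x⟯ F] (a : K) (X : Place K F)
    (hX : X.ord (x - algebraMap K F a) = 1) :
    ∃ T : Finset (Place K F), (∀ P, P ∈ T ↔ 0 < P.ord (x - algebraMap K F a)) ∧
      ∀ f : F, f ≠ 0 →
        ∑ P ∈ T, P.ord f = X.ord (algebraMap ↥K⟮x⟯ F (Algebra.norm ↥K⟮x⟯ f)) := by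
  classical
  have := hP
  set g : ↥K⟮x⟯ := AdjoinSimple.gen K x with hg
  have hgx : algebraMap ↥K⟮x⟯ F g = x := rfl
  have hgtr : Transcendental K g :=
    (transcendental_algebraMap_iff (algebraMap ↥K⟮x⟯ F).injective).mp (by rw [hgx]; exact hx)
  have hgtop : K⟮g⟯ = (⊤ : IntermediateField K ↥K⟮x⟯) := adjoin_gen_eq_top_u x
  have hfinE : FiniteDimensional ↥K⟮g⟯ ↥K⟮x⟯ := (finrank_of_eq_top_u K⟮g⟯ hgtop).1
  have hzE : H59.ZerosStmt K ↥K⟮x⟯ := zerosStmt_u hgtr
  have hzF : H59.ZerosStmt K F := zerosStmt_u hx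
  set y : ↥K⟮x⟯ := g - algebraMap K ↥K⟮x⟯ a with hy
  have hytr : Transcendental K y := by
    intro halg
    apply hgtr
    have h1 : g = y + algebraMap K ↥K⟮x⟯ a := by rw [hy]; ring
    rw [h1]
    exact halg.add (isAlgebraic_algebraMap a)
  have hytop : K⟮y⟯ = (⊤ : IntermediateField K ↥K⟮x⟯) := by
    rw [eq_top_iff, ← hgtop, adjoin_simple_le_iff]
    have h1 : g = y + algebraMap K ↥K⟮x⟯ a := by rw [hy]; ring
    rw [h1]
    exact add_mem (mem_adjoin_simple_self K y) (IntermediateField.algebraMap_mem _ a)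
  obtain ⟨v₀, hv₀, huniq⟩ := exists_unique_zero_of_top_u hzE y hytr hytop
  have hyx : algebraMap ↥K⟮x⟯ F y = x - algebraMap K F a := by
    rw [hy, map_sub, hgx, ← IsScalarTower.algebraMap_apply]
  -- `X` lies over `v₀` and is unramified
  have hXv : X.restrict ↥K⟮x⟯ = v₀ := by
    apply huniq
    have h1 := X.ord_restrict y
    rw [hyx, hX] at h1
    have hepos := X.ramificationIndex_pos (F := ↥K⟮x⟯)
    by_contra hneg
    rw [not_lt] at hneg
    have : (X.ramificationIndex ↥K⟮x⟯ : ℤ) * (X.restrict ↥K⟮x⟯).ord y ≤ 0 :=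
      mul_nonpos_of_nonneg_of_nonpos (by omega) hneg
    omega
  have heX : (X.ramificationIndex ↥K⟮x⟯ : ℤ) = 1 := by
    have h1 := X.ord_restrict y
    rw [hyx, hX, hXv, hv₀, mul_one] at h1
    exact h1.symm
  refine ⟨v₀.fiber F, ?_, ?_⟩
  · intro P
    rw [Place.mem_fiber]
    constructor
    · intro hPv
      rw [← hyx, P.ord_restrict y, hPv, hv₀, mul_one]
      have := P.ramificationIndex_pos (F := ↥K⟮x⟯)
      omega
    · intro h1
      apply huniq
      rw [← hyx, P.ord_restrict y] at h1
      have hepos := P.ramificationIndex_pos (F := ↥K⟮x⟯)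
      by_contra hneg
      rw [not_lt] at hneg
      have : (P.ramificationIndex ↥K⟮x⟯ : ℤ) * (P.restrict ↥K⟮x⟯).ord y ≤ 0 :=
        mul_nonpos_of_nonneg_of_nonpos (by omega) hneg
      omega
  · intro f hf
    have hdegF : ∀ w : Place K F, w.deg = 1 := fun w => ff_deg_eq_one x hx w
    have hsum := sum_ramificationIndex_eq hzE hzF hgtr hx v₀ (v₀.fiber F)
      (fun w => Place.mem_fiber)
    rw [← norm_ord v₀ (v₀.fiber F) (fun w hw => Place.mem_fiber.mp hw) hsum hdegF hf,
      X.ord_restrict, hXv, heX, one_mul]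

end Fermat.Agent.S27.Char0.Lift.H45
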