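import Fermat.Agent.S27.Char0.Lift.H68_SolveDefs
import Fermat.Agent.S27.Char0.Lift.H45_Fibre

/-!
# S27 LIFT / SOLVE, leaf NORM-ORD (helper64)

`stmt_NormOrd : Solve.Stmt_NormOrd`: the orders of `Dfin(x) · N_{F/K(x)}(h)` for `h ∈ L(n E')`.

For a place `P` of `F` over the place `v` of `K(x)`, with `e = e(P | v)`:
`ord_P N(h) = e · ∑_{w | v} ord_w h ≥ - e n ∑_{w | v} E'(w)`, and the factors
`(x - b_w) ^ (n E'(w))` of `Dfin(x)` for the finite `w | v` have order `≥ e n E'(w)` at `P`.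
-/

set_option autoImplicit false

noncomputable section

open AlgebraicCurve IntermediateField

namespace Fermat.Agent.S27.Char0.Lift.H64

open Fermat.Agent.RED.H17 Fermat.Agent.RED.H51 Fermat.Agent.S24 Fermat.Agent.S27.Char0
  Fermat.Agent.S27.Char0.Lift

attribute [local instance] Classical.propDecidable

local notation "L" => riemannRochSpace

universe u v

variable {K : Type u} {F : Type v} [Field K] [Field F] [Algebra K F]

/-- `ord_P N(f) = e(P | v) · ∑_{w | v} ord_w f`. -/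
theorem ord_norm_eq_fiber [IsAlgClosed K] (hP : HasPrincipalDivisors K F) (x : F)
    (hx : Transcendental K x) [FiniteDimensional ↥K⟮x⟯ F] (P : Place K F) {f : F}
    (hf : f ≠ 0) :
    P.ord (algebraMap ↥K⟮x⟯ F (Algebra.norm ↥K⟮x⟯ f)) =
      (P.ramificationIndex ↥K⟮x⟯ : ℤ) * ∑ w ∈ (P.restrict ↥K⟮x⟯).fiber F, w.ord f := by
  classical
  have := hP
  set g : ↥K⟮x⟯ := AdjoinSimple.gen K x with hg
  have hgx : algebraMap ↥K⟮x⟯ F g = x := rfl
  have hgtr : Transcendental K g :=
    (transcendental_algebraMap_iff (algebraMap ↥K⟮x⟯ F).injective).mp (by rw [hgx]; exact hx)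
  have hgtop : K⟮g⟯ = (⊤ : IntermediateField K ↥K⟮x⟯) := H45.adjoin_gen_eq_top_u x
  have hfinE : FiniteDimensional ↥K⟮g⟯ ↥K⟮x⟯ := (H45.finrank_of_eq_top_u K⟮g⟯ hgtop).1
  have hzE : H59.ZerosStmt K ↥K⟮x⟯ := H45.zerosStmt_u hgtr
  have hzF : H59.ZerosStmt K F := H45.zerosStmt_u hx
  have hdegF : ∀ w : Place K F, w.deg = 1 := fun w => ff_deg_eq_one x hx w
  have hsum := sum_ramificationIndex_eq hzE hzF hgtr hx (P.restrict ↥K⟮x⟯)
    ((P.restrict ↥K⟮x⟯).fiber F) (fun w => Place.mem_fiber)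
  rw [P.ord_restrict,
    norm_ord (P.restrict ↥K⟮x⟯) ((P.restrict ↥K⟮x⟯).fiber F)
      (fun w hw => Place.mem_fiber.mp hw) hsum hdegF hf]

/-- The order of `x - b` at a place where `x` is regular is nonnegative. -/
theorem ord_sub_const_nonneg {x : F} (hx : Transcendental K x) (P : Place K F)
    (hPx : 0 ≤ P.ord x) (c : K) : 0 ≤ P.ord (x - algebraMap K F c) := by
  have hx0 : x ≠ 0 := fun h => hx (h ▸ isAlgebraic_zero)
  have h1 := le_ord_add P (f := x) (g := -algebraMap K F c) (n := 0) (Or.inr hPx)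
    (Or.inr (by rw [RED.H51.ord_neg, RED.H17.ord_algebraMap]))
  rw [← sub_eq_add_neg] at h1
  rcases h1 with h0 | h1
  · rw [h0, Place.ord_zero]
  · exact h1

/-- The order of `x - b` at a pole of `x`. -/
theorem ord_sub_const_of_neg {x : F} (hx : Transcendental K x) (P : Place K F)
    (hPx : P.ord x < 0) (c : K) : P.ord (x - algebraMap K F c) = P.ord x := by
  have hx0 : x ≠ 0 := fun h => hx (h ▸ isAlgebraic_zero)
  rw [sub_eq_add_neg]
  refine ord_add_of_lt P hx0 (Or.inr ?_)
  rw [RED.H51.ord_neg, RED.H17.ord_algebraMap]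
  exact hPx

theorem sub_const_ne_zero {x : F} (hx : Transcendental K x) (c : K) :
    x - algebraMap K F c ≠ 0 := by
  intro h0
  apply hx
  rw [sub_eq_zero.mp h0]
  exact isAlgebraic_algebraMap c

/-- The orders of `x` and `x - c` at the places of a fibre of `F / K(x)`. -/
theorem ord_fiber_eq (x : F) [FiniteDimensional ↥K⟮x⟯ F] (P : Place K F) (c : K) :
    P.ord (x - algebraMap K F c) = (P.ramificationIndex ↥K⟮x⟯ : ℤ) *
      (P.restrict ↥K⟮x⟯).ord (AdjoinSimple.gen K x - algebraMap K ↥K⟮x⟯ c) := by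
  rw [← P.ord_restrict (F := ↥K⟮x⟯) (AdjoinSimple.gen K x - algebraMap K ↥K⟮x⟯ c)]
  congr 1

theorem ord_fiber_eq' (x : F) [FiniteDimensional ↥K⟮x⟯ F] (P : Place K F) :
    P.ord x = (P.ramificationIndex ↥K⟮x⟯ : ℤ) *
      (P.restrict ↥K⟮x⟯).ord (AdjoinSimple.gen K x) := by
  rw [← P.ord_restrict (F := ↥K⟮x⟯) (AdjoinSimple.gen K x)]
  congr 1

/-- **NORM-ORD**. -/
theorem stmt_NormOrd : Solve.Stmt_NormOrd.{u, v} := by
  intro K F _ _ _ _ H x hx hfin n E' b hE' hb h hh
  classical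
  have : FiniteDimensional ↥K⟮x⟯ F := hfin
  have hP : HasPrincipalDivisors K F := H.principal
  rcases eq_or_ne h 0 with rfl | hh0
  · simp only [Algebra.norm_zero, map_zero, mul_zero, Place.ord_zero, le_refl, implies_true,
      true_and]
    intro P hPx
    have hdeg : 0 ≤ Divisor.degree E' := by
      rw [degree_eq_sum H.deg_one]
      exact Finset.sum_nonneg fun P _ => hE' P
    have : 0 ≤ (n : ℤ) * Divisor.degree E' := mul_nonneg (by positivity) hdeg
    nlinarith
  -- general facts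
  have hN0 : algebraMap ↥K⟮x⟯ F (Algebra.norm ↥K⟮x⟯ h) ≠ 0 := by
    rw [Ne, map_eq_zero]
    exact Algebra.norm_ne_zero_iff.mpr hh0
  set S : Finset (Place K F) := E'.support.filter (fun P => 0 ≤ P.ord x) with hS
  have hfac0 : ∀ P' ∈ S, (x - algebraMap K F (b P')) ^ (n * (E' P').toNat) ≠ 0 :=
    fun P' _ => pow_ne_zero _ (sub_const_ne_zero hx _)
  have hD0 : Solve.dfinX x n E' b ≠ 0 := Finset.prod_ne_zero_iff.mpr hfac0
  have hDord : ∀ P : Place K F, P.ord (Solve.dfinX x n E' b) =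
      ∑ P' ∈ S, ((n : ℤ) * E' P') * P.ord (x - algebraMap K F (b P')) := by
    intro P
    unfold Solve.dfinX
    rw [RED.H17.ord_prod P _ _ hfac0]
    refine Finset.sum_congr rfl fun P' _ => ?_
    rw [RED.H17.ord_pow]
    push_cast
    rw [Int.toNat_of_nonneg (hE' P')]
  have hordh : ∀ w : Place K F, -((n : ℤ) * E' w) ≤ w.ord h := by
    intro w
    have := ord_ge_of_mem_L hh hh0 w
    simpa using this
  -- the data at a place `P`
  have key : ∀ P : Place K F,
      -((P.ramificationIndex ↥K⟮x⟯ : ℤ) * ((n : ℤ) * ∑ w ∈ (P.restrict ↥K⟮x⟯).fiber F, E' w)) ≤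
        P.ord (algebraMap ↥K⟮x⟯ F (Algebra.norm ↥K⟮x⟯ h)) := by
    intro P
    rw [ord_norm_eq_fiber hP x hx P hh0, ← mul_neg, Finset.mul_sum, ← Finset.sum_neg_distrib]
    refine mul_le_mul_of_nonneg_left (Finset.sum_le_sum fun w _ => hordh w) (by positivity)
  refine ⟨fun P hPx => ?_, fun P hPx => ?_⟩
  · -- finite places
    rw [P.ord_mul hD0 hN0, hDord]
    set e : ℤ := (P.ramificationIndex ↥K⟮x⟯ : ℤ) with he
    have hepos : 0 < e := by
      have := P.ramificationIndex_pos (F := ↥K⟮x⟯)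
      rw [he]; exact_mod_cast this
    set T := (P.restrict ↥K⟮x⟯).fiber F with hT
    have hterm : ∀ P' ∈ S, 0 ≤ ((n : ℤ) * E' P') * P.ord (x - algebraMap K F (b P')) :=
      fun P' _ => mul_nonneg (mul_nonneg (by positivity) (hE' P'))
        (ord_sub_const_nonneg hx P hPx _)
    have hvx : 0 ≤ (P.restrict ↥K⟮x⟯).ord (AdjoinSimple.gen K x) := by
      have h1 : P.ord x = e * (P.restrict ↥K⟮x⟯).ord (AdjoinSimple.gen K x) :=
        ord_fiber_eq' x P
      by_contra hneg
      rw [not_le] at hneg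
      have := mul_neg_of_pos_of_neg hepos hneg
      linarith
    have hTfin : ∀ w ∈ T, 0 ≤ w.ord x := by
      intro w hw
      rw [ord_fiber_eq' x w, Place.mem_fiber.mp hw]
      exact mul_nonneg (by positivity) hvx
    have hstep : e * ((n : ℤ) * ∑ w ∈ T, E' w) ≤
        ∑ P' ∈ S, ((n : ℤ) * E' P') * P.ord (x - algebraMap K F (b P')) := by
      have hA : ∑ w ∈ T.filter (fun w => w ∈ S), E' w = ∑ w ∈ T, E' w := by
        refine Finset.sum_filter_of_ne fun w hw hne => ?_
        rw [hS, Finset.mem_filter, Finsupp.mem_support_iff]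
        exact ⟨hne, hTfin w hw⟩
      rw [← hA, Finset.mul_sum, Finset.mul_sum]
      refine le_trans (Finset.sum_le_sum (g := fun P' =>
        ((n : ℤ) * E' P') * P.ord (x - algebraMap K F (b P'))) fun w hw => ?_)
        (Finset.sum_le_sum_of_subset_of_nonneg (fun w hw => (Finset.mem_filter.mp hw).2)
          fun P' hP' _ => hterm P' hP')
      · obtain ⟨hwT, hwS⟩ := Finset.mem_filter.mp hw
        have hwsupp : w ∈ E'.support := (Finset.mem_filter.mp hwS).1
        have hwx : 0 ≤ w.ord x := (Finset.mem_filter.mp hwS).2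
        have h1 := hb w hwsupp hwx
        rw [ord_fiber_eq x w, Place.mem_fiber.mp hwT] at h1
        have hvpos : 1 ≤ (P.restrict ↥K⟮x⟯).ord
            (AdjoinSimple.gen K x - algebraMap K ↥K⟮x⟯ (b w)) := by
          by_contra hneg
          rw [not_le] at hneg
          have : (w.ramificationIndex ↥K⟮x⟯ : ℤ) * (P.restrict ↥K⟮x⟯).ord
              (AdjoinSimple.gen K x - algebraMap K ↥K⟮x⟯ (b w)) ≤ 0 :=
            mul_nonpos_of_nonneg_of_nonpos (by positivity) (by omega)
          omega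
        rw [ord_fiber_eq x P]
        have hnE : 0 ≤ (n : ℤ) * E' w := mul_nonneg (by positivity) (hE' w)
        nlinarith [mul_nonneg hnE hepos.le]
    have hk := key P
    rw [← he, ← hT] at hk
    linarith
  · -- poles of `x`
    rw [P.ord_mul hD0 hN0, hDord]
    set e : ℤ := (P.ramificationIndex ↥K⟮x⟯ : ℤ) with he
    have hepos : 0 < e := by
      have := P.ramificationIndex_pos (F := ↥K⟮x⟯)
      rw [he]; exact_mod_cast this
    set T := (P.restrict ↥K⟮x⟯).fiber F with hT
    set o : ℤ := (P.restrict ↥K⟮x⟯).ord (AdjoinSimple.gen K x) with ho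
    have hPxe : P.ord x = e * o := ord_fiber_eq' x P
    have hvx : o ≤ -1 := by
      by_contra hneg
      rw [not_le] at hneg
      have := mul_nonneg hepos.le (show 0 ≤ o by omega)
      linarith
    have hTpole : ∀ w ∈ T, w.ord x < 0 := by
      intro w hw
      rw [ord_fiber_eq' x w, Place.mem_fiber.mp hw]
      have := w.ramificationIndex_pos (F := ↥K⟮x⟯)
      exact mul_neg_of_pos_of_neg (by exact_mod_cast this) (by omega)
    have hDexact : ∑ P' ∈ S, ((n : ℤ) * E' P') * P.ord (x - algebraMap K F (b P')) =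
        (n : ℤ) * P.ord x * ∑ P' ∈ S, E' P' := by
      rw [Finset.mul_sum]
      refine Finset.sum_congr rfl fun P' _ => ?_
      rw [ord_sub_const_of_neg hx P hPx]
      ring
    set Spole : Finset (Place K F) := E'.support.filter (fun P => ¬ 0 ≤ P.ord x) with hSp
    have hdeg : Divisor.degree E' = ∑ P' ∈ S, E' P' + ∑ P' ∈ Spole, E' P' := by
      rw [degree_eq_sum H.deg_one, Finsupp.sum, hS, hSp,
        Finset.sum_filter_add_sum_filter_not]
    have hA : ∑ w ∈ T, E' w ≤ ∑ P' ∈ Spole, E' P' := by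
      have hA' : ∑ w ∈ T.filter (fun w => w ∈ Spole), E' w = ∑ w ∈ T, E' w := by
        refine Finset.sum_filter_of_ne fun w hw hne => ?_
        rw [hSp, Finset.mem_filter, Finsupp.mem_support_iff]
        exact ⟨hne, not_le.mpr (hTpole w hw)⟩
      rw [← hA']
      exact Finset.sum_le_sum_of_subset_of_nonneg
        (fun w hw => (Finset.mem_filter.mp hw).2) fun P' _ _ => hE' P'
    have hA0 : 0 ≤ ∑ w ∈ T, E' w := Finset.sum_nonneg fun w _ => hE' w
    have hk := key P
    rw [← he, ← hT] at hk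
    rw [hDexact, hdeg, hPxe]
    have hn0 : (0 : ℤ) ≤ n := by positivity
    set A := ∑ w ∈ T, E' w
    set B := ∑ P' ∈ Spole, E' P'
    set C := ∑ P' ∈ S, E' P'
    have h1 : 0 ≤ e * ((n : ℤ) * B) := mul_nonneg hepos.le (mul_nonneg hn0 (hA0.trans hA))
    have h2 : e * ((n : ℤ) * A) ≤ e * ((n : ℤ) * B) :=
      mul_le_mul_of_nonneg_left (mul_le_mul_of_nonneg_left hA hn0) hepos.le
    nlinarith [mul_nonneg h1 (show (0 : ℤ) ≤ -1 - o by omega)]

end Fermat.Agent.S27.Char0.Lift.H64
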