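import Fermat.Agent.S27.Char0.Lift.H68_SolveDefs2
import Fermat.Agent.S27.Char0.Lift.H64_NormOrd
import Fermat.Agent.S27.Char0.Lift.H20_PolyCrit
import Fermat.Agent.S27.Char0.Lift.H45_Coord

/-!
# S27 LIFT / SOLVE, leaf NORM-POLY (helper45)

`stmt_NormPoly : Solve.Stmt_NormPoly`: `Dfin(x) ∈ K(x)` and `Dfin(x) · N_{F/K(x)}(h)` is a
polynomial of degree `≤ n g` in `x` for every `h ∈ L(n E')`.  Assembly of NORM-ORD (helper64) and
POLY-CRIT (helper20).
-/

set_option autoImplicit false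

noncomputable section

open AlgebraicCurve IntermediateField

namespace Fermat.Agent.S27.Char0.Lift.H45

open Fermat.Agent.RED.H17 Fermat.Agent.S27.Char0 Fermat.Agent.S27.Char0.Lift

attribute [local instance] Classical.propDecidable

local notation "L" => riemannRochSpace

universe u v u' v'

/-- `Dfin(x)` lies in `K(x)`. -/
theorem dfinX_mem {K : Type u} {F : Type v} [Field K] [Field F] [Algebra K F] (x : F) (n : ℕ)
    (E' : Divisor K F) (b : Place K F → K) : Solve.dfinX x n E' b ∈ K⟮x⟯ := by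
  unfold Solve.dfinX
  refine prod_mem fun P _ => pow_mem (sub_mem (mem_adjoin_simple_self K x) ?_) _
  exact K⟮x⟯.algebraMap_mem (b P)

/-- **NORM-POLY** from NORM-ORD and POLY-CRIT. -/
theorem stmt_NormPoly_of (hNO : Solve.Stmt_NormOrd.{u, v}) (hPC : Solve.Stmt_PolyCrit.{u, v}) :
    Solve.Stmt_NormPoly.{u, v, u', v'} := by
  intro K F k Ft _ _ _ _ _ _ _ _ G H H' g n E Gd N Ld
  classical
  have hxtr : Transcendental K G.x := x_transc G
  have hfin : Module.Finite ↥K⟮G.x⟯ F := G.fin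
  have hD : dfin G n Ld.E' Ld.b ∈ K⟮G.x⟯ := by
    rw [Solve.dfin_eq_dfinX]
    exact dfinX_mem G.x n Ld.E' Ld.b
  refine ⟨hD, fun h hh => ?_⟩
  -- the degree of `E'`
  have hdeg : Divisor.degree Ld.E' = g := by
    have h1 := degree_mapDomain H.deg_one H'.deg_one G.S.r Ld.E'
    rw [Ld.push, Gd.deg] at h1
    exact h1.symm
  -- the hypothesis on `b`
  have hb : ∀ P ∈ Ld.E'.support, 0 ≤ P.ord G.x →
      0 < P.ord (G.x - algebraMap K F (Ld.b P)) := by
    intro P hP hx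
    refine Ld.value P hP ?_
    by_contra hneg
    have := Ld.pole P hP (not_le.mp hneg)
    omega
  obtain ⟨hreg, hpole⟩ := hNO K F H G.x hxtr hfin n Ld.E' Ld.b Ld.eff hb h hh
  rw [Solve.dfin_eq_dfinX]
  have hmem : Solve.dfinX G.x n Ld.E' Ld.b *
      algebraMap ↥K⟮G.x⟯ F (Algebra.norm ↥K⟮G.x⟯ h) ∈ K⟮G.x⟯ :=
    mul_mem (dfinX_mem G.x n Ld.E' Ld.b) (Algebra.norm ↥K⟮G.x⟯ h).2
  obtain ⟨p, hp, hpe⟩ := hPC K F H G.x hxtr hfin _ (n * g) hmem hreg (by
    intro P hPx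
    have := hpole P hPx
    rw [hdeg] at this
    push_cast
    exact this)
  exact ⟨p, hp, hpe⟩

/-- **NORM-POLY**, unconditional. -/
theorem stmt_NormPoly : Solve.Stmt_NormPoly.{u, v, u', v'} :=
  stmt_NormPoly_of H64.stmt_NormOrd H20.stmt_PolyCrit

end Fermat.Agent.S27.Char0.Lift.H45
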