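import Fermat.Agent.S27.Char0.Lift.H68_SolveDefs3

/-!
# S27 LIFT / SOLVE, sub-leaf EVAL-ID (helper64)

`stmt_EvalID : Solve.Stmt_EvalID`: values and partial derivatives of the reduced norm system.
-/

set_option autoImplicit false

noncomputable section

namespace Fermat.Agent.S27.Char0.Lift.H64

open Fermat.Agent.S27.Lift.H68 MvPolynomial

universe u u' v'

/-- Evaluation of a base-changed polynomial at a base-changed point. -/
theorem eval_map_comp {R S : Type*} [CommRing R] [CommRing S] {σ : Type*} (φ : R →+* S)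
    (t : σ → R) (p : MvPolynomial σ R) :
    eval (fun j => φ (t j)) (map φ p) = φ (eval t p) := by
  rw [eval_map, ← coe_eval₂Hom, eval₂Hom]
  change eval₂ φ (fun j => φ (t j)) p = φ (eval t p)
  rw [eval, coe_eval₂Hom]
  exact (eval₂_comp_left φ (RingHom.id R) t p).symm ▸ by
    simp [Function.comp_def]

theorem pderiv_C_mul' {R : Type*} [CommRing R] {σ : Type*} (j : σ) (a : R)
    (p : MvPolynomial σ R) : pderiv j (C a * p) = C a * pderiv j p := by
  rw [Derivation.leibniz, pderiv_C, smul_zero, add_zero, smul_eq_mul]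

/-- **EVAL-ID**. -/
theorem stmt_EvalID : Solve.Stmt_EvalID.{u, u', v'} := by
  intro k Ft _ _ _ E O _ res N M d Φ xt rD βt rf hid τ
  classical
  set τF : Fin N → Ft := fun j => algebraMap k Ft (τ j) with hτF
  set τE : Fin N → ↥E := fun j => algebraMap k ↥E (τ j) with hτE
  have hτEF : τF = fun j => algebraMap ↥E Ft (τE j) := by
    funext j
    rw [hτF, hτE]
    exact IsScalarTower.algebraMap_apply k ↥E Ft (τ j)
  have hsum : ∑ j, τE j • rf j = ∑ j, algebraMap k Ft (τ j) * rf j := by
    refine Finset.sum_congr rfl fun j _ => ?_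
    rw [Algebra.smul_def, hτE, ← IsScalarTower.algebraMap_apply]
  have hmap : ∀ e, map ((algebraMap k Ft).comp res) (Φ e) =
      map (algebraMap k Ft) (map res (Φ e)) := fun e => (map_map _ _ _).symm
  refine ⟨?_, fun hinv hh j => ?_⟩
  · have h1 := congrArg (eval τF) hid
    rw [map_sum, map_mul, eval_C] at h1
    simp only [map_mul, eval_C, hmap] at h1
    rw [hτEF, eval_map_comp (algebraMap ↥E Ft) τE, eval_normFormAlg, hsum, ← hτEF] at h1
    rw [← h1]
    refine Finset.sum_congr rfl fun e _ => ?_
    rw [hτF, eval_map_comp (algebraMap k Ft) τ, mul_comm]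
  · have h1 := congrArg (fun p => eval τF (pderiv j p)) hid
    simp only [map_sum, pderiv_C_mul', hmap, pderiv_map, map_mul, eval_C] at h1
    rw [hτEF, eval_map_comp (algebraMap ↥E Ft) τE,
      eval_pderiv_normFormAlg βt rf τE hinv (by rw [hsum]; exact hh) j, hsum, ← hτEF,
      map_mul, ← mul_assoc] at h1
    rw [← h1]
    refine Finset.sum_congr rfl fun e _ => ?_
    rw [hτF, eval_map_comp (algebraMap k Ft) τ, mul_comm, pderiv_map]

end Fermat.Agent.S27.Char0.Lift.H64
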