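import Fermat.Agent.S27.Char0.Lift.H68_Solve
import Fermat.Agent.S27.Char0.Lift.H45_NormPoly
import Fermat.Agent.S27.Char0.Lift.H45_JacFinal
import Fermat.Agent.S27.Char0.Lift.H20_JacOrd
import Fermat.Agent.S27.Char0.Lift.H64_EvalID
import Fermat.Agent.S27.Char0.Lift.H45_Final

/-!
# S27 LIFT (helper68): SOLVE and LIFT, unconditional

`stmt_Solve : Stmt_Solve` from NORM-POLY (helper45, from NORM-ORD helper64 and POLY-CRIT
helper20), JAC-ORD (helper20), JAC-CONST (helper45, from TRACEPOLE) and EVAL-ID (helper64);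
`stmt_LIFT : Char0.Stmt_LIFT` by helper45's assembly.
-/

set_option autoImplicit false

namespace Fermat.Agent.S27.Char0.Lift.H68

universe u v u' v'

/-- **SOLVE**, unconditional. -/
theorem stmt_Solve : Stmt_Solve.{u, v, u', v'} :=
  stmt_Solve_of H45.stmt_NormPoly H20.stmt_JacOrd H45.stmt_JacConst H64.stmt_EvalID

/-- **LIFT**, unconditional. -/
theorem stmt_LIFT : Fermat.Agent.S27.Char0.Stmt_LIFT.{u, v, u', v'} :=
  H45.stmt_LIFT_of_solve stmt_Solve

end Fermat.Agent.S27.Char0.Lift.H68
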