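import Fermat.Agent.S27.Char0.Defs

/-!
# S27 (row 26), char-0 half, package LIFT (owner: helper45): leaves

Target: `Fermat.Agent.S27.Char0.Stmt_LIFT`.  Route (helper20's note "package LIFT = norm system +
MV-HENSEL", tested by helper68 and helper45): valuations only, no completeness.

Setting: `G : GoodRed K F k Ft`, `x := G.x`, `xt := G.S.rd G.x`, `n` with `(n : k) ≠ 0`,
`E` on `Ft` of degree `0` with `n E` principal.

* **GENERIC** (`Stmt_Generic`, only on `Ft`): a reduced non-special `Et = ∑_{Q ∈ A} Q` (`#A = g`),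
  `xt` unramified at the points of `A` and injective on `A`, and `Et' ≥ 0` of degree `g`,
  `ht ≠ 0` with `div ht = n (Et - Et')`, `Et - Et' ∼ E`, `l(n Et') = n g + 1 - g`.
* **LATTICE** (`Stmt_Lattice`): a lift `E'` of `Et'` (one point per disc, poles of `xt` lifted to
  poles of `x`), the `x`-values `b P` of its finite points, and `f_1 .. f_N ∈ L(n E') ∩ V` whose
  reductions are a basis of `L(n Et')`.
* **SOLVE** (`Stmt_Solve`): (norm system + Jacobian + MV-HENSEL) there are `h ∈ L(n E') ∩ V` with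
  `rd h = ht`, `c ≠ 0` and lifts `a_Q` of `α_Q` with
  `Dfin(x) · N_{F/K(x)}(h) = c · ∏_{Q ∈ A} (x - a_Q)^n`.
* **CONCL** (`Stmt_Concl`): for such an `h`, `n ∣ ord_P h` for every place `P`.
* **TRACEPOLE** (`Stmt_TracePole`, used inside SOLVE): order of the pole of a trace.
Assembly `Stmt_LIFT` from these: `H45_Asm.lean`.
-/

set_option autoImplicit false

noncomputable section

open AlgebraicCurve IntermediateField

namespace Fermat.Agent.S27.Char0.Lift

open Fermat.Agent.RED.H17 Fermat.Agent.S27.Char0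

attribute [local instance] Classical.propDecidable

local notation "L" => riemannRochSpace

universe u v u' v'

/-- Output of GENERIC (step 0), on the function field `Ft / k` with chart `xt`. -/
structure GenericData (k : Type u') (Ft : Type v') [Field k] [Field Ft] [Algebra k Ft]
    (xt : Ft) (g n : ℕ) (E : Divisor k Ft) where
  /-- the points `Q_1 .. Q_g` of `Et` -/
  A : Finset (Place k Ft)
  /-- the values `α_Q = xt(Q)` -/
  α : Place k Ft → k
  /-- the effective divisor `Et'` -/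
  Et' : Divisor k Ft
  /-- the function `ht` with `div ht = n (Et - Et')` -/
  ht : Ft
  card_A : A.card = g
  nonspecial : Module.finrank k (L (ptsDiv A)) = 1
  simple : ∀ Q ∈ A, Q.ord (xt - algebraMap k Ft (α Q)) = 1
  inj : ∀ Q ∈ A, ∀ Q' ∈ A, α Q = α Q' → Q = Q'
  eff : ∀ Q, 0 ≤ Et' Q
  deg : Divisor.degree Et' = g
  ht_ne : ht ≠ 0
  div_ht : ∀ Q, Q.ord ht = n * (ptsDiv A Q - Et' Q)
  equiv : ptsDiv A - Et' - E ∈ Divisor.principal (K := k) (F := Ft)
  rank : (Module.finrank k (L ((n : ℤ) • Et')) : ℤ) = n * g + 1 - g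

/-- **GENERIC** (step 0). -/
def Stmt_Generic : Prop :=
  ∀ (k : Type u') (Ft : Type v') [Field k] [Field Ft] [Algebra k Ft] [IsAlgClosed k],
    FFHyp k Ft → ∀ (g : ℕ) (c' : ℤ), IsGenus k Ft g c' →
    ∀ (xt : Ft), Transcendental k xt → Module.Finite k⟮xt⟯ Ft → Algebra.IsSeparable k⟮xt⟯ Ft →
    ∀ (n : ℕ), 0 < n → ∀ (E : Divisor k Ft), Divisor.degree E = 0 →
      (n : ℤ) • E ∈ Divisor.principal (K := k) (F := Ft) →
      Nonempty (GenericData k Ft xt g n E)

section Setting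

variable {K : Type u} {F : Type v} {k : Type u'} {Ft : Type v'} [Field K] [Field F]
  [Algebra K F] [Field k] [Field Ft] [Algebra k Ft]

/-- Output of LATTICE (step 1). -/
structure LatticeData (G : GoodRed K F k Ft) (n : ℕ) (Et' : Divisor k Ft) (N : ℕ) where
  /-- the lift of `Et'` -/
  E' : Divisor K F
  /-- the `x`-values of the points of `E'` which are not poles of `x` -/
  b : Place K F → K
  /-- the lattice basis -/
  f : Fin N → F
  eff : ∀ P, 0 ≤ E' P
  push : Finsupp.mapDomain G.S.r E' = Et'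
  one_per_disc : ∀ P ∈ E'.support, ∀ P' ∈ E'.support, G.S.r P = G.S.r P' → P = P'
  pole : ∀ P ∈ E'.support, (G.S.r P).ord (G.S.rd G.x) < 0 → P.ord G.x < 0
  value : ∀ P ∈ E'.support, 0 ≤ (G.S.r P).ord (G.S.rd G.x) →
    0 < P.ord (G.x - algebraMap K F (b P))
  b_int : ∀ P ∈ E'.support, 0 ≤ (G.S.r P).ord (G.S.rd G.x) → algebraMap K F (b P) ∈ G.S.V
  f_mem_V : ∀ j, f j ∈ G.S.V
  f_mem_L : ∀ j, f j ∈ L ((n : ℤ) • E')
  f_li : LinearIndependent k (fun j => G.S.rd (f j))
  f_span : ∀ y ∈ L ((n : ℤ) • Et'), y ∈ Submodule.span k (Set.range fun j => G.S.rd (f j))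

/-- The polynomial `Dfin(x)` (as an element of `F`). -/
def dfin (G : GoodRed K F k Ft) (n : ℕ) (E' : Divisor K F) (b : Place K F → K) : F :=
  ∏ P ∈ E'.support.filter (fun P => 0 ≤ P.ord G.x),
    (G.x - algebraMap K F (b P)) ^ (n * (E' P).toNat)

/-- The conclusion of SOLVE for a function `h`. -/
structure IsSolution (G : GoodRed K F k Ft) (n : ℕ) (A : Finset (Place k Ft))
    (α : Place k Ft → k) (ht : Ft) (E' : Divisor K F) (b : Place K F → K) (h : F) : Prop where
  mem_V : h ∈ G.S.V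
  rd_eq : G.S.rd h = ht
  mem_L : h ∈ L ((n : ℤ) • E')
  norm_eq : ∃ (c : K) (a : Place k Ft → K), c ≠ 0 ∧
    (∀ Q ∈ A, algebraMap K F (a Q) ∈ G.S.V ∧
      G.S.rd (algebraMap K F (a Q)) = algebraMap k Ft (α Q)) ∧
    dfin G n E' b * algebraMap K⟮G.x⟯ F (Algebra.norm K⟮G.x⟯ h) =
      algebraMap K F c * ∏ Q ∈ A, (G.x - algebraMap K F (a Q)) ^ n

end Setting

/-- **LATTICE** (step 1). -/
def Stmt_Lattice : Prop :=
  ∀ (K : Type u) (F : Type v) (k : Type u') (Ft : Type v') [Field K] [Field F] [Algebra K F]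
    [Field k] [Field Ft] [Algebra k Ft] [IsAlgClosed K] [IsAlgClosed k]
    (G : GoodRed K F k Ft), FFHyp K F → FFHyp k Ft →
    ∀ (g : ℕ) (c : ℤ) (c' : ℤ), IsGenus K F g c → IsGenus k Ft g c' →
    ∀ (n : ℕ) (Et' : Divisor k Ft), (∀ Q, 0 ≤ Et' Q) → Divisor.degree Et' = g →
    ∀ N : ℕ, (N : ℤ) = n * g + 1 - g → Module.finrank k (L ((n : ℤ) • Et')) = N →
      Nonempty (LatticeData G n Et' N)

/-- **SOLVE** (steps 2-4: norm system, Jacobian, MV-HENSEL). -/
def Stmt_Solve : Prop :=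
  ∀ (K : Type u) (F : Type v) (k : Type u') (Ft : Type v') [Field K] [Field F] [Algebra K F]
    [Field k] [Field Ft] [Algebra k Ft] [IsAlgClosed K] [CharZero K] [IsAlgClosed k]
    (G : GoodRed K F k Ft), FFHyp K F → FFHyp k Ft →
    ∀ (g : ℕ) (c : ℤ) (c' : ℤ), IsGenus K F g c → IsGenus k Ft g c' →
    ∀ n : ℕ, (n : k) ≠ 0 → ∀ (E : Divisor k Ft) (Gd : GenericData k Ft (G.S.rd G.x) g n E)
      (N : ℕ), (N : ℤ) = n * g + 1 - g → ∀ Ld : LatticeData G n Gd.Et' N,
      ∃ h : F, IsSolution G n Gd.A Gd.α Gd.ht Ld.E' Ld.b h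

/-- **CONCL** (step 5): all orders of a solution are divisible by `n`. -/
def Stmt_Concl : Prop :=
  ∀ (K : Type u) (F : Type v) (k : Type u') (Ft : Type v') [Field K] [Field F] [Algebra K F]
    [Field k] [Field Ft] [Algebra k Ft] [IsAlgClosed K] [CharZero K] [IsAlgClosed k]
    (G : GoodRed K F k Ft), FFHyp K F → FFHyp k Ft →
    ∀ (g : ℕ) (c : ℤ) (c' : ℤ), IsGenus K F g c → IsGenus k Ft g c' →
    ∀ n : ℕ, (n : k) ≠ 0 → ∀ (E : Divisor k Ft) (Gd : GenericData k Ft (G.S.rd G.x) g n E)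
      (N : ℕ) (Ld : LatticeData G n Gd.Et' N) (h : F),
      IsSolution G n Gd.A Gd.α Gd.ht Ld.E' Ld.b h → ∀ P : Place K F, (n : ℤ) ∣ P.ord h

/-- **TRACEPOLE**: if `w` has a pole of order `m ≥ 1` at a place `Q` where `xt - α` has a simple
zero, and `w` is regular at the other zeros of `xt - α`, then the trace of `w` to `k(xt)` has a
pole of order exactly `m` at `Q`. -/
def Stmt_TracePole : Prop :=
  ∀ (k : Type u') (Ft : Type v') [Field k] [Field Ft] [Algebra k Ft] [IsAlgClosed k],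
    FFHyp k Ft → ∀ (xt : Ft), Transcendental k xt → Module.Finite k⟮xt⟯ Ft →
    Algebra.IsSeparable k⟮xt⟯ Ft →
    ∀ (w : Ft) (α : k) (Q : Place k Ft) (m : ℕ), 0 < m →
      Q.ord (xt - algebraMap k Ft α) = 1 → Q.ord w = -(m : ℤ) →
      (∀ R : Place k Ft, R ≠ Q → 0 < R.ord (xt - algebraMap k Ft α) → 0 ≤ R.ord w) →
      Q.ord (algebraMap k⟮xt⟯ Ft (Algebra.trace k⟮xt⟯ Ft w)) = -(m : ℤ)

end Fermat.Agent.S27.Char0.Lift
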