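import Fermat.Agent.S27.Char0.Lift.Defs

/-!
# S27 LIFT, assembly (helper45)

`stmt_LIFT_of : Stmt_Generic → Stmt_Lattice → Stmt_Solve → Stmt_Concl → Char0.Stmt_LIFT`.

Given a solution `h` all of whose orders are divisible by `n`, put `D := div(h) / n`.  Then
`n D = div h` is principal, `deg D = 0`, and by the divisor identity
`n r_* D = div (rd h) = div ht = n (Et - Et')`, so `r_* D = Et - Et' ∼ E`.
-/

set_option autoImplicit false

noncomputable section

open AlgebraicCurve IntermediateField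

namespace Fermat.Agent.S27.Char0.Lift.H45

open Fermat.Agent.RED.H17 Fermat.Agent.S27.Char0

attribute [local instance] Classical.propDecidable

local notation "L" => riemannRochSpace

universe u v u' v'

section Quot

variable {K : Type u} {F : Type v} [Field K] [Field F] [Algebra K F]

/-- The divisor `div(h) / n`. -/
def divQuot (hP : HasPrincipalDivisors K F) (h : F) (n : ℕ) : Divisor K F :=
  (dv hP h).mapRange (fun m : ℤ => m / (n : ℤ)) (by simp)

theorem divQuot_apply (hP : HasPrincipalDivisors K F) (h : F) (n : ℕ) (P : Place K F) :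
    divQuot hP h n P = P.ord h / (n : ℤ) := by
  rw [divQuot, Finsupp.mapRange_apply, dv_apply]

theorem smul_divQuot (hP : HasPrincipalDivisors K F) (h : F) (n : ℕ)
    (hdiv : ∀ P : Place K F, (n : ℤ) ∣ P.ord h) : (n : ℤ) • divQuot hP h n = dv hP h := by
  ext P
  rw [Finsupp.smul_apply, divQuot_apply, dv_apply, smul_eq_mul]
  exact Int.mul_ediv_cancel' (hdiv P)

end Quot

/-- **Assembly of package LIFT.** -/
theorem stmt_LIFT_of (hGen : Stmt_Generic.{u', v'}) (hLat : Stmt_Lattice.{u, v, u', v'})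
    (hSol : Stmt_Solve.{u, v, u', v'}) (hCon : Stmt_Concl.{u, v, u', v'}) :
    Stmt_LIFT.{u, v, u', v'} := by
  intro K F k Ft _ _ _ _ _ _ _ _ _ G H H' g c c' hg hg' n hn E hE hnE
  have hn0 : n ≠ 0 := by
    rintro rfl
    exact hn Nat.cast_zero
  have hnZ : (n : ℤ) ≠ 0 := Nat.cast_ne_zero.mpr hn0
  obtain ⟨Gd⟩ := hGen k Ft H' g c' hg' (G.S.rd G.x) G.transc G.fin' G.sep' n
    (Nat.pos_of_ne_zero hn0) E hE hnE
  -- the number of unknowns
  have hNpos : (0 : ℤ) ≤ n * g + 1 - g := by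
    have h1 : (1 : ℤ) ≤ n := by exact_mod_cast Nat.pos_of_ne_zero hn0
    have h2 : (0 : ℤ) ≤ g := Int.natCast_nonneg g
    nlinarith
  obtain ⟨N, hN⟩ := Int.eq_ofNat_of_zero_le hNpos
  have hrank : Module.finrank k (L ((n : ℤ) • Gd.Et')) = N := by
    have := Gd.rank
    rw [hN] at this
    exact_mod_cast this
  obtain ⟨Ld⟩ := hLat K F k Ft G H H' g c c' hg hg' n Gd.Et' Gd.eff Gd.deg N hN.symm hrank
  obtain ⟨h, hsol⟩ := hSol K F k Ft G H H' g c c' hg hg' n hn E Gd N hN.symm Ld
  have hdiv := hCon K F k Ft G H H' g c c' hg hg' n hn E Gd N Ld h hsol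
  have hP := H.principal
  have hGU : G.S.IsGU h := ⟨hsol.mem_V, by rw [hsol.rd_eq]; exact Gd.ht_ne⟩
  have hh0 : h ≠ 0 := hGU.ne_zero
  have hsm := smul_divQuot hP h n hdiv
  refine ⟨divQuot hP h n, ?_, ?_, ?_⟩
  · -- degree
    have h1 : (n : ℤ) • Divisor.degree (divQuot hP h n) = 0 := by
      rw [← map_zsmul, hsm, degree_dv]
    rw [smul_eq_mul] at h1
    exact (mul_eq_zero.mp h1).resolve_left hnZ
  · rw [hsm]
    exact dv_mem_principal hP hh0
  · have h2 : Finsupp.mapDomain G.S.r (divQuot hP h n) = ptsDiv Gd.A - Gd.Et' := by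
      have h3 : (n : ℤ) • Finsupp.mapDomain G.S.r (divQuot hP h n)
          = (n : ℤ) • (ptsDiv Gd.A - Gd.Et') := by
        rw [← Finsupp.mapDomain_smul, hsm]
        ext Q
        rw [G.S.mapDomain_dv hP hGU Q, hsol.rd_eq, Gd.div_ht Q, Finsupp.smul_apply,
          Finsupp.sub_apply, smul_eq_mul]
      ext Q
      have h4 := DFunLike.congr_fun h3 Q
      rw [Finsupp.smul_apply, Finsupp.smul_apply, smul_eq_mul, smul_eq_mul] at h4
      exact mul_left_cancel₀ hnZ h4
    rw [h2]
    exact Gd.equiv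

end Fermat.Agent.S27.Char0.Lift.H45
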