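import Fermat.Agent.S27.Char0.Lift.H45_Concl

/-!
# S27 LIFT (helper45): the rational function field `K(x)` inside `F`

* `const_of_ord_finite` : an element of `K(x)` without zeros and poles at the finite places is a
  nonzero constant;
* `norm_on_fibre` : a finite place `v` of `K(x)` is the place `x = a`; `ord_v (x - a') = [a' = a]`
  and `ord_v (N f) = ∑_{P : x(P) = a} ord_P f`.
-/

set_option autoImplicit false

noncomputable section

open AlgebraicCurve IntermediateField

namespace Fermat.Agent.S27.Char0.Lift.H45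

open Fermat.Agent.RED.H17 Fermat.Agent.RED.H51 Fermat.Agent.S24

attribute [local instance] Classical.propDecidable

universe u v

variable {K : Type u} {F : Type v} [Field K] [Field F] [Algebra K F]

/-- The generator of `K(x)` is transcendental. -/
theorem gen_transc {x : F} (hx : Transcendental K x) :
    Transcendental K (AdjoinSimple.gen K x) :=
  (transcendental_algebraMap_iff (algebraMap ↥K⟮x⟯ F).injective).mp hx

theorem finite_gen (x : F) : FiniteDimensional ↥K⟮AdjoinSimple.gen K x⟯ ↥K⟮x⟯ :=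
  (finrank_of_eq_top_u _ (adjoin_gen_eq_top_u x)).1

/-- An element of `K(x)` without zeros and poles at the finite places is a nonzero constant. -/
theorem const_of_ord_finite [IsAlgClosed K] {x : F} (hx : Transcendental K x) {z : ↥K⟮x⟯}
    (hz0 : z ≠ 0)
    (hz : ∀ v : Place K ↥K⟮x⟯, 0 ≤ v.ord (AdjoinSimple.gen K x) → v.ord z = 0) :
    ∃ c : K, c ≠ 0 ∧ z = algebraMap K ↥K⟮x⟯ c := by
  classical
  have hgtr := gen_transc hx
  have hfinE := finite_gen (K := K) x
  have hzE : H59.ZerosStmt K ↥K⟮x⟯ := zerosStmt_u hgtr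
  have H42 := Fermat.Agent.RED.H42.hyp_of_zeros hzE hgtr
  -- the pole of the generator
  have hitr : Transcendental K (AdjoinSimple.gen K x)⁻¹ := fun h =>
    hgtr (IsAlgebraic.inv_iff.mp h)
  have hitop : K⟮(AdjoinSimple.gen K x)⁻¹⟯ = (⊤ : IntermediateField K ↥K⟮x⟯) := by
    rw [H59.adjoin_inv_eq]
    exact adjoin_gen_eq_top_u x
  obtain ⟨vinf, -, huniq⟩ := exists_unique_zero_of_top_u hzE _ hitr hitop
  have hfin : ∀ v : Place K ↥K⟮x⟯, v ≠ vinf → v.ord z = 0 := by
    intro v hv
    apply hz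
    by_contra hneg
    apply hv
    apply huniq
    rw [Place.ord_inv]
    omega
  have hconst : z ∈ Set.range (algebraMap K ↥K⟮x⟯) := by
    by_contra hne
    obtain ⟨v, hv⟩ := H42.exists_pole z hne
    have hvinf : v = vinf := by
      by_contra h
      have := hfin v h
      omega
    obtain ⟨D, hD, hdeg⟩ := H42.principal z hz0
    rw [degree_eq_sum H42.deg_one] at hdeg
    have hsupp : D.support ⊆ {vinf} := by
      intro w hw
      rw [Finset.mem_singleton]
      by_contra h
      rw [Finsupp.mem_support_iff, hD, hfin w h] at hw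
      exact hw rfl
    have h1 : D.sum (fun _ n => n) = D vinf := by
      rw [Finsupp.sum, Finset.sum_subset hsupp (fun w _ hw => Finsupp.notMem_support_iff.mp hw),
        Finset.sum_singleton]
    rw [h1, hD, ← hvinf] at hdeg
    omega
  obtain ⟨c, hc⟩ := hconst
  refine ⟨c, ?_, hc.symm⟩
  rintro rfl
  rw [map_zero] at hc
  exact hz0 hc.symm

/-- **A finite place of `K(x)`** is the place `x = a`, and the norm formula on its fibre. -/
theorem norm_on_fibre [IsAlgClosed K] (hP : HasPrincipalDivisors K F) {x : F}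
    (hx : Transcendental K x) [FiniteDimensional ↥K⟮x⟯ F] (v : Place K ↥K⟮x⟯)
    (hv : 0 ≤ v.ord (AdjoinSimple.gen K x)) :
    ∃ a : K, (∀ a' : K, v.ord (AdjoinSimple.gen K x - algebraMap K ↥K⟮x⟯ a')
        = if a' = a then 1 else 0) ∧
      ∃ T : Finset (Place K F), (∀ P, P ∈ T ↔ 0 < P.ord (x - algebraMap K F a)) ∧
        ∀ f : F, f ≠ 0 → v.ord (Algebra.norm ↥K⟮x⟯ f) = ∑ P ∈ T, P.ord f := by
  classical
  have := hP
  have hgtr := gen_transc hx
  have hfinE := finite_gen (K := K) x
  have hzE : H59.ZerosStmt K ↥K⟮x⟯ := zerosStmt_u hgtr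
  have hzF : H59.ZerosStmt K F := zerosStmt_u hx
  have hdegv : v.deg = 1 := ff_deg_eq_one _ hgtr v
  obtain ⟨a, ha⟩ := exists_value v hdegv (regAt_of_ord_nonneg hv)
  have hgne : ∀ a' : K, AdjoinSimple.gen K x - algebraMap K ↥K⟮x⟯ a' ≠ 0 := by
    intro a' h0
    apply hgtr
    rw [sub_eq_zero.mp h0]
    exact isAlgebraic_algebraMap a'
  obtain ⟨y, hy⟩ : ∃ y : ↥K⟮x⟯, y = AdjoinSimple.gen K x - algebraMap K ↥K⟮x⟯ a := ⟨_, rfl⟩
  have hytr : Transcendental K y := by
    intro halg
    apply hgtr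
    have h1 : AdjoinSimple.gen K x = y + algebraMap K ↥K⟮x⟯ a := by rw [hy]; ring
    rw [h1]
    exact halg.add (isAlgebraic_algebraMap a)
  have hytop : K⟮y⟯ = (⊤ : IntermediateField K ↥K⟮x⟯) := by
    rw [eq_top_iff, ← adjoin_gen_eq_top_u x, adjoin_simple_le_iff]
    have h1 : AdjoinSimple.gen K x = y + algebraMap K ↥K⟮x⟯ a := by rw [hy]; ring
    rw [h1]
    exact add_mem (mem_adjoin_simple_self K y) (IntermediateField.algebraMap_mem _ a)
  obtain ⟨v₁, hv₁, huniq⟩ := exists_unique_zero_of_top_u hzE y hytr hytop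
  have hvv₁ : v = v₁ := huniq v (by rw [hy]; exact ha.ord_pos (hgne a))
  have hvy : v.ord y = 1 := by rw [hvv₁]; exact hv₁
  have hyx : algebraMap ↥K⟮x⟯ F y = x - algebraMap K F a := by
    rw [hy, map_sub, ← IsScalarTower.algebraMap_apply]
    rfl
  refine ⟨a, fun a' => ord_sub_const_at hgne (by rw [← hy]; exact hvy) a', v.fiber F, ?_, ?_⟩
  · intro P
    rw [Place.mem_fiber]
    constructor
    · intro hPv
      rw [← hyx, P.ord_restrict y, hPv, hvy, mul_one]
      have := P.ramificationIndex_pos (F := ↥K⟮x⟯)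
      omega
    · intro h1
      rw [hvv₁]
      apply huniq
      rw [← hyx, P.ord_restrict y] at h1
      have hepos := P.ramificationIndex_pos (F := ↥K⟮x⟯)
      by_contra hneg
      rw [not_lt] at hneg
      have : (P.ramificationIndex ↥K⟮x⟯ : ℤ) * (P.restrict ↥K⟮x⟯).ord y ≤ 0 :=
        mul_nonpos_of_nonneg_of_nonpos (by omega) hneg
      omega
  · intro f hf
    have hdegF : ∀ w : Place K F, w.deg = 1 := fun w => ff_deg_eq_one x hx w
    have hsum := sum_ramificationIndex_eq hzE hzF hgtr hx v (v.fiber F)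
      (fun w => Place.mem_fiber)
    exact norm_ord v (v.fiber F) (fun w hw => Place.mem_fiber.mp hw) hsum hdegF hf

end Fermat.Agent.S27.Char0.Lift.H45
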