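import Fermat.Agent.S27.Char0.Lift.H45_Rat

/-!
# S27 LIFT, SOLVE input RESID (helper45): the norm of `ht`

`resid_core` (on one function field): if `div ht = n (ptsDiv A - Et')`, the points of `A` are
simple `α_Q`-points of `x`, and `∏_i (x - β_i)^(m_i)` has the divisor of zeros `x_* (n Et')` at
finite distance, then `∏_i (x - β_i)^(m_i) · N_{F/K(x)}(ht) = c · ∏_{Q ∈ A} (x - α_Q)^n` with
`c ≠ 0`.

`resid` (good reduction): `rd (dfin) · N_{Ft/k(xt)}(ht) = c · ∏_{Q ∈ A} (xt - α_Q)^n`.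
-/

set_option autoImplicit false

noncomputable section

open AlgebraicCurve IntermediateField

namespace Fermat.Agent.S27.Char0.Lift.H45

open Fermat.Agent.RED.H17 Fermat.Agent.RED.H51 Fermat.Agent.S24 Fermat.Agent.S27.Char0

attribute [local instance] Classical.propDecidable

universe u v u' v'

section Core

variable {K : Type u} {F : Type v} [Field K] [Field F] [Algebra K F]

theorem resid_core [IsAlgClosed K] (H : FFHyp K F) {x : F} (hx : Transcendental K x)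
    [FiniteDimensional ↥K⟮x⟯ F] (n : ℕ) (A : Finset (Place K F)) (α : Place K F → K)
    (hsimple : ∀ Q ∈ A, Q.ord (x - algebraMap K F (α Q)) = 1)
    (Et' : Divisor K F) (ht : F) (ht0 : ht ≠ 0)
    (hdiv : ∀ Q : Place K F, Q.ord ht = n * (ptsDiv A Q - Et' Q))
    {ι : Type*} (S : Finset ι) (β : ι → K) (mult : ι → ℕ)
    (hS : ∀ (a : K) (T : Finset (Place K F)),
      (∀ P, P ∈ T ↔ 0 < P.ord (x - algebraMap K F a)) →
      ∑ i ∈ S, (if β i = a then (mult i : ℤ) else 0) = ∑ Q ∈ T, (n : ℤ) * Et' Q) :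
    ∃ ct : K, ct ≠ 0 ∧
      (∏ i ∈ S, (x - algebraMap K F (β i)) ^ mult i)
          * algebraMap ↥K⟮x⟯ F (Algebra.norm ↥K⟮x⟯ ht)
        = algebraMap K F ct * ∏ Q ∈ A, (x - algebraMap K F (α Q)) ^ n := by
  classical
  have hP := H.principal
  have hgtr := gen_transc hx
  have hgne : ∀ a' : K, AdjoinSimple.gen K x - algebraMap K ↥K⟮x⟯ a' ≠ 0 := by
    intro a' h0
    apply hgtr
    rw [sub_eq_zero.mp h0]
    exact isAlgebraic_algebraMap a'
  have hxne : ∀ a' : K, x - algebraMap K F a' ≠ 0 := by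
    intro a' h0
    apply hx
    rw [sub_eq_zero.mp h0]
    exact isAlgebraic_algebraMap a'
  obtain ⟨U, hU⟩ : ∃ U : ↥K⟮x⟯, U = (∏ i ∈ S,
      (AdjoinSimple.gen K x - algebraMap K ↥K⟮x⟯ (β i)) ^ mult i) * Algebra.norm ↥K⟮x⟯ ht :=
    ⟨_, rfl⟩
  obtain ⟨W, hW⟩ : ∃ W : ↥K⟮x⟯, W = ∏ Q ∈ A,
      (AdjoinSimple.gen K x - algebraMap K ↥K⟮x⟯ (α Q)) ^ n := ⟨_, rfl⟩
  have hN0 : Algebra.norm ↥K⟮x⟯ ht ≠ 0 := Algebra.norm_ne_zero_iff.mpr ht0
  have hprod0 : (∏ i ∈ S, (AdjoinSimple.gen K x - algebraMap K ↥K⟮x⟯ (β i)) ^ mult i) ≠ 0 :=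
    Finset.prod_ne_zero_iff.mpr fun i _ => pow_ne_zero _ (hgne _)
  have hU0 : U ≠ 0 := by rw [hU]; exact mul_ne_zero hprod0 hN0
  have hW0 : W ≠ 0 := by
    rw [hW]
    exact Finset.prod_ne_zero_iff.mpr fun Q _ => pow_ne_zero _ (hgne _)
  have hord : ∀ v : Place K ↥K⟮x⟯, 0 ≤ v.ord (AdjoinSimple.gen K x) → v.ord (U / W) = 0 := by
    intro v hv
    obtain ⟨a, ha, T, hT, hnorm⟩ := norm_on_fibre hP hx v hv
    have h1 : v.ord U = ∑ Q ∈ T, (n : ℤ) * ptsDiv A Q := by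
      rw [hU, v.ord_mul hprod0 hN0, hnorm ht ht0,
        Fermat.Agent.RED.H17.ord_prod v _ _ fun i _ => pow_ne_zero _ (hgne _)]
      have h2 : ∀ i ∈ S, v.ord ((AdjoinSimple.gen K x - algebraMap K ↥K⟮x⟯ (β i)) ^ mult i)
          = if β i = a then (mult i : ℤ) else 0 := by
        intro i _
        rw [Fermat.Agent.RED.H17.ord_pow, ha]
        split_ifs
        · rw [mul_one]
        · rw [mul_zero]
      rw [Finset.sum_congr rfl h2, hS a T hT, ← Finset.sum_add_distrib]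
      refine Finset.sum_congr rfl fun Q _ => ?_
      rw [hdiv Q]
      ring
    have h3 : v.ord W = ∑ Q ∈ T, (n : ℤ) * ptsDiv A Q := by
      rw [hW, Fermat.Agent.RED.H17.ord_prod v _ _ fun Q _ => pow_ne_zero _ (hgne _)]
      have h4 : ∀ Q ∈ A, v.ord ((AdjoinSimple.gen K x - algebraMap K ↥K⟮x⟯ (α Q)) ^ n)
          = if Q ∈ T then (n : ℤ) else 0 := by
        intro Q hQ
        rw [Fermat.Agent.RED.H17.ord_pow, ha]
        have hiff : α Q = a ↔ Q ∈ T := by
          rw [hT]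
          constructor
          · intro h
            rw [← h, hsimple Q hQ]
            exact one_pos
          · intro h
            exact value_unique Q (vanAt_of_ord_pos (by rw [hsimple Q hQ]; exact one_pos))
              (vanAt_of_ord_pos h)
        by_cases hQT : Q ∈ T
        · rw [if_pos (hiff.mpr hQT), if_pos hQT, mul_one]
        · rw [if_neg (fun h => hQT (hiff.mp h)), if_neg hQT, mul_zero]
      rw [Finset.sum_congr rfl h4]
      have h5 : ∀ Q ∈ T, (n : ℤ) * ptsDiv A Q = if Q ∈ A then (n : ℤ) else 0 := by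
        intro Q _
        rw [ptsDiv_apply]
        split_ifs
        · rw [mul_one]
        · rw [mul_zero]
      rw [Finset.sum_congr rfl h5, ← Finset.sum_filter, ← Finset.sum_filter,
        Finset.filter_mem_eq_inter, Finset.filter_mem_eq_inter, Finset.inter_comm]
    rw [Fermat.Agent.RED.H17.ord_div v hU0 hW0, h1, h3, sub_self]
  obtain ⟨ct, hct0, hct⟩ := const_of_ord_finite hx (div_ne_zero hU0 hW0) hord
  refine ⟨ct, hct0, ?_⟩
  have hUW : U = algebraMap K ↥K⟮x⟯ ct * W := by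
    rw [← hct, div_mul_cancel₀ U hW0]
  have := congrArg (algebraMap ↥K⟮x⟯ F) hUW
  rw [hU, hW, map_mul, map_mul, map_prod, map_prod, ← IsScalarTower.algebraMap_apply] at this
  have e1 : ∀ a' : K, algebraMap ↥K⟮x⟯ F (AdjoinSimple.gen K x - algebraMap K ↥K⟮x⟯ a')
      = x - algebraMap K F a' := by
    intro a'
    rw [map_sub, ← IsScalarTower.algebraMap_apply]
    rfl
  simp only [map_pow, e1] at this
  exact this

end Core

section GoodRed

variable {K : Type u} {F : Type v} {k : Type u'} {Ft : Type v'} [Field K] [Field F]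
  [Algebra K F] [Field k] [Field Ft] [Algebra k Ft]

/-- The finite points of `E'`. -/
def sfin (G : GoodRed K F k Ft) (E' : Divisor K F) : Finset (Place K F) :=
  E'.support.filter (fun P => 0 ≤ P.ord G.x)

theorem dfin_eq (G : GoodRed K F k Ft) (n : ℕ) (E' : Divisor K F) (b : Place K F → K) :
    dfin G n E' b = ∏ P ∈ sfin G E',
      (G.x - algebraMap K F (b P)) ^ (n * (E' P).toNat) := rfl

/-- **RESID**: the residual norm equation `rd (dfin) · N(ht) = c · ∏_{Q ∈ A} (xt - α_Q)^n`,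
together with the shape of `rd (dfin)`. -/
theorem resid [IsAlgClosed K] [IsAlgClosed k] (G : GoodRed K F k Ft) (H : FFHyp K F)
    (H' : FFHyp k Ft) {g n : ℕ} {E : Divisor k Ft}
    (Gd : GenericData k Ft (G.S.rd G.x) g n E) {N : ℕ} (Ld : LatticeData G n Gd.Et' N) :
    ∃ (ct : k) (β : Place K F → k), ct ≠ 0 ∧
      (∀ P ∈ sfin G Ld.E', algebraMap K F (Ld.b P) ∈ G.S.V ∧
        G.S.rd (algebraMap K F (Ld.b P)) = algebraMap k Ft (β P)) ∧
      dfin G n Ld.E' Ld.b ∈ G.S.V ∧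
      G.S.rd (dfin G n Ld.E' Ld.b) = ∏ P ∈ sfin G Ld.E',
        (G.S.rd G.x - algebraMap k Ft (β P)) ^ (n * (Ld.E' P).toNat) ∧
      G.S.rd (dfin G n Ld.E' Ld.b)
          * algebraMap ↥k⟮G.S.rd G.x⟯ Ft (Algebra.norm ↥k⟮G.S.rd G.x⟯ Gd.ht)
        = algebraMap k Ft ct * ∏ Q ∈ Gd.A, (G.S.rd G.x - algebraMap k Ft (Gd.α Q)) ^ n := by
  classical
  have hP := H.principal
  have hfin' := G.fin'
  have hxtne : ∀ a : k, G.S.rd G.x - algebraMap k Ft a ≠ 0 := by
    intro a h0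
    apply G.transc
    rw [sub_eq_zero.mp h0]
    exact isAlgebraic_algebraMap a
  -- the points of `sfin`
  have hreg : ∀ P ∈ sfin G Ld.E', P ∈ Ld.E'.support ∧ 0 ≤ (G.S.r P).ord (G.S.rd G.x) := by
    intro P hPs
    obtain ⟨h1, h2⟩ := Finset.mem_filter.mp hPs
    refine ⟨h1, ?_⟩
    by_contra hneg
    have := Ld.pole P h1 (not_le.mp hneg)
    omega
  have hbV : ∀ P ∈ sfin G Ld.E', algebraMap K F (Ld.b P) ∈ G.S.V := fun P hPs =>
    Ld.b_int P (hreg P hPs).1 (hreg P hPs).2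
  have hβex : ∀ P : Place K F, ∃ β : k, P ∈ sfin G Ld.E' →
      G.S.rd (algebraMap K F (Ld.b P)) = algebraMap k Ft β := by
    intro P
    by_cases hPs : P ∈ sfin G Ld.E'
    · obtain ⟨β, hβ⟩ := G.S.rd_const_eq (Ld.b P) (hbV P hPs)
      exact ⟨β, fun _ => hβ⟩
    · exact ⟨0, fun h => absurd h hPs⟩
  choose β hβ using hβex
  -- the reduction of `dfin`
  have hfV : ∀ P ∈ sfin G Ld.E',
      (G.x - algebraMap K F (Ld.b P)) ^ (n * (Ld.E' P).toNat) ∈ G.S.V := fun P hPs =>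
    G.S.V.pow_mem (G.S.V.sub_mem G.hx (hbV P hPs)) _
  obtain ⟨hdV, hdrd⟩ := G.S.rd_prod (sfin G Ld.E')
    (fun P => (G.x - algebraMap K F (Ld.b P)) ^ (n * (Ld.E' P).toNat)) hfV
  have hdrd' : G.S.rd (dfin G n Ld.E' Ld.b) = ∏ P ∈ sfin G Ld.E',
      (G.S.rd G.x - algebraMap k Ft (β P)) ^ (n * (Ld.E' P).toNat) := by
    rw [dfin_eq, hdrd]
    refine Finset.prod_congr rfl fun P hPs => ?_
    rw [G.S.rd_pow (G.S.V.sub_mem G.hx (hbV P hPs)), G.S.rd_sub G.hx (hbV P hPs), hβ P hPs]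
  -- the value of `xt` at `r P`
  have hval : ∀ P ∈ sfin G Ld.E', VanAt (G.S.r P) (G.S.rd G.x - algebraMap k Ft (β P)) := by
    intro P hPs
    obtain ⟨hPE, hPr⟩ := hreg P hPs
    have h1 : VanAt P (G.x - algebraMap K F (Ld.b P)) := vanAt_of_ord_pos (Ld.value P hPE hPr)
    have hregx : ∀ P', G.S.r P' = G.S.r P → 0 ≤ P'.ord G.x := fun P' hP' =>
      ord_nonneg_of_ord_nonneg G H H' (by rw [hP']; exact hPr)
    obtain ⟨-, h2⟩ := G.S.const_of_vanAt hP G.hx hregx rfl h1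
    rw [hβ P hPs] at h2
    exact h2
  -- the counting hypothesis
  have hS : ∀ (a : k) (T : Finset (Place k Ft)),
      (∀ Q, Q ∈ T ↔ 0 < Q.ord (G.S.rd G.x - algebraMap k Ft a)) →
      ∑ P ∈ sfin G Ld.E', (if β P = a then ((n * (Ld.E' P).toNat : ℕ) : ℤ) else 0)
        = ∑ Q ∈ T, (n : ℤ) * Gd.Et' Q := by
    intro a T hT
    have h1 : ∀ Q ∈ T, (n : ℤ) * Gd.Et' Q
        = ∑ P ∈ Ld.E'.support, if G.S.r P = Q then (n : ℤ) * Ld.E' P else 0 := by
      intro Q _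
      have hpush : Gd.Et' Q = Finsupp.mapDomain G.S.r Ld.E' Q := by rw [Ld.push]
      rw [hpush, mapDomain_apply_eq_sum, Finset.mul_sum]
      refine Finset.sum_congr rfl fun P _ => ?_
      split_ifs
      · rfl
      · rw [mul_zero]
    rw [Finset.sum_congr rfl h1, Finset.sum_comm]
    unfold sfin
    rw [Finset.sum_filter]
    refine Finset.sum_congr rfl fun P hPE => ?_
    have h2 : ∑ Q ∈ T, (if G.S.r P = Q then (n : ℤ) * Ld.E' P else 0)
        = if G.S.r P ∈ T then (n : ℤ) * Ld.E' P else 0 := by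
      rw [Finset.sum_ite_eq T (G.S.r P)]
    rw [h2]
    have hcast : ((n * (Ld.E' P).toNat : ℕ) : ℤ) = (n : ℤ) * Ld.E' P := by
      push_cast
      rw [Int.toNat_of_nonneg (Ld.eff P)]
    by_cases hPx : 0 ≤ P.ord G.x
    · have hPs : P ∈ sfin G Ld.E' := Finset.mem_filter.mpr ⟨hPE, hPx⟩
      rw [if_pos hPx]
      by_cases hβa : β P = a
      · rw [if_pos hβa, hcast, if_pos]
        rw [hT, ← hβa]
        exact (hval P hPs).ord_pos (hxtne _)
      · rw [if_neg hβa, if_neg]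
        intro hPT
        exact hβa (value_unique (G.S.r P) (hval P hPs) (vanAt_of_ord_pos ((hT _).mp hPT)))
    · rw [if_neg hPx, if_neg]
      intro hPT
      apply hPx
      exact ord_nonneg_of_ord_nonneg G H H' (xt_ord_nonneg G ((hT _).mp hPT))
  obtain ⟨ct, hct0, hct⟩ := resid_core H' G.transc n Gd.A Gd.α Gd.simple Gd.Et' Gd.ht Gd.ht_ne
    Gd.div_ht (sfin G Ld.E') β (fun P => n * (Ld.E' P).toNat) hS
  refine ⟨ct, β, hct0, fun P hPs => ⟨hbV P hPs, hβ P hPs⟩, ?_, hdrd', ?_⟩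
  · rw [dfin_eq]
    exact hdV
  · rw [hdrd']
    exact hct

end GoodRed

end Fermat.Agent.S27.Char0.Lift.H45
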