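import Fermat.Agent.S27.Char0.Lift.Defs

/-!
# S27 LIFT, leaf SOLVE (helper68): sub-leaves

`Stmt_Solve` is proved in `H68_Solve.lean` from the pure algebra of
`Fermat/Agent/S27/Lift/H68_*.lean` (multivariate Hensel `solveAlg`, Jacobi's formula, the
interpolation lemma), the Gauss-valuation toolkit `S27/REDu` and the following sub-leaves.

* **POLY-CRIT** (`Stmt_PolyCrit`, on `F / K` only): an element of `K(x)` without poles at the
  finite places of `F`, with `ord_P y ≥ M ord_P x` at the poles of `x`, is a polynomial of degree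
  `≤ M` in `x`.
* **NORM-ORD** (`Stmt_NormOrd`, on `F / K` only): the orders of `Dfin(x) · N_{F/K(x)}(h)` for
  `h ∈ L(n E')`.
* **RESID-ORD** (`Stmt_ResidOrd`): `Dfin(x)` is a Gauss unit and
  `rd(Dfin)(xt) · N_{Ft/k(xt)}(ht)` vanishes to order `≥ n` at the points of `A`.
* **ORD-ROOT** (`Stmt_OrdRoot`, on `Ft / k` only): the order of a polynomial in `xt` at a simple
  zero of `xt - α` bounds the multiplicity of the root `α`.
* **JAC-CONST** (`Stmt_JacConst`, on `Ft / k` only, from TRACEPOLE): if `dh ∈ L(n Et')` and the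
  trace of `dh / ht` has at most simple poles at the points of `A`, then `dh` is a constant
  multiple of `ht`.
This file contains no unproved statement.
-/

set_option autoImplicit false

noncomputable section

open AlgebraicCurve IntermediateField

namespace Fermat.Agent.S27.Char0.Lift.Solve

open Fermat.Agent.RED.H17 Fermat.Agent.S27.Char0 Fermat.Agent.S27.Char0.Lift

attribute [local instance] Classical.propDecidable

local notation "L" => riemannRochSpace

universe u v u' v'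

section Setting

variable {K : Type u} {F : Type v} [Field K] [Field F] [Algebra K F]

/-- The polynomial `Dfin(x)` (as an element of `F`), without reference to the reduction. -/
def dfinX (x : F) (n : ℕ) (E' : Divisor K F) (b : Place K F → K) : F :=
  ∏ P ∈ E'.support.filter (fun P => 0 ≤ P.ord x),
    (x - algebraMap K F (b P)) ^ (n * (E' P).toNat)

theorem dfin_eq_dfinX {k : Type u'} {Ft : Type v'} [Field k] [Field Ft] [Algebra k Ft]
    (G : GoodRed K F k Ft) (n : ℕ) (E' : Divisor K F) (b : Place K F → K) :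
    dfin G n E' b = dfinX G.x n E' b := rfl

end Setting

/-- **POLY-CRIT**. -/
def Stmt_PolyCrit : Prop :=
  ∀ (K : Type u) (F : Type v) [Field K] [Field F] [Algebra K F] [IsAlgClosed K],
    FFHyp K F → ∀ x : F, Transcendental K x → Module.Finite K⟮x⟯ F →
    ∀ (y : F) (M : ℕ), y ∈ K⟮x⟯ →
      (∀ P : Place K F, 0 ≤ P.ord x → 0 ≤ P.ord y) →
      (∀ P : Place K F, P.ord x < 0 → (M : ℤ) * P.ord x ≤ P.ord y) →
      ∃ p : Polynomial K, p.natDegree ≤ M ∧ y = Polynomial.aeval x p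

/-- **NORM-ORD**. -/
def Stmt_NormOrd : Prop :=
  ∀ (K : Type u) (F : Type v) [Field K] [Field F] [Algebra K F] [IsAlgClosed K],
    FFHyp K F → ∀ x : F, Transcendental K x → Module.Finite K⟮x⟯ F →
    ∀ (n : ℕ) (E' : Divisor K F) (b : Place K F → K), (∀ P, 0 ≤ E' P) →
      (∀ P ∈ E'.support, 0 ≤ P.ord x → 0 < P.ord (x - algebraMap K F (b P))) →
      ∀ h ∈ L ((n : ℤ) • E'),
        (∀ P : Place K F, 0 ≤ P.ord x →
          0 ≤ P.ord (dfinX x n E' b * algebraMap K⟮x⟯ F (Algebra.norm K⟮x⟯ h))) ∧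
        (∀ P : Place K F, P.ord x < 0 →
          ((n : ℤ) * Divisor.degree E') * P.ord x ≤
            P.ord (dfinX x n E' b * algebraMap K⟮x⟯ F (Algebra.norm K⟮x⟯ h)))

/-- **RESID-ORD**. -/
def Stmt_ResidOrd : Prop :=
  ∀ (K : Type u) (F : Type v) (k : Type u') (Ft : Type v') [Field K] [Field F] [Algebra K F]
    [Field k] [Field Ft] [Algebra k Ft] [IsAlgClosed K] [IsAlgClosed k]
    (G : GoodRed K F k Ft), FFHyp K F → FFHyp k Ft →
    ∀ (g n : ℕ) (E : Divisor k Ft) (Gd : GenericData k Ft (G.S.rd G.x) g n E)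
      (N : ℕ) (Ld : LatticeData G n Gd.Et' N),
      G.S.IsGU (dfin G n Ld.E' Ld.b) ∧
      ∀ Q ∈ Gd.A, (n : ℤ) ≤ Q.ord (G.S.rd (dfin G n Ld.E' Ld.b) *
        algebraMap k⟮G.S.rd G.x⟯ Ft (Algebra.norm k⟮G.S.rd G.x⟯ Gd.ht))

/-- **ORD-ROOT**. -/
def Stmt_OrdRoot : Prop :=
  ∀ (k : Type u') (Ft : Type v') [Field k] [Field Ft] [Algebra k Ft] (xt : Ft),
    Transcendental k xt → ∀ (Q : Place k Ft) (α : k), Q.ord (xt - algebraMap k Ft α) = 1 →
    ∀ (p : Polynomial k) (m : ℕ), p ≠ 0 → (m : ℤ) ≤ Q.ord (Polynomial.aeval xt p) →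
      (Polynomial.X - Polynomial.C α) ^ m ∣ p

/-- **JAC-CONST**. -/
def Stmt_JacConst : Prop :=
  ∀ (k : Type u') (Ft : Type v') [Field k] [Field Ft] [Algebra k Ft] [IsAlgClosed k],
    FFHyp k Ft → ∀ xt : Ft, Transcendental k xt → Module.Finite k⟮xt⟯ Ft →
    Algebra.IsSeparable k⟮xt⟯ Ft →
    ∀ (g n : ℕ) (E : Divisor k Ft) (Gd : GenericData k Ft xt g n E) (dh : Ft),
      dh ∈ L ((n : ℤ) • Gd.Et') →
      (∀ Q ∈ Gd.A, -1 ≤ Q.ord (algebraMap k⟮xt⟯ Ft (Algebra.trace k⟮xt⟯ Ft (dh * Gd.ht⁻¹)))) →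
      ∃ γ : k, dh = algebraMap k Ft γ * Gd.ht

end Fermat.Agent.S27.Char0.Lift.Solve
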