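import Fermat.Agent.S27.Char0.Lift.H45_Resid
import Fermat.Agent.S27.Char0.Lift.H68_SolveDefs

/-!
# S27 LIFT / SOLVE, leaf RESID-ORD (helper45)

`stmt_ResidOrd : Solve.Stmt_ResidOrd`, from the exact residual identity `H45.resid`.
-/

set_option autoImplicit false

noncomputable section

open AlgebraicCurve IntermediateField

namespace Fermat.Agent.S27.Char0.Lift.H45

open Fermat.Agent.RED.H17 Fermat.Agent.S27.Char0

attribute [local instance] Classical.propDecidable

universe u v u' v'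

theorem stmt_ResidOrd : Solve.Stmt_ResidOrd.{u, v, u', v'} := by
  intro K F k Ft _ _ _ _ _ _ _ _ G H H' g n E Gd N Ld
  obtain ⟨ct, β, hct0, -, hdV, hdrd, hres⟩ := resid G H H' Gd Ld
  have hxtne : ∀ a : k, G.S.rd G.x - algebraMap k Ft a ≠ 0 := by
    intro a h0
    apply G.transc
    rw [sub_eq_zero.mp h0]
    exact isAlgebraic_algebraMap a
  refine ⟨⟨hdV, ?_⟩, fun Q hQ => ?_⟩
  · rw [hdrd]
    exact Finset.prod_ne_zero_iff.mpr fun P _ => pow_ne_zero _ (hxtne _)
  · rw [hres, ord_algebraMap_mul Q hct0,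
      Fermat.Agent.RED.H17.ord_prod Q _ _ fun Q' _ => pow_ne_zero _ (hxtne _)]
    have hQreg : 0 ≤ Q.ord (G.S.rd G.x) := by
      have h1 : RegAt Q (G.S.rd G.x - algebraMap k Ft (Gd.α Q)) :=
        regAt_of_ord_nonneg (by rw [Gd.simple Q hQ]; exact zero_le_one)
      have h2 := h1.add (regAt_algebraMap Q (Gd.α Q))
      rw [sub_add_cancel] at h2
      exact h2.ord_nonneg
    have hnn : ∀ Q' ∈ Gd.A, 0 ≤ Q.ord ((G.S.rd G.x - algebraMap k Ft (Gd.α Q')) ^ n) := by
      intro Q' _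
      rw [Fermat.Agent.RED.H17.ord_pow]
      have h3 : 0 ≤ Q.ord (G.S.rd G.x - algebraMap k Ft (Gd.α Q')) :=
        ((regAt_of_ord_nonneg hQreg).sub (regAt_algebraMap Q _)).ord_nonneg
      positivity
    have h4 := Finset.single_le_sum hnn hQ
    rw [Fermat.Agent.RED.H17.ord_pow, Gd.simple Q hQ, mul_one] at h4
    exact h4

end Fermat.Agent.S27.Char0.Lift.H45
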