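import Fermat.Agent.S27.Char0.Lift.H45_Rat
import Fermat.Agent.S27.Lift.H68_Interp

/-!
# S27 LIFT, leaf TRACEPOLE (helper45): the pole of a trace, via values of norms

`stmt_TracePole : Stmt_TracePole`.

`B = k(xt)`, `v₀ = Q|_B`, `π = xt - α` (a uniformizer at `v₀` and at `Q`).  Put `u := w π^m`:
`u` has the value `u₀ ≠ 0` at `Q` and the value `0` at the other places over `v₀`.  For `c ∈ k`
the local norm formula for values (helper51's `norm_value_fiber`) gives
`N(1 + c u) ≡ 1 + c u₀ mod 𝔪_{v₀}`; as `N(1 + c u) = P(c)` for a polynomial `P` over `B` with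
`coeff P 1 = Tr u`, interpolation (helper68) gives `Tr u ≡ u₀ mod 𝔪_{v₀}`.  Hence
`ord_{v₀} Tr u = 0` and `ord_{v₀} Tr w = ord_{v₀} (π^{-m} Tr u) = -m`.
-/

set_option autoImplicit false

noncomputable section

open AlgebraicCurve IntermediateField Polynomial

namespace Fermat.Agent.S27.Char0.Lift.H45

open Fermat.Agent.RED.H17 Fermat.Agent.RED.H51 Fermat.Agent.S24 Fermat.Agent.S27.Char0

attribute [local instance] Classical.propDecidable

universe u v u' v'

theorem eval_charpolyRev_gen {R : Type u} [CommRing R] {n : Type v} [DecidableEq n] [Fintype n]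
    (M : Matrix n n R) (c : R) : eval c M.charpolyRev = Matrix.det (1 - c • M) := by
  rw [Matrix.charpolyRev, ← coe_evalRingHom, RingHom.map_det]
  congr 1
  ext i j
  rcases eq_or_ne i j with hij | hij <;> simp [hij] <;> exact mul_comm _ _

/-- `N(1 + c u) = P(c)` with `coeff P 1 = Tr u` and `coeff P 0 = 1`. -/
theorem exists_norm_poly {B : Type u} {L : Type v} [Field B] [Field L] [Algebra B L]
    [FiniteDimensional B L] (u : L) :
    ∃ P : B[X], (∀ c : B, Algebra.norm B (1 + algebraMap B L c * u) = eval c P) ∧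
      P.coeff 1 = Algebra.trace B L u ∧ P.coeff 0 = 1 := by
  classical
  let b := Module.finBasis B L
  refine ⟨(-(Algebra.leftMulMatrix b u)).charpolyRev, fun c => ?_, ?_, ?_⟩
  · rw [eval_charpolyRev_gen, Algebra.norm_eq_matrix_det b, map_add, map_one, map_mul,
      AlgHom.commutes]
    congr 1
    rw [smul_neg, sub_neg_eq_add, Algebra.algebraMap_eq_smul_one, smul_mul_assoc, one_mul]
  · rw [Matrix.coeff_charpolyRev_eq_neg_trace, Matrix.trace_neg, neg_neg,
      Algebra.trace_eq_matrix_trace b]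
  · rw [coeff_zero_eq_eval_zero, Matrix.eval_charpolyRev]

/-- The functions vanishing at a place, as a submodule. -/
def vanSub {K : Type u} {F : Type v} [Field K] [Field F] [Algebra K F] (v : Place K F) :
    Submodule K F where
  carrier := {z | VanAt v z}
  zero_mem' := vanAt_zero v
  add_mem' := fun ha hb => VanAt.add ha hb
  smul_mem' := fun c z hz => by
    show VanAt v (c • z)
    rw [Algebra.smul_def]
    exact (regAt_algebraMap v c).mul_vanAt hz

theorem ordGe_one_iff_vanAt' {K : Type u} {F : Type v} [Field K] [Field F] [Algebra K F]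
    (v : Place K F) (f : F) : OrdGe v 1 f ↔ VanAt v f := by
  rw [vanAt_iff_ord]
  unfold OrdGe
  constructor
  · rintro (h | h)
    · exact Or.inl h
    · exact Or.inr (by omega)
  · rintro (h | h)
    · exact Or.inl h
    · exact Or.inr (by omega)

theorem stmt_TracePole : Stmt_TracePole.{u', v'} := by
  intro k Ft _ _ _ _ H' xt hxt hfin hsep w α Q m hm hQ1 hQw hreg
  classical
  have hP := H'.principal
  have hinf : Infinite k := IsAlgClosed.instInfinite
  have hgtr := gen_transc hxt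
  have hfinE := finite_gen (K := k) xt
  have hzE : H59.ZerosStmt k ↥k⟮xt⟯ := zerosStmt_u hgtr
  have hzF : H59.ZerosStmt k Ft := zerosStmt_u hxt
  have hxne : xt - algebraMap k Ft α ≠ 0 := by
    intro h0
    apply hxt
    rw [sub_eq_zero.mp h0]
    exact isAlgebraic_algebraMap α
  have hw0 : w ≠ 0 := by
    rintro rfl
    rw [Place.ord_zero] at hQw
    omega
  -- the place `v₀` and the uniformizer
  obtain ⟨y, hy⟩ : ∃ y : ↥k⟮xt⟯, y = AdjoinSimple.gen k xt - algebraMap k ↥k⟮xt⟯ α := ⟨_, rfl⟩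
  have hyx : algebraMap ↥k⟮xt⟯ Ft y = xt - algebraMap k Ft α := by
    rw [hy, map_sub, ← IsScalarTower.algebraMap_apply]
    rfl
  have hy0 : y ≠ 0 := by
    intro h0
    rw [h0, map_zero] at hyx
    exact hxne hyx.symm
  obtain ⟨v₀, hv₀⟩ : ∃ v : Place k ↥k⟮xt⟯, v = Q.restrict ↥k⟮xt⟯ := ⟨_, rfl⟩
  have hposy : 0 < v₀.ord y := by
    have h1 := Q.ord_restrict y
    rw [hyx, ← hv₀, hQ1] at h1
    have hepos := Q.ramificationIndex_pos (F := ↥k⟮xt⟯)
    by_contra hneg
    rw [not_lt] at hneg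
    have : (Q.ramificationIndex ↥k⟮xt⟯ : ℤ) * v₀.ord y ≤ 0 :=
      mul_nonpos_of_nonneg_of_nonpos (by omega) hneg
    omega
  have hgnn : 0 ≤ v₀.ord (AdjoinSimple.gen k xt) := by
    have h1 : RegAt v₀ y := regAt_of_ord_nonneg hposy.le
    have h2 := h1.add (regAt_algebraMap v₀ α)
    rw [hy, sub_add_cancel] at h2
    exact h2.ord_nonneg
  obtain ⟨a, ha, T, hT, -⟩ := norm_on_fibre hP hxt v₀ hgnn
  have haα : α = a := by
    by_contra hne
    have := ha α
    rw [if_neg hne, ← hy] at this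
    omega
  have hv₀y : v₀.ord y = 1 := by
    have := ha α
    rw [if_pos haα, ← hy] at this
    exact this
  have heQ : (Q.ramificationIndex ↥k⟮xt⟯ : ℤ) = 1 := by
    have h1 := Q.ord_restrict y
    rw [hyx, ← hv₀, hQ1, hv₀y, mul_one] at h1
    exact h1.symm
  have hordQ : ∀ z : ↥k⟮xt⟯, Q.ord (algebraMap ↥k⟮xt⟯ Ft z) = v₀.ord z := by
    intro z
    rw [Q.ord_restrict z, ← hv₀, heQ, one_mul]
  -- the function `u`
  obtain ⟨u, hu⟩ : ∃ u : Ft, u = w * (xt - algebraMap k Ft α) ^ m := ⟨_, rfl⟩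
  have hpow0 : (xt - algebraMap k Ft α) ^ m ≠ 0 := pow_ne_zero _ hxne
  have hu0 : u ≠ 0 := by rw [hu]; exact mul_ne_zero hw0 hpow0
  have hordu : ∀ P : Place k Ft, P.ord u = P.ord w + m * P.ord (xt - algebraMap k Ft α) := by
    intro P
    rw [hu, P.ord_mul hw0 hpow0, Fermat.Agent.RED.H17.ord_pow]
  have huQ : Q.ord u = 0 := by
    rw [hordu, hQw, hQ1]
    ring
  obtain ⟨u₀, hu₀⟩ := exists_value Q (H'.deg_one Q) (regAt_of_ord_nonneg huQ.ge)
  have hu₀0 : u₀ ≠ 0 := by
    rintro rfl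
    rw [map_zero, sub_zero] at hu₀
    have := hu₀.ord_pos hu0
    omega
  have huP : ∀ P : Place k Ft, P.restrict ↥k⟮xt⟯ = v₀ → P ≠ Q → VanAt P u := by
    intro P hPv hPQ
    have h1 : 0 < P.ord (xt - algebraMap k Ft α) := by
      rw [← hyx, P.ord_restrict y, hPv, hv₀y, mul_one]
      have := P.ramificationIndex_pos (F := ↥k⟮xt⟯)
      omega
    have h2 := hreg P hPQ h1
    apply vanAt_of_ord_pos
    rw [hordu]
    have h3 : (1 : ℤ) ≤ m := by exact_mod_cast hm
    nlinarith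
  -- the norms of `1 + c u`
  have hnormval : ∀ c : k, VanAt v₀ (Algebra.norm ↥k⟮xt⟯ (1 + algebraMap k Ft c * u)
      - algebraMap k ↥k⟮xt⟯ (1 + c * u₀)) := by
    intro c
    have hc : ∀ P : Place k Ft, P.restrict ↥k⟮xt⟯ = v₀ →
        OrdGe P 1 ((1 + algebraMap k Ft c * u)
          - algebraMap k Ft (if P = Q then 1 + c * u₀ else 1)) := by
      intro P hPv
      rw [ordGe_one_iff_vanAt']
      by_cases hPQ : P = Q
      · rw [if_pos hPQ, hPQ]
        have h1 : (1 + algebraMap k Ft c * u) - algebraMap k Ft (1 + c * u₀)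
            = algebraMap k Ft c * (u - algebraMap k Ft u₀) := by
          rw [map_add, map_one, map_mul]
          ring
        rw [h1]
        exact (regAt_algebraMap Q c).mul_vanAt hu₀
      · rw [if_neg hPQ]
        have h1 : (1 + algebraMap k Ft c * u) - algebraMap k Ft 1 = algebraMap k Ft c * u := by
          rw [map_one]
          ring
        rw [h1]
        exact (regAt_algebraMap P c).mul_vanAt (huP P hPv hPQ)
    have := hP
    have h2 := norm_value_fiber hzE hzF hgtr hxt v₀ (1 + algebraMap k Ft c * u)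
      (fun P => if P = Q then 1 + c * u₀ else 1) hc
    have hQf : Q ∈ v₀.fiber Ft := Place.mem_fiber.mpr hv₀.symm
    have heQ' : Q.ramificationIndex ↥k⟮xt⟯ = 1 := by exact_mod_cast heQ
    have h3 : ∏ P ∈ v₀.fiber Ft, (if P = Q then 1 + c * u₀ else 1)
        ^ P.ramificationIndex ↥k⟮xt⟯ = 1 + c * u₀ := by
      rw [Finset.prod_eq_single_of_mem Q hQf, if_pos rfl, heQ', pow_one]
      intro P _ hPQ
      rw [if_neg hPQ, one_pow]
    rw [h3, ordGe_one_iff_vanAt'] at h2
    exact h2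
  -- interpolation
  obtain ⟨Pn, hPn, hPn1, -⟩ := exists_norm_poly (B := ↥k⟮xt⟯) u
  obtain ⟨D, hD⟩ : ∃ D : (↥k⟮xt⟯)[X],
      D = Pn - (1 + C (algebraMap k ↥k⟮xt⟯ u₀) * X) := ⟨_, rfl⟩
  have hDeval : ∀ c : k, D.eval (algebraMap k ↥k⟮xt⟯ c) ∈ vanSub v₀ := by
    intro c
    show VanAt v₀ _
    have h1 := hnormval c
    rw [IsScalarTower.algebraMap_apply k ↥k⟮xt⟯ Ft c, hPn] at h1
    have h2 : D.eval (algebraMap k ↥k⟮xt⟯ c)
        = eval (algebraMap k ↥k⟮xt⟯ c) Pn - algebraMap k ↥k⟮xt⟯ (1 + c * u₀) := by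
      rw [hD, eval_sub, eval_add, eval_one, eval_mul, eval_C, eval_X, map_add, map_one, map_mul]
      ring
    rw [h2]
    exact h1
  have hinfres : Infinite (IsLocalRing.ResidueField k) :=
    Infinite.of_injective (IsLocalRing.residue k) (IsLocalRing.residue k).injective
  have hcoeff := Fermat.Agent.S27.Lift.H68.polynomial_coeff_mem_of_eval_mem (O := k)
    (vanSub v₀) D hDeval 1
  have hcoeff' : VanAt v₀ (Algebra.trace ↥k⟮xt⟯ Ft u - algebraMap k ↥k⟮xt⟯ u₀) := by
    have h1 : D.coeff 1 = Algebra.trace ↥k⟮xt⟯ Ft u - algebraMap k ↥k⟮xt⟯ u₀ := by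
      rw [hD, coeff_sub, coeff_add, coeff_one, hPn1, coeff_C_mul, coeff_X_one]
      simp
    rw [← h1]
    exact hcoeff
  -- the order of the trace of `u`
  have htru : v₀.ord (Algebra.trace ↥k⟮xt⟯ Ft u) = 0 := by
    have h1 : Algebra.trace ↥k⟮xt⟯ Ft u = algebraMap k ↥k⟮xt⟯ u₀
        + (Algebra.trace ↥k⟮xt⟯ Ft u - algebraMap k ↥k⟮xt⟯ u₀) := by ring
    rw [h1, ord_add_of_lt v₀ ((_root_.map_ne_zero _).mpr hu₀0),
      Fermat.Agent.RED.H17.ord_algebraMap]
    rw [Fermat.Agent.RED.H17.ord_algebraMap]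
    rcases (vanAt_iff_ord v₀ _).mp hcoeff' with h | h
    · exact Or.inl h
    · exact Or.inr h
  -- the trace of `w`
  have hwu : w = (y ^ m)⁻¹ • u := by
    rw [Algebra.smul_def, map_inv₀, map_pow, hyx, hu, mul_comm w, ← mul_assoc,
      inv_mul_cancel₀ hpow0, one_mul]
  have htrw : Algebra.trace ↥k⟮xt⟯ Ft w = (y ^ m)⁻¹ * Algebra.trace ↥k⟮xt⟯ Ft u := by
    rw [hwu, map_smul, smul_eq_mul]
  have htru0 : Algebra.trace ↥k⟮xt⟯ Ft u ≠ 0 := by
    intro h0
    rw [h0, sub_eq_neg_add, add_zero] at hcoeff'  -- VanAt v₀ (-u₀)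
    have h2 := hcoeff'.neg
    rw [neg_neg] at h2
    exact not_vanAt_algebraMap v₀ hu₀0 h2
  rw [hordQ, htrw, v₀.ord_mul (inv_ne_zero (pow_ne_zero _ hy0)) htru0, htru, Place.ord_inv,
    Fermat.Agent.RED.H17.ord_pow, hv₀y]
  ring

end Fermat.Agent.S27.Char0.Lift.H45
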