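import Fermat.Agent.S27.Char0.Lift.Defs
import Fermat.Agent.S27.REDu.H10_ConsNorm
import Fermat.Agent.S27.REDu.H34_Int

/-!
# S27 LIFT / SOLVE (helper68): from helper17's `RedSetup` to helper34's `RedSetting`

`settingOfSetup S : REDu.H34.RedSetting K F k Ft` with the same valuation ring and the same
reduction map; the residue map on constants is chosen with `red_const`.  This gives access to the
(universe polymorphic) Gauss toolkit of `S27/REDu` (`exists_ortho_basis`, `mulMat`, `norm_red`,
`aeval_mem_V_iff`, ...).
-/

set_option autoImplicit false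
set_option linter.style.haveILetI false

noncomputable section

open AlgebraicCurve IntermediateField

namespace Fermat.Agent.S27.Char0.Lift.H68

open Fermat.Agent.RED.H17 Fermat.Agent.S27.Char0 Fermat.Agent.S27.REDu.H34

universe u v u' v'

variable {K : Type u} {F : Type v} {k : Type u'} {Ft : Type v'} [Field K] [Field F]
  [Algebra K F] [Field k] [Field Ft] [Algebra k Ft] (S : RedSetup K F k Ft)

/-- the residue of an integral constant -/
def resFun (a : ↥(S.V.comap (algebraMap K F))) : k :=
  Classical.choose (S.red_const (a : K) a.2)

theorem resFun_spec (a : ↥(S.V.comap (algebraMap K F))) :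
    S.red ⟨algebraMap K F (a : K), a.2⟩ = algebraMap k Ft (resFun S a) :=
  Classical.choose_spec (S.red_const (a : K) a.2)

/-- the residue map on constants -/
def resHom : ↥(S.V.comap (algebraMap K F)) →+* k where
  toFun := resFun S
  map_one' := by
    apply (algebraMap k Ft).injective
    rw [← resFun_spec, map_one]
    have : (⟨algebraMap K F ((1 : ↥(S.V.comap (algebraMap K F))) : K), (1 : ↥(S.V.comap
        (algebraMap K F))).2⟩ : ↥S.V) = 1 := by
      apply Subtype.ext
      simp
    rw [this, map_one]
  map_mul' a b := by
    apply (algebraMap k Ft).injective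
    rw [map_mul, ← resFun_spec, ← resFun_spec, ← resFun_spec, ← map_mul]
    congr 1
    apply Subtype.ext
    simp
  map_zero' := by
    apply (algebraMap k Ft).injective
    rw [← resFun_spec, map_zero]
    have : (⟨algebraMap K F ((0 : ↥(S.V.comap (algebraMap K F))) : K), (0 : ↥(S.V.comap
        (algebraMap K F))).2⟩ : ↥S.V) = 0 := by
      apply Subtype.ext
      simp
    rw [this, map_zero]
  map_add' a b := by
    apply (algebraMap k Ft).injective
    rw [map_add, ← resFun_spec, ← resFun_spec, ← resFun_spec, ← map_add]
    congr 1
    apply Subtype.ext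
    simp

/-- helper34's reduction setting attached to helper17's reduction data. -/
def settingOfSetup : RedSetting K F k Ft where
  V := S.V
  red := S.red
  red_surj := S.red_surj
  resO := resHom S
  resO_surj := fun c' => by
    obtain ⟨c, h, hc⟩ := S.const_surj c'
    refine ⟨⟨c, h⟩, ?_⟩
    apply (algebraMap k Ft).injective
    rw [← hc]
    exact (resFun_spec S ⟨c, h⟩).symm
  red_algebraMap := fun a => resFun_spec S a
  scale := fun f hf => by
    obtain ⟨c, hc, h, hr⟩ := S.exists_scale f hf
    have hu : IsUnit (⟨algebraMap K F c * f, h⟩ : ↥S.V) := by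
      by_contra hnu
      exact hr ((S.red_eq_zero_iff _).mpr ((IsLocalRing.mem_maximalIdeal _).mpr hnu))
    refine ⟨c⁻¹, inv_ne_zero hc, hu.unit, ?_⟩
    rw [IsUnit.unit_spec, ← mul_assoc, ← map_mul, inv_mul_cancel₀ hc, map_one, one_mul]

@[simp] theorem settingOfSetup_V : (settingOfSetup S).V = S.V := rfl

@[simp] theorem settingOfSetup_red : (settingOfSetup S).red = S.red := rfl

theorem settingOfSetup_resO (a : ↥(S.V.comap (algebraMap K F))) :
    algebraMap k Ft ((settingOfSetup S).resO a) = S.rd (algebraMap K F (a : K)) := by
  rw [S.rd_of_mem a.2]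
  exact (resFun_spec S a).symm

end Fermat.Agent.S27.Char0.Lift.H68
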