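import Fermat.Agent.S27.Char0.Lift.H68_Bridge
import Fermat.Agent.S27.Lift.H68_Interp
import Fermat.Agent.S27.Lift.H68_Jacobi

/-!
# S27 LIFT / SOLVE (helper68): the norm system with integral coefficients (NORM-SYS)

`normSys`: in a reduction setting with chart `x`, let `D ∈ K(x) ∩ V` and `f_1 .. f_N ∈ V` be such
that `D · N_{F/K(x)}(∑ t_j f_j)` is a polynomial of degree `≤ M` in `x` for all `t ∈ O^N`.  Then
there are `Φ_0 .. Φ_M ∈ O[t_1 .. t_N]` with `D · N(∑ t_j f_j) = ∑_e Φ_e(t) x^e`, whose reductions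
are the coefficients of `rd D · N_{Ft/k(xt)}(∑ t_j rd f_j)` (as an identity of polynomials in
`t` with coefficients in `Ft`).

Proof: orthonormal basis (`exists_ortho_basis`), the matrices `mulMat` of the `f_j` with entries
in `Vx`, the norm form `det (∑ t_j M_j)`, Gauss (`aeval_mem_V_iff`) and interpolation
(`mvPolynomial_coeff_mem_of_eval_mem`).
-/

set_option autoImplicit false
set_option linter.style.haveILetI false
set_option linter.unusedSectionVars false
set_option linter.unusedSimpArgs false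

noncomputable section

open AlgebraicCurve IntermediateField

namespace Fermat.Agent.S27.Char0.Lift.H68

open Fermat.Agent.S27.REDu.H34 Fermat.Agent.S27.REDu.H34.RedSetting Fermat.Agent.S27.REDu.H10
open Fermat.Agent.S27.Lift.H68 MvPolynomial

universe u v u' v'

variable {K : Type u} {F : Type v} {k : Type u'} {Ft : Type v'} [Field K] [Field F]
  [Algebra K F] [Field k] [Field Ft] [Algebra k Ft]

section general

/-- `f (eval t p) = eval (f ∘ t) (map f p)`. -/
lemma map_eval' {R S : Type*} [CommRing R] [CommRing S] {σ : Type*} (φ : R →+* S) (t : σ → R)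
    (p : MvPolynomial σ R) : φ (eval t p) = eval (fun i => φ (t i)) (map φ p) := by
  rw [MvPolynomial.eval₂_comp, eval_map]
  rfl

/-- evaluation as a sum over a set containing the support -/
lemma eval_eq_sum_of_support_subset {R : Type*} [CommRing R] {σ : Type*} [Fintype σ]
    (p : MvPolynomial σ R) (s : Finset (σ →₀ ℕ)) (hs : p.support ⊆ s) (t : σ → R) :
    eval t p = ∑ m ∈ s, coeff m p * ∏ i, t i ^ m i := by
  rw [MvPolynomial.eval_eq']
  refine Finset.sum_subset hs fun m _ hm => ?_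
  rw [MvPolynomial.notMem_support_iff.mp hm, zero_mul]

end general

section resField

variable (S : RedSetting K F k Ft)

/-- the residue field of `O` is infinite if `k` is -/
lemma infinite_residueField [Infinite k] : Infinite (IsLocalRing.ResidueField ↥S.O) := by
  haveI : IsLocalHom S.resO := by
    constructor
    intro a ha
    by_contra hnu
    have h0 := (S.resO_eq_zero_iff a).mpr hnu
    rw [h0] at ha
    exact not_isUnit_zero ha
  have hsurj : Function.Surjective (IsLocalRing.ResidueField.lift S.resO) := by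
    intro c
    obtain ⟨a, rfl⟩ := S.resO_surj c
    exact ⟨IsLocalRing.residue _ a, IsLocalRing.ResidueField.lift_residue_apply _ _⟩
  exact Infinite.of_surjective _ hsurj

end resField

section normSys

variable (S : RedSetting K F k Ft) {x : F} (hx : x ∈ S.V)

/-- The inclusion `Vx → F`. -/
def iotaF (S : RedSetting K F k Ft) (x : F) : ↥(S.Vx x) →+* F :=
  (algebraMap ↥K⟮x⟯ F).comp (S.Vx x).subtype

/-- constants of `O` in `Vx` -/
def constVx (S : RedSetting K F k Ft) (x : F) : ↥S.O →+* ↥(S.Vx x) where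
  toFun a := ⟨algebraMap K ↥K⟮x⟯ (a : K), a.2⟩
  map_one' := by apply Subtype.ext; simp
  map_mul' a b := by apply Subtype.ext; simp
  map_zero' := by apply Subtype.ext; simp
  map_add' a b := by apply Subtype.ext; simp

lemma iotaF_constVx (a : ↥S.O) : iotaF S x (constVx S x a) = algebraMap K F (a : K) := rfl

lemma redx_constVx (hxt : Transcendental k (S.red ⟨x, hx⟩)) (a : ↥S.O) :
    ((redx hx hxt (constVx S x a) : ↥k⟮S.red ⟨x, hx⟩⟯) : Ft) = algebraMap k Ft (S.resO a) :=
  S.red_algebraMap a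

/-- the submodule of polynomials of degree `≤ M` in `x` with coefficients in `O` -/
def polyW (S : RedSetting K F k Ft) (x : F) (M : ℕ) : Submodule ↥S.O F :=
  Submodule.span ↥S.O (Set.range fun e : Fin (M + 1) => x ^ (e : ℕ))

lemma mem_polyW {M : ℕ} {y : F} : y ∈ polyW S x M ↔
    ∃ c : Fin (M + 1) → ↥S.O, y = ∑ e, algebraMap K F (c e : K) * x ^ (e : ℕ) := by
  rw [polyW, Submodule.mem_span_range_iff_exists_fun]
  constructor
  · rintro ⟨c, rfl⟩
    refine ⟨c, Finset.sum_congr rfl fun e _ => ?_⟩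
    rw [Algebra.smul_def]
    rfl
  · rintro ⟨c, rfl⟩
    refine ⟨c, Finset.sum_congr rfl fun e _ => ?_⟩
    rw [Algebra.smul_def]
    rfl

/-- Gauss: a polynomial of degree `≤ M` in `x` which lies in `V` has coefficients in `O`. -/
lemma aeval_mem_polyW (hxt : Transcendental k (S.red ⟨x, hx⟩)) {M : ℕ} (p : Polynomial K)
    (hp : p.natDegree ≤ M) (hV : Polynomial.aeval x p ∈ S.V) :
    Polynomial.aeval x p ∈ polyW S x M := by
  rw [mem_polyW]
  have hc := (aeval_mem_V_iff hx hxt p).mp hV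
  refine ⟨fun e => ⟨p.coeff e, hc e⟩, ?_⟩
  rw [Polynomial.aeval_eq_sum_range' (Nat.lt_succ_of_le hp), Fin.sum_univ_eq_sum_range
    (fun e => algebraMap K F (p.coeff e) * x ^ e) (M + 1)]
  refine Finset.sum_congr rfl fun e _ => ?_
  rw [Algebra.smul_def]

/-- **NORM-SYS**: the norm system with integral coefficients. -/
theorem normSys [Infinite k] (hxt : Transcendental k (S.red ⟨x, hx⟩))
    [FiniteDimensional ↥K⟮x⟯ F]
    (hdeg : Module.finrank ↥k⟮S.red ⟨x, hx⟩⟯ Ft = Module.finrank ↥K⟮x⟯ F)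
    (D : F) (hDx : D ∈ K⟮x⟯) (hDV : D ∈ S.V) {N M : ℕ} (f : Fin N → F) (hfV : ∀ j, f j ∈ S.V)
    (hpoly : ∀ t : Fin N → ↥S.O, ∃ p : Polynomial K, p.natDegree ≤ M ∧
      D * algebraMap ↥K⟮x⟯ F (Algebra.norm ↥K⟮x⟯ (∑ j, algebraMap K F (t j : K) * f j)) =
        Polynomial.aeval x p) :
    ∃ (Φ : Fin (M + 1) → MvPolynomial (Fin N) ↥S.O)
      (βt : Module.Basis (Fin (Module.finrank ↥K⟮x⟯ F)) ↥k⟮S.red ⟨x, hx⟩⟯ Ft),
      (∀ t : Fin N → ↥S.O,
        D * algebraMap ↥K⟮x⟯ F (Algebra.norm ↥K⟮x⟯ (∑ j, algebraMap K F (t j : K) * f j)) =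
          ∑ e : Fin (M + 1), algebraMap K F ((eval t (Φ e) : ↥S.O) : K) * x ^ (e : ℕ)) ∧
      ∑ e : Fin (M + 1), C (S.red ⟨x, hx⟩ ^ (e : ℕ)) *
          map ((algebraMap k Ft).comp S.resO) (Φ e) =
        C (S.red ⟨D, hDV⟩) * map (algebraMap ↥k⟮S.red ⟨x, hx⟩⟯ Ft)
          (normFormAlg βt fun j => S.red ⟨f j, hfV j⟩) := by
  classical
  haveI := infinite_residueField S
  obtain ⟨βF, hβV, βt, hβt⟩ := exists_ortho_basis hx hxt hdeg
  set Mj : Fin N → Matrix (Fin (Module.finrank ↥K⟮x⟯ F)) (Fin (Module.finrank ↥K⟮x⟯ F))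
      ↥(S.Vx x) := fun j => mulMat hx βF hβV βt hβt hxt (f j) (hfV j) with hMj
  set Dx : ↥(S.Vx x) := ⟨⟨D, hDx⟩, hDV⟩ with hDxdef
  set Ψ : MvPolynomial (Fin N) ↥(S.Vx x) := C Dx * normForm Mj with hΨ
  -- the two images of `Ψ`
  have hΨF : map (S.Vx x).subtype Ψ = C (⟨D, hDx⟩ : ↥K⟮x⟯) * normFormAlg βF f := by
    rw [hΨ, map_mul, map_C, map_normForm, normFormAlg]
    congr 2
    funext j
    exact mulMat_map_subtype hx βF hβV βt hβt hxt (f j) (hfV j)
  have hΨt : map (redx hx hxt) Ψ = C (redx hx hxt Dx) *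
      normFormAlg βt (fun j => S.red ⟨f j, hfV j⟩) := by
    rw [hΨ, map_mul, map_C, map_normForm, normFormAlg]
    congr 2
    funext j
    exact mulMat_map_redx hx βF hβV βt hβt hxt (f j) (hfV j)
  -- values of `Ψ`
  have hval : ∀ t : Fin N → ↥S.O,
      iotaF S x (eval (fun j => constVx S x (t j)) Ψ) =
        D * algebraMap ↥K⟮x⟯ F (Algebra.norm ↥K⟮x⟯ (∑ j, algebraMap K F (t j : K) * f j)) := by
    intro t
    have h1 : iotaF S x (eval (fun j => constVx S x (t j)) Ψ) =
        algebraMap ↥K⟮x⟯ F ((S.Vx x).subtype (eval (fun j => constVx S x (t j)) Ψ)) := rfl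
    rw [h1, map_eval', hΨF, map_mul, eval_C, eval_normFormAlg, map_mul]
    congr 2
  -- coefficients
  have hcoef : ∀ m, iotaF S x (coeff m Ψ) ∈ polyW S x M := by
    intro m
    have h1 := mvPolynomial_coeff_mem_of_eval_mem (O := ↥S.O) (E := F) (polyW S x M)
      (map (iotaF S x) Ψ) (fun t => by
        have h2 : eval (fun i => algebraMap ↥S.O F (t i)) (map (iotaF S x) Ψ) =
            iotaF S x (eval (fun j => constVx S x (t j)) Ψ) := by
          rw [map_eval']
          rfl
        rw [h2]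
        obtain ⟨p, hp, hpe⟩ := hpoly t
        have hV : iotaF S x (eval (fun j => constVx S x (t j)) Ψ) ∈ S.V :=
          (eval (fun j => constVx S x (t j)) Ψ).2
        rw [hval t, hpe] at hV ⊢
        exact aeval_mem_polyW S hx hxt p hp hV) m
    rwa [coeff_map] at h1
  choose c hc using fun m => (mem_polyW S).mp (hcoef m)
  refine ⟨fun e => ∑ m ∈ Ψ.support, monomial m (c m e), βt, fun t => ?_, ?_⟩
  · rw [← hval t]
    have h2 : iotaF S x (eval (fun j => constVx S x (t j)) Ψ) =
        eval (fun i => algebraMap K F (t i : K)) (map (iotaF S x) Ψ) := by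
      rw [map_eval']
      rfl
    rw [h2, eval_eq_sum_of_support_subset _ Ψ.support (support_map_subset _ _)]
    have h3 : ∀ e : Fin (M + 1), algebraMap K F
        ((eval t (∑ m ∈ Ψ.support, monomial m (c m e)) : ↥S.O) : K) =
        ∑ m ∈ Ψ.support, algebraMap K F (c m e : K) * ∏ i, algebraMap K F (t i : K) ^ m i := by
      intro e
      have : algebraMap K F ((eval t (∑ m ∈ Ψ.support, monomial m (c m e)) : ↥S.O) : K) =
          algebraMap ↥S.O F (eval t (∑ m ∈ Ψ.support, monomial m (c m e))) := rfl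
      rw [this, map_sum, map_sum]
      refine Finset.sum_congr rfl fun m _ => ?_
      rw [eval_monomial, map_mul, Finsupp.prod_fintype _ _ (fun i => pow_zero _), map_prod]
      simp only [map_pow]
      rfl
    simp only [coeff_map, hc, h3, Finset.sum_mul]
    rw [Finset.sum_comm]
    refine Finset.sum_congr rfl fun e _ => Finset.sum_congr rfl fun m _ => ?_
    ring
  · have hR : C (S.red ⟨D, hDV⟩) * map (algebraMap ↥k⟮S.red ⟨x, hx⟩⟯ Ft)
        (normFormAlg βt fun j => S.red ⟨f j, hfV j⟩) =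
        map ((algebraMap ↥k⟮S.red ⟨x, hx⟩⟯ Ft).comp (redx hx hxt)) Ψ := by
      rw [← MvPolynomial.map_map, hΨt, map_mul, map_C]
      rfl
    rw [hR]
    ext m'
    rw [coeff_sum, coeff_map]
    have hred : (algebraMap ↥k⟮S.red ⟨x, hx⟩⟯ Ft).comp (redx hx hxt) (coeff m' Ψ) =
        ∑ e : Fin (M + 1), algebraMap k Ft (S.resO (c m' e)) * S.red ⟨x, hx⟩ ^ (e : ℕ) := by
      have h1 : (algebraMap ↥k⟮S.red ⟨x, hx⟩⟯ Ft).comp (redx hx hxt) (coeff m' Ψ) =
          S.red ⟨iotaF S x (coeff m' Ψ), (coeff m' Ψ).2⟩ := rfl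
      have h2 : (⟨iotaF S x (coeff m' Ψ), (coeff m' Ψ).2⟩ : ↥S.V) =
          ∑ e : Fin (M + 1), S.inclO (c m' e) * (⟨x, hx⟩ : ↥S.V) ^ (e : ℕ) := by
        apply Subtype.ext
        show iotaF S x (coeff m' Ψ) =
          ((∑ e : Fin (M + 1), S.inclO (c m' e) * (⟨x, hx⟩ : ↥S.V) ^ (e : ℕ) : ↥S.V) : F)
        rw [hc m']
        simp
      rw [h1, h2, map_sum]
      refine Finset.sum_congr rfl fun e _ => ?_
      rw [map_mul, map_pow, red_inclO]
    by_cases hm : m' ∈ Ψ.support
    · rw [hred]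
      refine Finset.sum_congr rfl fun e _ => ?_
      rw [coeff_C_mul, coeff_map, coeff_sum]
      simp only [coeff_monomial]
      rw [Finset.sum_ite_eq' _ _ _, if_pos hm]
      rw [RingHom.comp_apply]
      ring
    · have h0 : coeff m' Ψ = 0 := MvPolynomial.notMem_support_iff.mp hm
      rw [h0, map_zero]
      refine Finset.sum_eq_zero fun e _ => ?_
      rw [coeff_C_mul, coeff_map, coeff_sum]
      simp only [coeff_monomial]
      rw [Finset.sum_ite_eq' _ _ _, if_neg hm, map_zero, mul_zero]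

end normSys

end Fermat.Agent.S27.Char0.Lift.H68
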