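import Fermat.Agent.S27.Char0.Lift.H68_SolveDefs
import Fermat.Agent.S27.Lift.H68_SolveAlg

/-!
# S27 LIFT, leaf SOLVE (helper68): sub-leaves JAC-ORD and NORM-POLY

**JAC-ORD** (`Stmt_JacOrd`, on `Ft / k` only, polynomial language of `solveAlg`): if
`c~ ∏ (xt - α_i)^n · T = dc ∏ (xt - α_i)^n - c~ n ∑_i da_i (xt - α_i)^(n-1) ∏_{i' ≠ i} (xt - α_i')^n`
and `Q_i` is a simple zero of `xt - α_i`, then `T` has at most a simple pole at `Q_i`.
(`H20.ord_aeval_center`: `ord_Q (aeval xt p) = rootMultiplicity α p` at a simple zero.)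
This file contains no unproved statement.
-/

set_option autoImplicit false

noncomputable section

open AlgebraicCurve IntermediateField

namespace Fermat.Agent.S27.Char0.Lift.Solve

open Fermat.Agent.S27.Lift.H68 Fermat.Agent.RED.H17 Fermat.Agent.S27.Char0
  Fermat.Agent.S27.Char0.Lift

local notation "L" => riemannRochSpace

universe u v u' v'

/-- **JAC-ORD**. -/
def Stmt_JacOrd : Prop :=
  ∀ (k : Type u') (Ft : Type v') [Field k] [Field Ft] [Algebra k Ft] (xt : Ft),
    Transcendental k xt →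
    ∀ (g n : ℕ) (α : Fin g → k) (Qs : Fin g → Place k Ft), Function.Injective α →
      (∀ i, (Qs i).ord (xt - algebraMap k Ft (α i)) = 1) →
      ∀ (ct dc : k) (da : Fin g → k) (T : Ft), ct ≠ 0 →
        Polynomial.aeval xt (Polynomial.C ct * rootProd n α) * T =
          Polynomial.aeval xt (Polynomial.C dc * rootProd n α -
            Polynomial.C (ct * n) * ∑ i, Polynomial.C (da i) * rootProdErase n α i) →
        ∀ i, -1 ≤ (Qs i).ord T

/-- **NORM-POLY** (assembly of NORM-ORD and POLY-CRIT in the setting of SOLVE): `Dfin(x)` lies in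
`K(x)` and `Dfin(x) · N_{F/K(x)}(h)` is a polynomial of degree `≤ n g` in `x` for every
`h ∈ L(n E')`.  To prove: `Stmt_NormOrd → Stmt_NormPoly` (with `H20.stmt_PolyCrit`;
`deg E' = deg Et' = g` by `Ld.push`, `degree_mapDomain`, `Gd.deg`; the hypothesis on `b` from
`Ld.value` and `Ld.pole`). -/
def Stmt_NormPoly : Prop :=
  ∀ (K : Type u) (F : Type v) (k : Type u') (Ft : Type v') [Field K] [Field F] [Algebra K F]
    [Field k] [Field Ft] [Algebra k Ft] [IsAlgClosed K] [IsAlgClosed k]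
    (G : GoodRed K F k Ft), FFHyp K F → FFHyp k Ft →
    ∀ (g n : ℕ) (E : Divisor k Ft) (Gd : GenericData k Ft (G.S.rd G.x) g n E)
      (N : ℕ) (Ld : LatticeData G n Gd.Et' N),
      dfin G n Ld.E' Ld.b ∈ K⟮G.x⟯ ∧
      ∀ h ∈ L ((n : ℤ) • Ld.E'), ∃ p : Polynomial K, p.natDegree ≤ n * g ∧
        dfin G n Ld.E' Ld.b * algebraMap ↥K⟮G.x⟯ F (Algebra.norm ↥K⟮G.x⟯ h) =
          Polynomial.aeval G.x p

end Fermat.Agent.S27.Char0.Lift.Solve
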