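import Fermat.Agent.S27.Lift.H68_Jacobi

/-!
# S27 LIFT, leaf SOLVE (helper68): sub-leaf EVAL-ID (pure algebra)

**EVAL-ID** (`Stmt_EvalID`): values and partial derivatives of the reduced norm system.  From the
identity of polynomials in `t` over `Ft`
`∑_e xt^e · Φ~_e = rD · N(∑ t_j rf_j)` (the conclusion of `H68.normSys`) deduce, for `τ ∈ k^N`,
* `∑_e Φ~_e(τ) xt^e = rD · N(h_τ)`, `h_τ = ∑ τ_j rf_j`;
* `∑_e (∂_j Φ~_e)(τ) xt^e = rD · N(h_τ) · Tr(h_τ⁻¹ rf_j)` if `h_τ` is invertible.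
(`H68.eval_normFormAlg`, `H68.eval_pderiv_normFormAlg`, `MvPolynomial.pderiv_map`,
`MvPolynomial.eval₂_comp`.)
This file contains no unproved statement.
-/

set_option autoImplicit false

noncomputable section

namespace Fermat.Agent.S27.Char0.Lift.Solve

open Fermat.Agent.S27.Lift.H68 MvPolynomial

universe u u' v'

/-- **EVAL-ID**. -/
def Stmt_EvalID : Prop :=
  ∀ (k : Type u') (Ft : Type v') [Field k] [Field Ft] [Algebra k Ft]
    (E : IntermediateField k Ft) (O : Type u) [CommRing O] (res : O →+* k) (N M d : ℕ)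
    (Φ : Fin (M + 1) → MvPolynomial (Fin N) O) (xt rD : Ft)
    (βt : Module.Basis (Fin d) ↥E Ft) (rf : Fin N → Ft),
    ∑ e : Fin (M + 1), C (xt ^ (e : ℕ)) * map ((algebraMap k Ft).comp res) (Φ e) =
      C rD * map (algebraMap ↥E Ft) (normFormAlg βt rf) →
    ∀ τ : Fin N → k,
      (∑ e : Fin (M + 1), algebraMap k Ft (eval τ (map res (Φ e))) * xt ^ (e : ℕ) =
        rD * algebraMap ↥E Ft (Algebra.norm ↥E (∑ j, algebraMap k Ft (τ j) * rf j))) ∧
      ∀ hinv : Ft, (∑ j, algebraMap k Ft (τ j) * rf j) * hinv = 1 → ∀ j : Fin N,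
        ∑ e : Fin (M + 1), algebraMap k Ft (eval τ (pderiv j (map res (Φ e)))) * xt ^ (e : ℕ) =
          rD * algebraMap ↥E Ft (Algebra.norm ↥E (∑ j, algebraMap k Ft (τ j) * rf j)) *
            algebraMap ↥E Ft (Algebra.trace ↥E Ft (hinv * rf j))

end Fermat.Agent.S27.Char0.Lift.Solve
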