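import Fermat.Agent.S27.Char0.Lift.H68_NormSys
import Fermat.Agent.S27.Char0.Lift.H68_SolveDefs2
import Fermat.Agent.S27.Char0.Lift.H68_SolveDefs3
import Fermat.Agent.S27.Char0.Lift.H45_Resid

/-!
# S27 LIFT, leaf SOLVE (helper68): assembly

`stmt_Solve_of : Stmt_NormPoly → Stmt_JacOrd → Stmt_JacConst → Stmt_EvalID → Stmt_Solve`.

Route: `normSys` (the norm system `D · N(∑ t_j f_j) = ∑_e Φ_e(t) x^e` with `Φ_e ∈ O[t]` and its
reduction), the residual solution `τ` (`ht = ∑ τ_j rd f_j`), helper45's `resid`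
(`rd D · N(ht) = c~ ∏ (xt - α_Q)^n`), the Jacobian criterion (JAC-ORD, JAC-CONST and the linear
independence of the `rd f_j`), and the abstract Hensel lifting `solveAlg`.
-/

set_option autoImplicit false
set_option linter.style.haveILetI false
set_option linter.unusedSectionVars false
set_option linter.unusedSimpArgs false

noncomputable section

open AlgebraicCurve IntermediateField

namespace Fermat.Agent.S27.Char0.Lift.H68

open Fermat.Agent.RED.H17 Fermat.Agent.S27.Char0 Fermat.Agent.S27.Char0.Lift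
open Fermat.Agent.S27.REDu.H34 Fermat.Agent.S27.REDu.H34.RedSetting
open Fermat.Agent.S27.Lift.H68 MvPolynomial

attribute [local instance] Classical.propDecidable

local notation "L" => riemannRochSpace

universe u v u' v'

section alg

variable {R A : Type*} [CommRing R] [CommRing A] [Algebra R A]

lemma aeval_polyOfCoeffs (M : ℕ) (c : Fin (M + 1) → R) (y : A) :
    Polynomial.aeval y (polyOfCoeffs M c) = ∑ e, algebraMap R A (c e) * y ^ (e : ℕ) := by
  simp [polyOfCoeffs, map_sum]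

lemma aeval_rootProd {g : ℕ} (n : ℕ) (a : Fin g → R) (y : A) :
    Polynomial.aeval y (rootProd n a) = ∏ i, (y - algebraMap R A (a i)) ^ n := by
  simp [rootProd, map_prod]

end alg

variable {K : Type u} {F : Type v} {k : Type u'} {Ft : Type v'} [Field K] [Field F]
  [Algebra K F] [Field k] [Field Ft] [Algebra k Ft]

theorem solve_core [IsAlgClosed K] [IsAlgClosed k] (G : GoodRed K F k Ft)
    (H : FFHyp K F) (H' : FFHyp k Ft)
    (xt : Ft) (hxt : xt = G.S.red ⟨G.x, G.hx⟩) (htr : Transcendental k xt)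
    (hfin : Module.Finite ↥K⟮G.x⟯ F)
    (hdeg : Module.finrank ↥k⟮xt⟯ Ft = Module.finrank ↥K⟮G.x⟯ F)
    {g n : ℕ} (hn : (n : k) ≠ 0) {E : Divisor k Ft} (Gd : GenericData k Ft xt g n E)
    {N : ℕ} (hN : (N : ℤ) = n * g + 1 - g) (Ld : LatticeData G n Gd.Et' N)
    (hD : dfin G n Ld.E' Ld.b ∈ K⟮G.x⟯)
    (hpoly : ∀ h ∈ L ((n : ℤ) • Ld.E'), ∃ p : Polynomial K, p.natDegree ≤ n * g ∧
      dfin G n Ld.E' Ld.b * algebraMap ↥K⟮G.x⟯ F (Algebra.norm ↥K⟮G.x⟯ h) =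
        Polynomial.aeval G.x p)
    (hDV : dfin G n Ld.E' Ld.b ∈ G.S.V)
    (ct : k) (hct : ct ≠ 0)
    (hres : G.S.rd (dfin G n Ld.E' Ld.b) *
        algebraMap ↥k⟮xt⟯ Ft (Algebra.norm ↥k⟮xt⟯ Gd.ht) =
      algebraMap k Ft ct * ∏ Q ∈ Gd.A, (xt - algebraMap k Ft (Gd.α Q)) ^ n)
    (hJC : ∀ dh ∈ L ((n : ℤ) • Gd.Et'),
      (∀ Q ∈ Gd.A, -1 ≤ Q.ord (algebraMap ↥k⟮xt⟯ Ft
        (Algebra.trace ↥k⟮xt⟯ Ft (dh * Gd.ht⁻¹)))) →
      ∃ γ : k, dh = algebraMap k Ft γ * Gd.ht)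
    (hJO : Solve.Stmt_JacOrd.{u', v'}) (hEV : Solve.Stmt_EvalID.{u, u', v'}) :
    ∃ h : F, IsSolution G n Gd.A Gd.α Gd.ht Ld.E' Ld.b h := by
  classical
  subst hxt
  have hresmap : IsResidueMap (resHom G.S) :=
    ⟨(settingOfSetup G.S).resO_surj, fun c => by
      rw [IsLocalRing.mem_maximalIdeal, mem_nonunits_iff]
      exact (settingOfSetup G.S).resO_eq_zero_iff c⟩
  have hn0 : n ≠ 0 := by
    rintro rfl
    exact hn Nat.cast_zero
  -- Step 1: the norm system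
  have hLsub : ∀ t : Fin N → K, (∑ j, algebraMap K F (t j) * Ld.f j) ∈ L ((n : ℤ) • Ld.E') := by
    intro t
    refine Submodule.sum_mem _ fun j _ => ?_
    rw [← Algebra.smul_def]
    exact Submodule.smul_mem _ _ (Ld.f_mem_L j)
  obtain ⟨Φ, βt, hstar, hID⟩ : ∃ (Φ : Fin (n * g + 1) →
        MvPolynomial (Fin N) ↥(G.S.V.comap (algebraMap K F)))
      (βt : Module.Basis (Fin (Module.finrank ↥K⟮G.x⟯ F)) ↥k⟮G.S.red ⟨G.x, G.hx⟩⟯ Ft),
      (∀ t : Fin N → ↥(G.S.V.comap (algebraMap K F)),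
        dfin G n Ld.E' Ld.b * algebraMap ↥K⟮G.x⟯ F
            (Algebra.norm ↥K⟮G.x⟯ (∑ j, algebraMap K F (t j : K) * Ld.f j)) =
          ∑ e : Fin (n * g + 1), algebraMap K F
            ((eval t (Φ e) : ↥(G.S.V.comap (algebraMap K F))) : K) * G.x ^ (e : ℕ)) ∧
      ∑ e : Fin (n * g + 1), C (G.S.red ⟨G.x, G.hx⟩ ^ (e : ℕ)) *
          map ((algebraMap k Ft).comp (resHom G.S)) (Φ e) =
        C (G.S.red ⟨dfin G n Ld.E' Ld.b, hDV⟩) * map (algebraMap ↥k⟮G.S.red ⟨G.x, G.hx⟩⟯ Ft)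
          (normFormAlg βt fun j => G.S.red ⟨Ld.f j, Ld.f_mem_V j⟩) :=
    normSys (settingOfSetup G.S) G.hx htr hdeg (dfin G n Ld.E' Ld.b) hD hDV Ld.f
      Ld.f_mem_V (M := n * g) (fun t => hpoly _ (hLsub fun j => (t j : K)))
  -- Step 2: the residual solution
  have hrf : ∀ j, G.S.rd (Ld.f j) = G.S.red ⟨Ld.f j, Ld.f_mem_V j⟩ := fun j =>
    G.S.rd_of_mem (Ld.f_mem_V j)
  have hrD : G.S.rd (dfin G n Ld.E' Ld.b) = G.S.red ⟨dfin G n Ld.E' Ld.b, hDV⟩ :=
    G.S.rd_of_mem hDV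
  have hhtL : Gd.ht ∈ L ((n : ℤ) • Gd.Et') := by
    rw [mem_L_iff_ord]
    intro v
    right
    rw [Gd.div_ht v, Finsupp.smul_apply, smul_eq_mul]
    have h1 := ptsDiv_nonneg Gd.A v
    have h2 : (0 : ℤ) ≤ (n : ℤ) * ptsDiv Gd.A v := mul_nonneg (by positivity) h1
    linarith
  obtain ⟨τ, hτ⟩ := (Submodule.mem_span_range_iff_exists_fun k).mp (Ld.f_span Gd.ht hhtL)
  have hτ' : ∑ j, algebraMap k Ft (τ j) * G.S.red ⟨Ld.f j, Ld.f_mem_V j⟩ = Gd.ht := by
    rw [← hτ]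
    refine Finset.sum_congr rfl fun j _ => ?_
    rw [Algebra.smul_def, hrf]
  obtain ⟨j0, hj0⟩ : ∃ j0, τ j0 ≠ 0 := by
    by_contra hall
    push Not at hall
    apply Gd.ht_ne
    rw [← hτ]
    exact Finset.sum_eq_zero fun j _ => by rw [hall j, zero_smul]
  -- the evaluation of the reduced identity
  have hEVτ := hEV k Ft k⟮G.S.red ⟨G.x, G.hx⟩⟯ ↥(G.S.V.comap (algebraMap K F)) (resHom G.S) N (n * g)
    (Module.finrank ↥K⟮G.x⟯ F) Φ (G.S.red ⟨G.x, G.hx⟩) (G.S.red ⟨dfin G n Ld.E' Ld.b, hDV⟩) βt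
    (fun j => G.S.red ⟨Ld.f j, Ld.f_mem_V j⟩) hID
  -- Step 3: indexing the points of `A`
  set eA : Fin g ≃ ↥Gd.A := (Gd.A.equivFinOfCardEq Gd.card_A).symm with heA
  set α : Fin g → k := fun i => Gd.α (eA i) with hα
  have hprod : ∀ φ : Place k Ft → Ft, ∏ Q ∈ Gd.A, φ Q = ∏ i : Fin g, φ (eA i) := by
    intro φ
    rw [← Finset.prod_coe_sort Gd.A φ]
    exact (Equiv.prod_comp eA (fun q : ↥Gd.A => φ q)).symm
  have hprodF : ∀ φ : Place k Ft → F, ∏ Q ∈ Gd.A, φ Q = ∏ i : Fin g, φ (eA i) := by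
    intro φ
    rw [← Finset.prod_coe_sort Gd.A φ]
    exact (Equiv.prod_comp eA (fun q : ↥Gd.A => φ q)).symm
  have hαinj : Function.Injective α := by
    intro i i' h
    have := Gd.inj (eA i) (eA i).2 (eA i') (eA i').2 h
    exact eA.injective (Subtype.ext this)
  have hinjA : Function.Injective (Polynomial.aeval (R := k) (G.S.red ⟨G.x, G.hx⟩)) :=
    transcendental_iff_injective.mp htr
  -- Step 4: the residual equation
  have hresid : polyOfCoeffs (n * g) (fun e => eval τ (map (resHom G.S) (Φ e))) =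
      Polynomial.C ct * rootProd n α := by
    apply hinjA
    rw [aeval_polyOfCoeffs, (hEVτ τ).1, hτ', ← hrD, hres, map_mul, Polynomial.aeval_C,
      aeval_rootProd, hprod]
  -- Step 5: the Jacobian criterion
  have hrfL : ∀ j, G.S.red ⟨Ld.f j, Ld.f_mem_V j⟩ ∈ L ((n : ℤ) • Gd.Et') := by
    intro j
    rw [← hrf j]
    have := G.S.Rsub_le H.principal ((n : ℤ) • Ld.E') ⟨Ld.f j, Ld.f_mem_V j, Ld.f_mem_L j, rfl⟩
    rwa [Finsupp.mapDomain_smul, Ld.push] at this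
  have hhtinv : (∑ j, algebraMap k Ft (τ j) * G.S.red ⟨Ld.f j, Ld.f_mem_V j⟩) * Gd.ht⁻¹ = 1 := by
    rw [hτ']
    exact mul_inv_cancel₀ Gd.ht_ne
  have hR2 := (hEVτ τ).2 Gd.ht⁻¹ hhtinv
  have hLct : Polynomial.aeval (G.S.red ⟨G.x, G.hx⟩) (Polynomial.C ct * rootProd n α) =
      G.S.red ⟨dfin G n Ld.E' Ld.b, hDV⟩ *
        algebraMap ↥k⟮G.S.red ⟨G.x, G.hx⟩⟯ Ft (Algebra.norm ↥k⟮G.S.red ⟨G.x, G.hx⟩⟯ Gd.ht) := by
    rw [map_mul, Polynomial.aeval_C, aeval_rootProd, ← hrD, hres, hprod]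
  have hjac : ∀ (dt : Fin N → k) (da : Fin g → k) (dc : k), dt j0 = 0 →
      polyOfCoeffs (n * g) (fun e => ∑ j, dt j * eval τ (pderiv j (map (resHom G.S) (Φ e)))) =
        Polynomial.C dc * rootProd n α -
          Polynomial.C (ct * n) * ∑ i, Polynomial.C (da i) * rootProdErase n α i → dt = 0 := by
    intro dt da dc hdt0 hΛ
    set dh : Ft := ∑ j, algebraMap k Ft (dt j) * G.S.red ⟨Ld.f j, Ld.f_mem_V j⟩ with hdh
    have hdhL : dh ∈ L ((n : ℤ) • Gd.Et') := by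
      refine Submodule.sum_mem _ fun j _ => ?_
      rw [← Algebra.smul_def]
      exact Submodule.smul_mem _ _ (hrfL j)
    set T : Ft := algebraMap ↥k⟮G.S.red ⟨G.x, G.hx⟩⟯ Ft
      (Algebra.trace ↥k⟮G.S.red ⟨G.x, G.hx⟩⟯ Ft (dh * Gd.ht⁻¹)) with hT
    have hTsum : T = ∑ j, algebraMap k Ft (dt j) *
        algebraMap ↥k⟮G.S.red ⟨G.x, G.hx⟩⟯ Ft (Algebra.trace ↥k⟮G.S.red ⟨G.x, G.hx⟩⟯ Ft
          (Gd.ht⁻¹ * G.S.red ⟨Ld.f j, Ld.f_mem_V j⟩)) := by
      have h1 : dh * Gd.ht⁻¹ = ∑ j, algebraMap k ↥k⟮G.S.red ⟨G.x, G.hx⟩⟯ (dt j) •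
          (Gd.ht⁻¹ * G.S.red ⟨Ld.f j, Ld.f_mem_V j⟩) := by
        rw [hdh, Finset.sum_mul]
        refine Finset.sum_congr rfl fun j _ => ?_
        rw [Algebra.smul_def, ← IsScalarTower.algebraMap_apply]
        ring
      rw [hT, h1, map_sum, map_sum]
      refine Finset.sum_congr rfl fun j _ => ?_
      rw [map_smul, smul_eq_mul, map_mul, ← IsScalarTower.algebraMap_apply]
    have hTeq : Polynomial.aeval (G.S.red ⟨G.x, G.hx⟩) (Polynomial.C ct * rootProd n α) * T =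
        Polynomial.aeval (G.S.red ⟨G.x, G.hx⟩) (Polynomial.C dc * rootProd n α -
          Polynomial.C (ct * n) * ∑ i, Polynomial.C (da i) * rootProdErase n α i) := by
      rw [← hΛ, aeval_polyOfCoeffs, hLct, hTsum, Finset.mul_sum]
      simp only [map_sum, map_mul, Finset.sum_mul]
      rw [Finset.sum_comm]
      refine Finset.sum_congr rfl fun j _ => ?_
      have := hR2 j
      rw [hτ'] at this
      calc _ = algebraMap k Ft (dt j) * (G.S.red ⟨dfin G n Ld.E' Ld.b, hDV⟩ *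
            algebraMap ↥k⟮G.S.red ⟨G.x, G.hx⟩⟯ Ft
              (Algebra.norm ↥k⟮G.S.red ⟨G.x, G.hx⟩⟯ Gd.ht) *
            algebraMap ↥k⟮G.S.red ⟨G.x, G.hx⟩⟯ Ft (Algebra.trace ↥k⟮G.S.red ⟨G.x, G.hx⟩⟯ Ft
              (Gd.ht⁻¹ * G.S.red ⟨Ld.f j, Ld.f_mem_V j⟩))) := by ring
        _ = _ := by
          rw [← this, Finset.mul_sum]
          refine Finset.sum_congr rfl fun e _ => ?_
          ring
    have hord := hJO k Ft (G.S.red ⟨G.x, G.hx⟩) htr g n α (fun i => (eA i : Place k Ft)) hαinj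
      (fun i => Gd.simple _ (eA i).2) ct dc da T hct hTeq
    obtain ⟨γ, hγ⟩ := hJC dh hdhL (fun Q hQ => by
      have := hord (eA.symm ⟨Q, hQ⟩)
      have h2 : ((eA (eA.symm ⟨Q, hQ⟩) : ↥Gd.A) : Place k Ft) = Q := by
        rw [Equiv.apply_symm_apply]
      rw [h2] at this
      exact this)
    have hli := Ld.f_li
    have hzero : ∑ j, (dt j - γ * τ j) • G.S.rd (Ld.f j) = 0 := by
      have h1 : ∑ j, (dt j - γ * τ j) • G.S.rd (Ld.f j) = dh - algebraMap k Ft γ * Gd.ht := by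
        rw [hdh, ← hτ', Finset.mul_sum, ← Finset.sum_sub_distrib]
        refine Finset.sum_congr rfl fun j _ => ?_
        rw [Algebra.smul_def, hrf, map_sub, map_mul]
        ring
      rw [h1, hγ, sub_self]
    have hall := Fintype.linearIndependent_iff.mp hli _ hzero
    have hγ0 : γ = 0 := by
      have := hall j0
      rw [hdt0, zero_sub, neg_eq_zero] at this
      exact (mul_eq_zero.mp this).resolve_right hj0
    funext j
    have := hall j
    rw [hγ0, zero_mul, sub_zero] at this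
    exact this
  -- Step 6: the exact solution
  have hNg : N + g = n * g + 1 := by
    have : (N : ℤ) + g = ((n * g : ℕ) : ℤ) + 1 := by
      push_cast
      linarith
    exact_mod_cast this
  obtain ⟨t, a, c, ht, ha, hc, hsol⟩ := solveAlg (O := ↥(G.S.V.comap (algebraMap K F))) K
    hresmap hn rfl hNg Φ j0 τ α hαinj ct hct hresid hjac
  -- Step 7: the solution
  have hresrd : ∀ b : ↥(G.S.V.comap (algebraMap K F)),
      G.S.rd (algebraMap K F (b : K)) = algebraMap k Ft (resHom G.S b) :=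
    fun b => (settingOfSetup_resO G.S b).symm
  have htV : ∀ j, algebraMap K F (t j : K) ∈ G.S.V := fun j => (t j).2
  refine ⟨∑ j, algebraMap K F (t j : K) * Ld.f j, ?_, ?_, hLsub _, ?_⟩
  · exact (G.S.rd_sum _ _ fun j _ => G.S.V.mul_mem _ _ (htV j) (Ld.f_mem_V j)).1
  · rw [(G.S.rd_sum _ _ fun j _ => G.S.V.mul_mem _ _ (htV j) (Ld.f_mem_V j)).2, ← hτ']
    refine Finset.sum_congr rfl fun j _ => ?_
    rw [G.S.rd_mul (htV j) (Ld.f_mem_V j), hresrd, ht, hrf]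
  · refine ⟨(c : K), fun Q => if hQ : Q ∈ Gd.A then (a (eA.symm ⟨Q, hQ⟩) : K) else 0, ?_,
      fun Q hQ => ?_, ?_⟩
    · intro h0
      have : c = 0 := Subtype.ext h0
      rw [this, map_zero] at hc
      exact hct hc.symm
    · dsimp only
      rw [dif_pos hQ]
      refine ⟨(a (eA.symm ⟨Q, hQ⟩)).2, ?_⟩
      rw [hresrd, ha]
      show algebraMap k Ft (Gd.α (eA (eA.symm ⟨Q, hQ⟩))) = _
      rw [Equiv.apply_symm_apply]
    · rw [hstar t]
      have h1 : ∑ e : Fin (n * g + 1), algebraMap K F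
          ((eval t (Φ e) : ↥(G.S.V.comap (algebraMap K F))) : K) * G.x ^ (e : ℕ) =
          Polynomial.aeval G.x ((polyOfCoeffs (n * g) fun e => eval t (Φ e)).map
            (G.S.V.comap (algebraMap K F)).subtype) := by
        rw [map_polyOfCoeffs, aeval_polyOfCoeffs]
        rfl
      rw [h1, hsol, Polynomial.map_mul, Polynomial.map_C, map_rootProd, map_mul,
        Polynomial.aeval_C, aeval_rootProd, hprodF]
      congr 1
      refine Finset.prod_congr rfl fun i _ => ?_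
      dsimp only
      rw [dif_pos (eA i).2]
      simp

/-- **SOLVE** from its sub-leaves. -/
theorem stmt_Solve_of (hNP : Solve.Stmt_NormPoly.{u, v, u', v'})
    (hJO : Solve.Stmt_JacOrd.{u', v'}) (hJC : Solve.Stmt_JacConst.{u', v'})
    (hEV : Solve.Stmt_EvalID.{u, u', v'}) : Stmt_Solve.{u, v, u', v'} := by
  intro K F k Ft _ _ _ _ _ _ _ _ _ G H H' g c c' hg hg' n hn E Gd N hN Ld
  obtain ⟨hD, hpoly⟩ := hNP K F k Ft G H H' g n E Gd N Ld
  obtain ⟨ct, β, hct, -, hDV, -, hres⟩ := H45.resid G H H' Gd Ld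
  have hJC' := hJC k Ft H' (G.S.rd G.x) G.transc G.fin' G.sep' g n E Gd
  exact solve_core G H H' (G.S.rd G.x) (G.S.rd_of_mem G.hx) G.transc G.fin G.deg hn Gd hN Ld
    hD hpoly hDV ct hct hres hJC' hJO hEV

end Fermat.Agent.S27.Char0.Lift.H68
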