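import Fermat.Agent.S27.Char0.Lift.H45_Fibre
import Fermat.Agent.S27.Char0.Lift.Defs

/-!
# S27 LIFT, leaf TRACEPOLE (helper83): the order of the pole of a trace

`stmt_TracePole : Lift.Stmt_TracePole` : if `w` has a pole of order `m ≥ 1` at a place `Q` where
`xt - α` has a simple zero and `w` is regular at the other zeros of `xt - α`, then the trace of
`w` to `k(xt)` has a pole of order exactly `m` at `Q`.

Route (norms only, no completions): `z := (xt - α)^m w` is a unit at `Q` with value `u ≠ 0` and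
vanishes at the other points of the fibre.  The characteristic polynomial `χ` of `z` has values
`χ(c) = N(c - z)`; by the norm formula on the fibre (`H45.norm_at_simple`) these are regular at
`Q` for constants `c`, so `χ` has coefficients in the valuation ring of `Q` (Lagrange
interpolation).  Its reduction has its roots in `{0, u}`, and `u` is a simple root (second order
Taylor expansion at `u + π d` against the norm formula).  Hence the reduction is
`X^(n-1) (X - u)` and the trace of `z` has the value `u` at `Q`.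
This file contains no unproved statement.
-/

set_option autoImplicit false

noncomputable section

open AlgebraicCurve IntermediateField Polynomial

namespace Fermat.Agent.S27.Char0.Lift.H83

open Fermat.Agent.RED.H17 Fermat.Agent.RED.H51 Fermat.Agent.S27.Char0

universe u v

section Abstract

variable {K : Type u} {F : Type v} [Field K] [Field F] [Algebra K F]

/-- The value at a place of degree one, as a ring homomorphism. -/
theorem exists_evalHom (v : Place K F) (hdeg : v.deg = 1) :
    ∃ ev : ↥v.toValuationSubring →+* K,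
      (∀ c : K, ev (algebraMap K ↥v.toValuationSubring c) = c) ∧
      ∀ x : ↥v.toValuationSubring, ev x = 0 ↔ VanAt v (x : F) := by
  have h1 : (⊥ : Subalgebra K v.ResidueField) = ⊤ :=
    Subalgebra.bot_eq_top_of_finrank_eq_one hdeg
  have hsurj : Function.Surjective (algebraMap K v.ResidueField) := by
    intro y
    have h2 : y ∈ (⊥ : Subalgebra K v.ResidueField) := by rw [h1]; exact Algebra.mem_top
    exact Algebra.mem_bot.mp h2
  have hbij : Function.Bijective (algebraMap K v.ResidueField) :=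
    ⟨(algebraMap K v.ResidueField).injective, hsurj⟩
  let e : K ≃+* v.ResidueField := RingEquiv.ofBijective (algebraMap K v.ResidueField) hbij
  refine ⟨e.symm.toRingHom.comp (IsLocalRing.residue ↥v.toValuationSubring), ?_, ?_⟩
  · intro c
    show e.symm (IsLocalRing.residue ↥v.toValuationSubring (algebraMap K ↥v.toValuationSubring c))
      = c
    rw [RingEquiv.symm_apply_eq]
    rfl
  · intro x
    show e.symm (IsLocalRing.residue ↥v.toValuationSubring x) = 0 ↔ _
    rw [RingEquiv.symm_apply_eq, map_zero, IsLocalRing.residue_eq_zero_iff]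
    unfold VanAt
    rw [v.adicValuation_coe x]
    exact (IsDedekindDomain.HeightOneSpectrum.intValuation_lt_one_iff_mem
      v.heightOneSpectrum x).symm

/-- A monic polynomial over an algebraically closed field whose roots are `0` and a simple root
`u` has next coefficient `-u`. -/
theorem nextCoeff_of_roots {k : Type*} [Field k] [IsAlgClosed k] (p : k[X]) (hp : p.Monic)
    (u : k) (hroots : ∀ c, p.IsRoot c → c = 0 ∨ c = u) (hroot : p.IsRoot u)
    (hsimple : ¬ (derivative p).IsRoot u) : p.nextCoeff = -u := by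
  classical
  have hp0 : p ≠ 0 := hp.ne_zero
  rw [(IsAlgClosed.splits p).nextCoeff_eq_neg_sum_roots_of_monic hp]
  congr 1
  have hmem : u ∈ p.roots := (mem_roots hp0).mpr hroot
  have hcount : p.roots.count u = 1 := by
    rw [count_roots]
    have h1 : 0 < p.rootMultiplicity u := (rootMultiplicity_pos hp0).mpr hroot
    have h2 : ¬ 1 < p.rootMultiplicity u := by
      rw [one_lt_rootMultiplicity_iff_isRoot hp0]
      exact fun h => hsimple h.2
    omega
  rw [← Multiset.cons_erase hmem, Multiset.sum_cons]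
  have hz : ∀ x ∈ p.roots.erase u, x = 0 := by
    intro x hx
    have hx' : x ∈ p.roots := Multiset.mem_of_mem_erase hx
    rcases hroots x ((mem_roots hp0).mp hx') with h | h
    · exact h
    · exfalso
      rw [h] at hx
      have h3 : 0 < (p.roots.erase u).count u := Multiset.count_pos.mpr hx
      rw [Multiset.count_erase_self, hcount] at h3
      exact absurd h3 (by norm_num)
  rw [Multiset.sum_eq_zero hz, add_zero]

/-- Second order Taylor expansion at a place. -/
theorem taylor_ordGe (Q : Place K F) (p : (↥Q.toValuationSubring)[X])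
    (a h : ↥Q.toValuationSubring) (hh : VanAt Q (h : F))
    (h1 : VanAt Q ((p.derivative.eval a : ↥Q.toValuationSubring) : F)) :
    OrdGe Q 2 (((p.eval (a + h) : ↥Q.toValuationSubring) : F)
      - ((p.eval a : ↥Q.toValuationSubring) : F)) := by
  obtain ⟨c, hc⟩ := p.binomExpansion a h
  have e1 : ((p.eval (a + h) : ↥Q.toValuationSubring) : F)
      - ((p.eval a : ↥Q.toValuationSubring) : F)
      = ((p.derivative.eval a : ↥Q.toValuationSubring) : F) * (h : F)
        + (c : F) * ((h : F) * (h : F)) := by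
    rw [hc]
    push_cast
    ring
  rw [e1]
  have hh1 : OrdGe Q 1 (h : F) := by
    rcases (vanAt_iff_ord Q _).mp hh with h0 | h0
    · exact Or.inl h0
    · exact Or.inr (by omega)
  have hB : OrdGe Q 1 ((p.derivative.eval a : ↥Q.toValuationSubring) : F) := by
    rcases (vanAt_iff_ord Q _).mp h1 with h0 | h0
    · exact Or.inl h0
    · exact Or.inr (by omega)
  have hc0 : OrdGe Q 0 (c : F) := (ordGe_zero_iff_mem Q _).mpr c.2
  have t1 := hB.mul hh1
  have t2 := hc0.mul (hh1.mul hh1)
  norm_num at t1 t2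
  exact t1.add t2

/-- A nonzero constant plus a function vanishing at `P` is a unit at `P`. -/
theorem const_add_van (P : Place K F) {c : K} (hc : c ≠ 0) {y : F} (hy : VanAt P y) :
    algebraMap K F c + y ≠ 0 ∧ P.ord (algebraMap K F c + y) = 0 := by
  have hc0 : algebraMap K F c ≠ 0 := (map_ne_zero_iff _ (algebraMap K F).injective).mpr hc
  have h0 : P.ord (algebraMap K F c) = 0 := Fermat.Agent.RED.H17.ord_algebraMap P c
  constructor
  · intro h
    have h1 : y = -algebraMap K F c := by
      rw [eq_neg_iff_add_eq_zero, add_comm]; exact h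
    rw [h1] at hy
    have h2 := hy.neg
    rw [neg_neg] at h2
    exact not_vanAt_algebraMap P hc h2
  · rw [ord_add_of_lt P hc0, h0]
    rcases (vanAt_iff_ord P y).mp hy with h | h
    · exact Or.inl h
    · exact Or.inr (by rw [h0]; exact h)

/-- A polynomial over a field taking values in a subring `A` at all constants of an infinite
subfield contained in `A` has its coefficients in `A` (Lagrange interpolation). -/
theorem coeff_mem_of_eval_mem {k E : Type*} [Field k] [Infinite k] [Field E] (ι : k →+* E)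
    (A : Subring E) (hι : ∀ c, ι c ∈ A) (p : E[X]) (hp : ∀ c : k, p.eval (ι c) ∈ A) (j : ℕ) :
    p.coeff j ∈ A := by
  classical
  set n := p.natDegree with hn
  let s : Finset ℕ := Finset.range (n + 1)
  let c : ℕ → k := Infinite.natEmbedding k
  let v : ℕ → E := fun i => ι (c i)
  have hv : Set.InjOn v s := fun a _ b _ hab =>
    (Infinite.natEmbedding k).injective (ι.injective hab)
  have hdeg : p.degree < s.card := by
    rw [Finset.card_range]
    exact lt_of_le_of_lt degree_le_natDegree (by exact_mod_cast Nat.lt_succ_self n)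
  have h1 := Lagrange.eq_interpolate hv hdeg
  have hb : ∀ i, Lagrange.basis s v i = (Lagrange.basis s c i).map ι := by
    intro i
    simp [Lagrange.basis, Lagrange.basisDivisor, Polynomial.map_prod, v]
  rw [h1, Lagrange.interpolate_apply, finsetSum_coeff]
  refine Subring.sum_mem _ fun i _ => ?_
  rw [coeff_C_mul, hb, coeff_map]
  exact A.mul_mem (hp _) (hι _)

end Abstract

section Main

variable {k : Type u} {Ft : Type v} [Field k] [Field Ft] [Algebra k Ft]

/-- The characteristic polynomial of `z` over `k(x)`: values are norms, the next coefficient is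
minus the trace. -/
theorem exists_charpoly (xt : Ft) [FiniteDimensional ↥k⟮xt⟯ Ft] (z : Ft) :
    ∃ χ : (↥k⟮xt⟯)[X], χ.Monic ∧ 0 < χ.natDegree ∧
      (∀ c : ↥k⟮xt⟯, χ.eval c = Algebra.norm ↥k⟮xt⟯ (algebraMap ↥k⟮xt⟯ Ft c - z)) ∧
      Algebra.trace ↥k⟮xt⟯ Ft z = -χ.nextCoeff := by
  classical
  let b := Module.finBasis ↥k⟮xt⟯ Ft
  refine ⟨(Algebra.leftMulMatrix b z).charpoly, Matrix.charpoly_monic _, ?_, ?_, ?_⟩
  · rw [Matrix.charpoly_natDegree_eq_dim, Fintype.card_fin]
    exact Module.finrank_pos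
  · intro c
    rw [Matrix.eval_charpoly, Algebra.norm_eq_matrix_det b, map_sub, AlgHom.commutes]
    rfl
  · rw [Algebra.trace_eq_matrix_trace b, Matrix.trace_eq_neg_charpoly_nextCoeff]

/-- **TRACEPOLE**, in the form: the trace of `z` (`z` a unit at the simple point `Q` of the
fibre `x = α`, vanishing at the other points of the fibre) is a unit at `Q`. -/
theorem trace_unit [IsAlgClosed k] (H : FFHyp k Ft) (xt : Ft) (hx : Transcendental k xt)
    [FiniteDimensional ↥k⟮xt⟯ Ft] (α : k) (Q : Place k Ft)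
    (hQπ : Q.ord (xt - algebraMap k Ft α) = 1) (z : Ft) (hz0 : z ≠ 0) (hQz : Q.ord z = 0)
    (hPz : ∀ P : Place k Ft, P ≠ Q → 0 < P.ord (xt - algebraMap k Ft α) → VanAt P z) :
    algebraMap ↥k⟮xt⟯ Ft (Algebra.trace ↥k⟮xt⟯ Ft z) ≠ 0 ∧
      Q.ord (algebraMap ↥k⟮xt⟯ Ft (Algebra.trace ↥k⟮xt⟯ Ft z)) = 0 := by
  classical
  set π : Ft := xt - algebraMap k Ft α with hπ
  have hπ0 : π ≠ 0 := ne_zero_of_ord_ne_zero Q (by rw [hQπ]; norm_num)
  obtain ⟨T, hT, hN⟩ := H45.norm_at_simple H.principal xt hx α Q hQπ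
  have hQT : Q ∈ T := (hT Q).mpr (by rw [hQπ]; norm_num)
  obtain ⟨ev, hev_c, hev_0⟩ := exists_evalHom Q (H.deg_one Q)
  obtain ⟨χ, hχm, hχd, hχe, hχt⟩ := exists_charpoly (k := k) xt z
  -- notation
  set alg : ↥k⟮xt⟯ →+* Ft := algebraMap ↥k⟮xt⟯ Ft with halg
  have hcF : ∀ c : k, algebraMap k Ft c = alg (algebraMap k ↥k⟮xt⟯ c) := fun c =>
    IsScalarTower.algebraMap_apply k ↥k⟮xt⟯ Ft c
  -- the value of `z` at `Q`
  have hzO : z ∈ Q.toValuationSubring := (mem_iff_ord_nonneg Q hz0).mpr (by rw [hQz])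
  set u : k := ev ⟨z, hzO⟩ with hu
  have hu0 : u ≠ 0 := by
    intro h
    rcases (vanAt_iff_ord Q _).mp ((hev_0 ⟨z, hzO⟩).mp h) with h1 | h1
    · exact hz0 h1
    · rw [show ((⟨z, hzO⟩ : ↥Q.toValuationSubring) : Ft) = z from rfl, hQz] at h1
      exact lt_irrefl _ h1
  have hzu : VanAt Q (z - algebraMap k Ft u) := by
    have h1 : ev (⟨z, hzO⟩ - algebraMap k ↥Q.toValuationSubring u) = 0 := by
      rw [map_sub, hev_c, sub_self]
    exact (hev_0 _).mp h1
  -- norms at elements which are regular on the fibre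
  have hsum0 : ∀ y : Ft, (∀ P ∈ T, P ≠ Q → y ≠ 0 ∧ P.ord y = 0) → y ≠ 0 →
      Q.ord (alg (Algebra.norm ↥k⟮xt⟯ y)) = Q.ord y := by
    intro y hy hy0
    rw [← hN y hy0, ← Finset.add_sum_erase T _ hQT]
    rw [Finset.sum_eq_zero, add_zero]
    intro P hP
    exact (hy P (Finset.mem_of_mem_erase hP) (Finset.ne_of_mem_erase hP)).2
  have hnorm0 : ∀ y : Ft, y ≠ 0 → alg (Algebra.norm ↥k⟮xt⟯ y) ≠ 0 := by
    intro y hy
    exact (map_ne_zero_iff _ alg.injective).mpr (Algebra.norm_ne_zero_iff.mpr hy)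
  -- elements `c + (vanishing off Q)` on the fibre
  have hoff : ∀ (c : k), c ≠ 0 → ∀ y : Ft, (∀ P ∈ T, P ≠ Q → VanAt P y) →
      ∀ P ∈ T, P ≠ Q → algebraMap k Ft c + y ≠ 0 ∧ P.ord (algebraMap k Ft c + y) = 0 :=
    fun c hc y hy P hP hPQ => const_add_van P hc (hy P hP hPQ)
  have hzT : ∀ P ∈ T, P ≠ Q → VanAt P z := fun P hP hPQ => hPz P hPQ ((hT P).mp hP)
  have hπT : ∀ P ∈ T, VanAt P π := fun P hP => vanAt_of_ord_pos ((hT P).mp hP)
  -- values of `χ`
  have hχF : ∀ c : ↥k⟮xt⟯, (χ.map alg).eval (alg c)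
      = alg (Algebra.norm ↥k⟮xt⟯ (alg c - z)) := by
    intro c
    rw [eval_map, eval₂_at_apply, hχe]
  -- integrality
  have hint : ∀ j, (χ.map alg).coeff j ∈ Q.toValuationSubring.toSubring := by
    intro j
    have : Infinite k := IsAlgClosed.instInfinite
    refine coeff_mem_of_eval_mem (algebraMap k Ft) Q.toValuationSubring.toSubring (fun c => Q.algebraMap_mem' c)
      (χ.map alg) (fun c => ?_) j
    rw [hcF, hχF, ← hcF]
    show _ ∈ Q.toValuationSubring
    rw [← ordGe_zero_iff_mem]
    by_cases h0 : algebraMap k Ft c - z = 0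
    · rw [h0, Algebra.norm_zero, map_zero]; exact ordGe_zero Q 0
    · right
      rw [← hN _ h0]
      refine Finset.sum_nonneg fun P hP => ?_
      have h1 : RegAt P (algebraMap k Ft c - z) := by
        refine (regAt_algebraMap P c).sub ?_
        by_cases hPQ : P = Q
        · rw [hPQ]; exact regAt_of_ord_nonneg (by rw [hQz])
        · exact (hzT P hP hPQ).regAt
      exact h1.ord_nonneg
  have hlift : χ.map alg ∈ lifts Q.toValuationSubring.subtype := by
    rw [lifts_iff_coeff_lifts]
    intro j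
    exact ⟨⟨_, hint j⟩, rfl⟩
  obtain ⟨χO, hχO, -, hχOm⟩ := lifts_and_degree_eq_and_monic hlift (hχm.map alg)
  have hevalO : ∀ a : ↥Q.toValuationSubring, ((χO.eval a : ↥Q.toValuationSubring) : Ft) = (χ.map alg).eval (a : Ft) := by
    intro a
    rw [← hχO, eval_map]
    exact (eval₂_at_apply Q.toValuationSubring.subtype a).symm
  have hevalB : ∀ a : ↥Q.toValuationSubring, (χO.map ev).eval (ev a) = ev (χO.eval a) := by
    intro a
    rw [eval_map, eval₂_at_apply]
  -- the constants as elements of `O`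
  have hcO : ∀ c : k, ((algebraMap k ↥Q.toValuationSubring c : ↥Q.toValuationSubring) : Ft) = algebraMap k Ft c := fun c => rfl
  have hAconst : ∀ c : k, ((χO.eval (algebraMap k ↥Q.toValuationSubring c) : ↥Q.toValuationSubring) : Ft)
      = alg (Algebra.norm ↥k⟮xt⟯ (algebraMap k Ft c - z)) := by
    intro c
    rw [hevalO, hcO, hcF, hχF]
  -- the roots of the reduction
  have hroots : ∀ c : k, (χO.map ev).IsRoot c → c = 0 ∨ c = u := by
    intro c hc
    by_contra hne
    push Not at hne
    have h1 : ev (χO.eval (algebraMap k ↥Q.toValuationSubring c)) = 0 := by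
      rw [← hevalB, hev_c]; exact hc
    have h2 := (hev_0 _).mp h1
    rw [hAconst] at h2
    have e1 : algebraMap k Ft c - z = algebraMap k Ft (c - u) + (-(z - algebraMap k Ft u)) := by
      rw [map_sub]; ring
    have hcu : c - u ≠ 0 := sub_ne_zero.mpr hne.2
    have h3 := const_add_van Q hcu hzu.neg
    rw [← e1] at h3
    have h4 : ∀ P ∈ T, P ≠ Q → algebraMap k Ft c - z ≠ 0 ∧ P.ord (algebraMap k Ft c - z) = 0 := by
      intro P hP hPQ
      have := hoff c hne.1 (-z) (fun P hP hPQ => (hzT P hP hPQ).neg) P hP hPQ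
      rwa [← sub_eq_add_neg] at this
    have h5 := hsum0 _ h4 h3.1
    rw [h3.2] at h5
    rcases (vanAt_iff_ord Q _).mp h2 with h6 | h6
    · exact hnorm0 _ h3.1 h6
    · rw [h5] at h6; exact lt_irrefl _ h6
  -- `u` is a root
  have hAu : VanAt Q ((χO.eval (algebraMap k ↥Q.toValuationSubring u) : ↥Q.toValuationSubring) : Ft) := by
    rw [hAconst]
    by_cases h0 : algebraMap k Ft u - z = 0
    · rw [h0, Algebra.norm_zero, map_zero]; exact vanAt_zero Q
    · have h4 : ∀ P ∈ T, P ≠ Q →
          algebraMap k Ft u - z ≠ 0 ∧ P.ord (algebraMap k Ft u - z) = 0 := by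
        intro P hP hPQ
        have := hoff u hu0 (-z) (fun P hP hPQ => (hzT P hP hPQ).neg) P hP hPQ
        rwa [← sub_eq_add_neg] at this
      apply vanAt_of_ord_pos
      rw [hsum0 _ h4 h0, ord_sub_comm]
      exact hzu.ord_pos (fun h => h0 (by rw [← neg_sub, h, neg_zero]))
  have hroot : (χO.map ev).IsRoot u := by
    show (χO.map ev).eval u = 0
    have := hevalB (algebraMap k ↥Q.toValuationSubring u)
    rw [hev_c] at this
    rw [this]
    exact (hev_0 _).mpr hAu
  -- `u` is a simple root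
  have hsimple : ¬ (derivative (χO.map ev)).IsRoot u := by
    intro hd
    have hd1 : VanAt Q ((χO.derivative.eval (algebraMap k ↥Q.toValuationSubring u) : ↥Q.toValuationSubring) : Ft) := by
      apply (hev_0 _).mp
      have h1 : (derivative (χO.map ev)).eval u = 0 := hd
      rw [derivative_map, ← hev_c u, eval_map, eval₂_at_apply] at h1
      exact h1
    -- the function `y = (u - z) / π`
    set y : Ft := (algebraMap k Ft u - z) / π with hy
    have hyπ : π * y = algebraMap k Ft u - z := by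
      rw [hy]; field_simp
    have hyreg : RegAt Q y := by
      rw [regAt_iff_ord]
      by_cases h0 : algebraMap k Ft u - z = 0
      · left; rw [hy, h0, zero_div]
      · right
        rw [hy, Fermat.Agent.RED.H17.ord_div Q h0 hπ0, hQπ]
        have := hzu.ord_pos (fun h => h0 (by rw [← neg_sub, h, neg_zero]))
        rw [ord_sub_comm] at this
        omega
    obtain ⟨v₀, hv₀⟩ := Fermat.Agent.RED.H17.exists_value Q (H.deg_one Q) hyreg
    have hπO : π ∈ Q.toValuationSubring := (mem_iff_ord_nonneg Q hπ0).mpr (by rw [hQπ]; norm_num)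
    -- the values `A_d`
    have hAd : ∀ d : k, ((χO.eval (algebraMap k ↥Q.toValuationSubring u + ⟨π, hπO⟩ * algebraMap k ↥Q.toValuationSubring d) : ↥Q.toValuationSubring) : Ft)
        = alg (Algebra.norm ↥k⟮xt⟯ (π * (y + algebraMap k Ft d))) := by
      intro d
      rw [hevalO]
      have e1 : (((algebraMap k ↥Q.toValuationSubring u + ⟨π, hπO⟩ * algebraMap k ↥Q.toValuationSubring d : ↥Q.toValuationSubring)) : Ft)
          = alg (algebraMap k ↥k⟮xt⟯ u
            + (AdjoinSimple.gen k xt - algebraMap k ↥k⟮xt⟯ α) * algebraMap k ↥k⟮xt⟯ d) := by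
        rw [map_add, map_mul, map_sub, ← hcF, ← hcF, ← hcF]
        rfl
      rw [e1, hχF, ← e1]
      congr 2
      show algebraMap k Ft u + π * algebraMap k Ft d - z = _
      rw [mul_add, hyπ]
      ring
    have hTay : ∀ d : k, OrdGe Q 2
        (alg (Algebra.norm ↥k⟮xt⟯ (π * (y + algebraMap k Ft d)))
          - ((χO.eval (algebraMap k ↥Q.toValuationSubring u) : ↥Q.toValuationSubring) : Ft)) := by
      intro d
      rw [← hAd]
      refine taylor_ordGe Q χO _ _ ?_ hd1
      show VanAt Q (π * algebraMap k Ft d)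
      exact (vanAt_of_ord_pos (by rw [hQπ]; norm_num)).mul_regAt (regAt_algebraMap Q d)
    -- off `Q` the elements `π (y + d)` are units
    have hoffd : ∀ d : k, ∀ P ∈ T, P ≠ Q →
        π * (y + algebraMap k Ft d) ≠ 0 ∧ P.ord (π * (y + algebraMap k Ft d)) = 0 := by
      intro d P hP hPQ
      have e2 : π * (y + algebraMap k Ft d)
          = algebraMap k Ft u + (π * algebraMap k Ft d + -z) := by
        rw [mul_add, hyπ]; ring
      rw [e2]
      exact hoff u hu0 _ (fun P hP hPQ =>
        ((hπT P hP).mul_regAt (regAt_algebraMap P d)).add (hzT P hP hPQ).neg) P hP hPQ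
    -- `d₀ = -v₀`
    have h0 : OrdGe Q 2 (alg (Algebra.norm ↥k⟮xt⟯ (π * (y + algebraMap k Ft (-v₀))))) := by
      by_cases hr : y + algebraMap k Ft (-v₀) = 0
      · rw [hr, mul_zero, Algebra.norm_zero, map_zero]; exact ordGe_zero Q 2
      · right
        have hne : π * (y + algebraMap k Ft (-v₀)) ≠ 0 := mul_ne_zero hπ0 hr
        rw [hsum0 _ (hoffd (-v₀)) hne, Q.ord_mul hπ0 hr, hQπ]
        have hv : VanAt Q (y + algebraMap k Ft (-v₀)) := by
          rw [map_neg, ← sub_eq_add_neg]; exact hv₀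
        have := hv.ord_pos hr
        omega
    -- `d₁ = -v₀ + 1`
    have h1 : alg (Algebra.norm ↥k⟮xt⟯ (π * (y + algebraMap k Ft (-v₀ + 1)))) ≠ 0 ∧
        Q.ord (alg (Algebra.norm ↥k⟮xt⟯ (π * (y + algebraMap k Ft (-v₀ + 1))))) = 1 := by
      have hv : VanAt Q (y - algebraMap k Ft v₀) := hv₀
      have h2 := const_add_van Q (one_ne_zero (α := k)) hv
      have e3 : y + algebraMap k Ft (-v₀ + 1)
          = algebraMap k Ft 1 + (y - algebraMap k Ft v₀) := by
        rw [map_add, map_neg]; ring
      rw [← e3] at h2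
      have hne : π * (y + algebraMap k Ft (-v₀ + 1)) ≠ 0 := mul_ne_zero hπ0 h2.1
      refine ⟨hnorm0 _ hne, ?_⟩
      rw [hsum0 _ (hoffd (-v₀ + 1)) hne, Q.ord_mul hπ0 h2.1, hQπ, h2.2, add_zero]
    -- contradiction
    have hA : OrdGe Q 2 ((χO.eval (algebraMap k ↥Q.toValuationSubring u) : ↥Q.toValuationSubring) : Ft) := by
      have := h0.sub (hTay (-v₀))
      rwa [sub_sub_cancel] at this
    have hA1 := (hTay (-v₀ + 1)).add hA
    rw [sub_add_cancel] at hA1
    have := hA1.le h1.1
    rw [h1.2] at this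
    norm_num at this
  -- conclusion
  have hnc := nextCoeff_of_roots (χO.map ev) (hχOm.map ev) u hroots hroot hsimple
  rw [nextCoeff_map_of_leadingCoeff_ne_zero ev (by rw [hχOm.leadingCoeff, map_one]; exact one_ne_zero)]
    at hnc
  have hs : ((χO.nextCoeff : ↥Q.toValuationSubring) : Ft) = -alg (Algebra.trace ↥k⟮xt⟯ Ft z) := by
    have h1 : (χO.map Q.toValuationSubring.subtype).nextCoeff = Q.toValuationSubring.subtype χO.nextCoeff :=
      nextCoeff_map_of_leadingCoeff_ne_zero Q.toValuationSubring.subtype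
        (by rw [hχOm.leadingCoeff, map_one]; exact one_ne_zero)
    have h2 : (χ.map alg).nextCoeff = alg χ.nextCoeff :=
      nextCoeff_map_of_leadingCoeff_ne_zero alg
        (by rw [hχm.leadingCoeff, map_one]; exact one_ne_zero)
    rw [hχO, h2] at h1
    rw [hχt, map_neg, neg_neg, h1]
    rfl
  have hnv : ¬ VanAt Q ((χO.nextCoeff : ↥Q.toValuationSubring) : Ft) := by
    intro h
    have := (hev_0 _).mpr h
    rw [hnc] at this
    exact hu0 (neg_eq_zero.mp this)
  rw [hs] at hnv
  have hnv' : ¬ VanAt Q (alg (Algebra.trace ↥k⟮xt⟯ Ft z)) := fun h => hnv h.neg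
  have hreg : RegAt Q (alg (Algebra.trace ↥k⟮xt⟯ Ft z)) := by
    have : RegAt Q (-alg (Algebra.trace ↥k⟮xt⟯ Ft z)) := by
      rw [← hs, regAt_iff_mem]; exact χO.nextCoeff.2
    have := this.neg
    rwa [neg_neg] at this
  rw [vanAt_iff_ord] at hnv'
  push Not at hnv'
  exact ⟨hnv'.1, le_antisymm hnv'.2 hreg.ord_nonneg⟩

/-- **TRACEPOLE.** -/
theorem stmt_TracePole : Stmt_TracePole.{u, v} := by
  intro k Ft _ _ _ _ H xt hx hfin _ w α Q m hm hQπ hQw hreg
  have : FiniteDimensional ↥k⟮xt⟯ Ft := hfin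
  set π : Ft := xt - algebraMap k Ft α with hπ
  have hπ0 : π ≠ 0 := ne_zero_of_ord_ne_zero Q (by rw [hQπ]; norm_num)
  have hw0 : w ≠ 0 := ne_zero_of_ord_ne_zero Q (by rw [hQw]; omega)
  have hz0 : π ^ m * w ≠ 0 := mul_ne_zero (pow_ne_zero m hπ0) hw0
  have hQz : Q.ord (π ^ m * w) = 0 := by
    rw [Q.ord_mul (pow_ne_zero m hπ0) hw0, Fermat.Agent.RED.H17.ord_pow, hQπ, hQw]
    ring
  have hPz : ∀ P : Place k Ft, P ≠ Q → 0 < P.ord π → VanAt P (π ^ m * w) := by
    intro P hPQ hP
    apply vanAt_of_ord_pos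
    rw [P.ord_mul (pow_ne_zero m hπ0) hw0, Fermat.Agent.RED.H17.ord_pow]
    have h1 := hreg P hPQ hP
    have h2 : (1 : ℤ) ≤ (m : ℤ) * P.ord π := by
      have hm' : (1 : ℤ) ≤ (m : ℤ) := by exact_mod_cast hm
      nlinarith
    omega
  obtain ⟨hne, hord⟩ := trace_unit H xt hx α Q hQπ (π ^ m * w) hz0 hQz hPz
  -- linearity of the trace
  have hlin : algebraMap ↥k⟮xt⟯ Ft (Algebra.trace ↥k⟮xt⟯ Ft (π ^ m * w))
      = π ^ m * algebraMap ↥k⟮xt⟯ Ft (Algebra.trace ↥k⟮xt⟯ Ft w) := by
    have e1 : π ^ m * w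
        = ((AdjoinSimple.gen k xt - algebraMap k ↥k⟮xt⟯ α) ^ m : ↥k⟮xt⟯) • w := by
      rw [Algebra.smul_def, map_pow, map_sub, ← IsScalarTower.algebraMap_apply]
      rfl
    rw [e1, map_smul, smul_eq_mul, map_mul, map_pow, map_sub,
      ← IsScalarTower.algebraMap_apply]
    rfl
  rw [hlin] at hne hord
  have ht0 : algebraMap ↥k⟮xt⟯ Ft (Algebra.trace ↥k⟮xt⟯ Ft w) ≠ 0 := right_ne_zero_of_mul hne
  rw [Q.ord_mul (pow_ne_zero m hπ0) ht0, Fermat.Agent.RED.H17.ord_pow, hQπ] at hord
  omega

end Main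

end Fermat.Agent.S27.Char0.Lift.H83
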